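/-
S56 / W5 (Taylor-Wiles primes), group theory `GT`: definitions.  Owner: helper59.

`GT` = "H¹(Γ, ad⁰ ⊗ det) = 0" for the image `Γ ≤ GL₂(k)` of `ρbar`, in matrix form:
* `tad g X = det g • (g X g⁻¹)`        : the twisted adjoint action on `2 × 2` matrices;
* `IsTCocycle Γ ψ`                      : `ψ` is a trace-zero twisted cocycle on `Γ`;
* `IsTCob Γ ψ`                          : `ψ` is a twisted coboundary on `Γ`;
* `uMat a = [1, a; 0, 1]`, `lMat b = [1, 0; b, 1]`, `dMat t = [t, 0; 0, t⁻¹]`;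
* `conjSub c Γ = c Γ c⁻¹`;
* `BorelData p Γ A`                     : the output of the structure theorem (`GT/Structure.lean`)
                                          and the input of the Borel computation (`GT/Borel.lean`).
-/
import Mathlib

set_option autoImplicit false

namespace Fermat.Agent.S56.GT

open Matrix

variable {k : Type} [Field k]

/-- `[1, a; 0, 1]`. -/
def uMat (a : k) : GL (Fin 2) k := Matrix.GeneralLinearGroup.upperRightHom a

/-- `[1, 0; b, 1]`. -/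
def lMat (b : k) : GL (Fin 2) k :=
  ⟨!![1, 0; b, 1], !![1, 0; -b, 1], by simp [Matrix.one_fin_two], by simp [Matrix.one_fin_two]⟩

/-- `[t, 0; 0, t⁻¹]`. -/
def dMat (t : kˣ) : GL (Fin 2) k :=
  ⟨!![(t : k), 0; 0, ((t⁻¹ : kˣ) : k)], !![((t⁻¹ : kˣ) : k), 0; 0, (t : k)],
    by simp [Matrix.one_fin_two], by simp [Matrix.one_fin_two]⟩

@[simp] theorem coe_uMat (a : k) : (uMat a : Matrix (Fin 2) (Fin 2) k) = !![1, a; 0, 1] := rfl

@[simp] theorem coe_lMat (b : k) : (lMat b : Matrix (Fin 2) (Fin 2) k) = !![1, 0; b, 1] := rfl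

@[simp] theorem coe_dMat (t : kˣ) :
    (dMat t : Matrix (Fin 2) (Fin 2) k) = !![(t : k), 0; 0, ((t⁻¹ : kˣ) : k)] := rfl

/-- The twisted adjoint action `X ↦ det g • (g X g⁻¹)`. -/
def tad (g : GL (Fin 2) k) (X : Matrix (Fin 2) (Fin 2) k) : Matrix (Fin 2) (Fin 2) k :=
  ((Matrix.GeneralLinearGroup.det g : kˣ) : k) •
    ((g : Matrix (Fin 2) (Fin 2) k) * X * ((g⁻¹ : GL (Fin 2) k) : Matrix (Fin 2) (Fin 2) k))

/-- `ψ` is a trace-zero cocycle on `Γ` for the twisted adjoint action. -/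
structure IsTCocycle (Γ : Subgroup (GL (Fin 2) k))
    (ψ : GL (Fin 2) k → Matrix (Fin 2) (Fin 2) k) : Prop where
  trace_zero : ∀ g ∈ Γ, (ψ g).trace = 0
  map_mul : ∀ g ∈ Γ, ∀ h ∈ Γ, ψ (g * h) = ψ g + tad g (ψ h)

/-- `ψ` is a coboundary on `Γ` for the twisted adjoint action. -/
def IsTCob (Γ : Subgroup (GL (Fin 2) k))
    (ψ : GL (Fin 2) k → Matrix (Fin 2) (Fin 2) k) : Prop :=
  ∃ X : Matrix (Fin 2) (Fin 2) k, X.trace = 0 ∧ ∀ g ∈ Γ, ψ g = tad g X - X

/-- The conjugate subgroup `c Γ c⁻¹`. -/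
def conjSub (c : GL (Fin 2) k) (Γ : Subgroup (GL (Fin 2) k)) : Subgroup (GL (Fin 2) k) :=
  Γ.map (MulAut.conj c).toMonoidHom

theorem mem_conjSub {c g : GL (Fin 2) k} {Γ : Subgroup (GL (Fin 2) k)} :
    g ∈ conjSub c Γ ↔ c⁻¹ * g * c ∈ Γ := by
  constructor
  · rintro ⟨h, hh, rfl⟩
    simpa [mul_assoc] using hh
  · intro h
    exact ⟨c⁻¹ * g * c, h, by simp [mul_assoc]⟩

/-- Output of the structure theorem for an irreducible `Γ ≤ GL₂(k)` of order divisible by `p`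
(after conjugation): the upper unipotent elements of `Γ` are the `uMat a`, `a ∈ A`, they form a
Sylow `p`-subgroup, and either `A` has `3` elements, or `A` is a subfield, the torus elements
`dMat t` (`t ∈ A`) lie in `Γ` and `Γ` is generated by its Borel subgroup and elements of
determinant `1`. -/
structure BorelData (p : ℕ) (Γ : Subgroup (GL (Fin 2) k)) (A : AddSubgroup k) : Prop where
  mem_iff : ∀ a : k, uMat a ∈ Γ ↔ a ∈ A
  one_mem : (1 : k) ∈ A
  index : ¬ p ∣ Nat.card Γ / Nat.card A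
  cases : Nat.card A = 3 ∨
    ((∀ a ∈ A, ∀ b ∈ A, a * b ∈ A) ∧ (∀ t : kˣ, (t : k) ∈ A → dMat t ∈ Γ) ∧
      ∀ g ∈ Γ, ∃ h ∈ Γ, Matrix.GeneralLinearGroup.det h = 1 ∧
        ((h * g : GL (Fin 2) k) : Matrix (Fin 2) (Fin 2) k) 1 0 = 0)

end Fermat.Agent.S56.GT
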