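/-
S56 / W5 / GT leaf G3, auxiliary computations (owner: helper23).

Explicit formulas for the twisted adjoint action of `uMat a`, `dMat t` and of upper triangular
elements, and the conjugation formula for twisted cocycles.
-/
import Fermat.Agent.S56.TW.GT.Defs

set_option autoImplicit false

namespace Fermat.Agent.S56.GT

open Matrix

variable {k : Type} [Field k]

theorem bor_uMat_add (a b : k) : uMat (a + b) = uMat a * uMat b :=
  AddChar.map_add_eq_mul _ a b

theorem bor_uMat_zero : uMat (0 : k) = 1 := AddChar.map_zero_eq_one _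

theorem bor_uMat_inv (a : k) : (uMat a)⁻¹ = uMat (-a) :=
  (AddChar.map_neg_eq_inv _ a).symm

theorem bor_det_uMat (a : k) : Matrix.GeneralLinearGroup.det (uMat a) = 1 := by
  apply Units.ext
  simp [Matrix.GeneralLinearGroup.val_det_apply, Matrix.det_fin_two]

theorem bor_det_dMat (t : kˣ) : Matrix.GeneralLinearGroup.det (dMat t) = 1 := by
  apply Units.ext
  simp [Matrix.GeneralLinearGroup.val_det_apply, Matrix.det_fin_two]

theorem bor_dMat_inv_coe (t : kˣ) :
    (((dMat t)⁻¹ : GL (Fin 2) k) : Matrix (Fin 2) (Fin 2) k) =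
      !![((t⁻¹ : kˣ) : k), 0; 0, (t : k)] := rfl

/-- The twisted adjoint action of `uMat a`. -/
theorem bor_tad_uMat (a : k) (M : Matrix (Fin 2) (Fin 2) k) :
    tad (uMat a) M =
      !![M 0 0 + a * M 1 0, M 0 1 + a * M 1 1 - a * M 0 0 - a ^ 2 * M 1 0;
         M 1 0, M 1 1 - a * M 1 0] := by
  unfold tad
  rw [bor_det_uMat, bor_uMat_inv, Units.val_one, one_smul]
  ext i j
  fin_cases i <;> fin_cases j <;>
    simp only [Matrix.mul_apply, Fin.sum_univ_two, coe_uMat, Matrix.of_apply, Matrix.cons_val',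
      Matrix.cons_val_zero, Matrix.cons_val_one, Matrix.cons_val_fin_one, Fin.isValue,
      Fin.zero_eta, Fin.mk_one] <;> ring

/-- The twisted adjoint action of `dMat t`. -/
theorem bor_tad_dMat (t : kˣ) (M : Matrix (Fin 2) (Fin 2) k) :
    tad (dMat t) M =
      !![M 0 0, (t : k) ^ 2 * M 0 1; ((t⁻¹ : kˣ) : k) ^ 2 * M 1 0, M 1 1] := by
  unfold tad
  rw [bor_det_dMat, bor_dMat_inv_coe, Units.val_one, one_smul]
  have ht : (t : k) ≠ 0 := t.ne_zero
  have hti : ((t⁻¹ : kˣ) : k) = (t : k)⁻¹ := Units.val_inv_eq_inv_val t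
  ext i j
  fin_cases i <;> fin_cases j <;>
    simp only [Matrix.mul_apply, Fin.sum_univ_two, coe_dMat, Matrix.of_apply, Matrix.cons_val',
      Matrix.cons_val_zero, Matrix.cons_val_one, Matrix.cons_val_fin_one, Fin.isValue,
      Fin.zero_eta, Fin.mk_one, hti] <;> (try field_simp) <;> (try ring)

/-- `dMat t` normalises the unipotent group. -/
theorem bor_dMat_mul_uMat (t : kˣ) (a : k) :
    dMat t * uMat a = uMat ((t : k) ^ 2 * a) * dMat t := by
  apply Units.ext
  have ht : (t : k) ≠ 0 := t.ne_zero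
  have hti : ((t⁻¹ : kˣ) : k) = (t : k)⁻¹ := Units.val_inv_eq_inv_val t
  ext i j
  fin_cases i <;> fin_cases j <;>
    simp only [Matrix.GeneralLinearGroup.coe_mul, Matrix.mul_apply, Fin.sum_univ_two, coe_dMat,
      coe_uMat, Matrix.of_apply, Matrix.cons_val',
      Matrix.cons_val_zero, Matrix.cons_val_one, Matrix.cons_val_fin_one, Fin.isValue,
      Fin.zero_eta, Fin.mk_one, hti] <;> (try field_simp) <;> (try ring)

/-- Entries of the inverse of an upper triangular element. -/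
theorem bor_upper_inv (b : GL (Fin 2) k)
    (hb : (b : Matrix (Fin 2) (Fin 2) k) 1 0 = 0) :
    (b : Matrix (Fin 2) (Fin 2) k) 0 0 ≠ 0 ∧ (b : Matrix (Fin 2) (Fin 2) k) 1 1 ≠ 0 ∧
    ((b⁻¹ : GL (Fin 2) k) : Matrix (Fin 2) (Fin 2) k) 1 0 = 0 ∧
    ((b⁻¹ : GL (Fin 2) k) : Matrix (Fin 2) (Fin 2) k) 0 0 =
      ((b : Matrix (Fin 2) (Fin 2) k) 0 0)⁻¹ := by
  have h := b.mul_inv
  have hm : (b : Matrix (Fin 2) (Fin 2) k) * ((b⁻¹ : GL (Fin 2) k) : Matrix (Fin 2) (Fin 2) k)
      = 1 := by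
    rw [← Matrix.GeneralLinearGroup.coe_mul, mul_inv_cancel]; rfl
  have h10 := congrFun (congrFun hm 1) 0
  have h11 := congrFun (congrFun hm 1) 1
  have h00 := congrFun (congrFun hm 0) 0
  simp only [Matrix.mul_apply, Fin.sum_univ_two, hb, zero_mul, zero_add, Matrix.one_apply_eq,
    Matrix.one_apply_ne (show (1 : Fin 2) ≠ 0 by decide)] at h10 h11 h00
  have hβ : (b : Matrix (Fin 2) (Fin 2) k) 1 1 ≠ 0 := by
    intro h0
    rw [h0, zero_mul] at h11
    exact zero_ne_one h11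
  have hc10 : ((b⁻¹ : GL (Fin 2) k) : Matrix (Fin 2) (Fin 2) k) 1 0 = 0 :=
    (mul_eq_zero.mp h10).resolve_left hβ
  rw [hc10, mul_zero, add_zero] at h00
  have hα : (b : Matrix (Fin 2) (Fin 2) k) 0 0 ≠ 0 := by
    intro h0
    rw [h0, zero_mul] at h00
    exact zero_ne_one h00
  exact ⟨hα, hβ, hc10, eq_inv_of_mul_eq_one_right h00⟩

theorem bor_det_upper (b : GL (Fin 2) k)
    (hb : (b : Matrix (Fin 2) (Fin 2) k) 1 0 = 0) :
    ((Matrix.GeneralLinearGroup.det b : kˣ) : k) =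
      (b : Matrix (Fin 2) (Fin 2) k) 0 0 * (b : Matrix (Fin 2) (Fin 2) k) 1 1 := by
  rw [Matrix.GeneralLinearGroup.val_det_apply, Matrix.det_fin_two, hb, mul_zero, sub_zero]

/-- The lower left entry of the twisted adjoint action of an upper triangular element. -/
theorem bor_tad_upper (b : GL (Fin 2) k)
    (hb : (b : Matrix (Fin 2) (Fin 2) k) 1 0 = 0) (M : Matrix (Fin 2) (Fin 2) k) :
    (tad b M) 1 0 = (b : Matrix (Fin 2) (Fin 2) k) 1 1 ^ 2 * M 1 0 := by
  obtain ⟨hα, hβ, hc10, hc00⟩ := bor_upper_inv b hb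
  unfold tad
  rw [bor_det_upper b hb]
  simp only [Matrix.smul_apply, Matrix.mul_apply, Fin.sum_univ_two, hb, hc10, hc00, smul_eq_mul,
    zero_mul, zero_add, mul_zero, add_zero]
  field_simp

/-- Upper triangular elements normalise the unipotent group. -/
theorem bor_upper_mul_uMat (b : GL (Fin 2) k)
    (hb : (b : Matrix (Fin 2) (Fin 2) k) 1 0 = 0) (a : k) :
    b * uMat a = uMat ((b : Matrix (Fin 2) (Fin 2) k) 0 0 / (b : Matrix (Fin 2) (Fin 2) k) 1 1 * a)
      * b := by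
  obtain ⟨hα, hβ, -, -⟩ := bor_upper_inv b hb
  apply Units.ext
  ext i j
  fin_cases i <;> fin_cases j <;>
    simp only [Matrix.GeneralLinearGroup.coe_mul, Matrix.mul_apply, Fin.sum_univ_two,
      coe_uMat, Matrix.of_apply, Matrix.cons_val',
      Matrix.cons_val_zero, Matrix.cons_val_one, Matrix.cons_val_fin_one, Fin.isValue,
      Fin.zero_eta, Fin.mk_one, hb] <;> (try field_simp) <;> (try ring)

/-- `tad` of the identity. -/
theorem bor_tad_one (M : Matrix (Fin 2) (Fin 2) k) : tad (1 : GL (Fin 2) k) M = M := by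
  unfold tad
  simp

theorem bor_cocycle_one {Γ : Subgroup (GL (Fin 2) k)}
    {ψ : GL (Fin 2) k → Matrix (Fin 2) (Fin 2) k} (hψ : IsTCocycle Γ ψ) : ψ 1 = 0 := by
  have h := hψ.map_mul 1 Γ.one_mem 1 Γ.one_mem
  rw [mul_one, bor_tad_one] at h
  have : ψ 1 + ψ 1 = ψ 1 + 0 := by rw [add_zero]; exact h.symm
  exact add_left_cancel this

/-- The conjugation formula: if `b u = u' b` then `ψ u' = ψ b + tad b (ψ u) - tad u' (ψ b)`. -/
theorem bor_cocycle_conj {Γ : Subgroup (GL (Fin 2) k)}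
    {ψ : GL (Fin 2) k → Matrix (Fin 2) (Fin 2) k} (hψ : IsTCocycle Γ ψ)
    {b u u' : GL (Fin 2) k} (hb : b ∈ Γ) (hu : u ∈ Γ) (hu' : u' ∈ Γ) (h : b * u = u' * b) :
    ψ u' = ψ b + tad b (ψ u) - tad u' (ψ b) := by
  have h1 := hψ.map_mul b hb u hu
  have h2 := hψ.map_mul u' hu' b hb
  rw [h] at h1
  rw [h1] at h2
  rw [h2]
  abel

end Fermat.Agent.S56.GT
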