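/-
S56 / W5 / GT leaf G3, the cocycle computation on the unipotent subgroup (owner: helper23).
-/
import Fermat.Agent.S56.TW.GT.BorelAux

set_option autoImplicit false

namespace Fermat.Agent.S56.GT

open Matrix

variable {k : Type} [Field k]

/-- Upper right entry of `ψ (uMat a)`. -/
def borX (ψ : GL (Fin 2) k → Matrix (Fin 2) (Fin 2) k) (a : k) : k := ψ (uMat a) 0 1

/-- Upper left entry of `ψ (uMat a)`. -/
def borY (ψ : GL (Fin 2) k → Matrix (Fin 2) (Fin 2) k) (a : k) : k := ψ (uMat a) 0 0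

/-- Lower left entry of `ψ (uMat a)`. -/
def borZ (ψ : GL (Fin 2) k → Matrix (Fin 2) (Fin 2) k) (a : k) : k := ψ (uMat a) 1 0

section Rel

variable {Γ : Subgroup (GL (Fin 2) k)} {A : AddSubgroup k}
  {ψ : GL (Fin 2) k → Matrix (Fin 2) (Fin 2) k}

theorem bor_trace (hψ : IsTCocycle Γ ψ) (hmem : ∀ a : k, uMat a ∈ Γ ↔ a ∈ A) {a : k}
    (ha : a ∈ A) : ψ (uMat a) 1 1 = - borY ψ a := by
  have h := hψ.trace_zero (uMat a) ((hmem a).mpr ha)
  rw [Matrix.trace_fin_two] at h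
  unfold borY
  linear_combination h

theorem bor_trace' (hψ : IsTCocycle Γ ψ) {g : GL (Fin 2) k} (hg : g ∈ Γ) :
    ψ g 1 1 = - ψ g 0 0 := by
  have h := hψ.trace_zero g hg
  rw [Matrix.trace_fin_two] at h
  linear_combination h

/-- The cocycle relations on the unipotent subgroup, in coordinates. -/
theorem bor_rel (hψ : IsTCocycle Γ ψ) (hmem : ∀ a : k, uMat a ∈ Γ ↔ a ∈ A) {a b : k}
    (ha : a ∈ A) (hb : b ∈ A) :
    borZ ψ (a + b) = borZ ψ a + borZ ψ b ∧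
    borY ψ (a + b) = borY ψ a + borY ψ b + a * borZ ψ b ∧
    borX ψ (a + b) = borX ψ a + borX ψ b - 2 * a * borY ψ b - a ^ 2 * borZ ψ b := by
  have h := hψ.map_mul (uMat a) ((hmem a).mpr ha) (uMat b) ((hmem b).mpr hb)
  rw [← bor_uMat_add, bor_tad_uMat] at h
  have h10 := congrFun (congrFun h 1) 0
  have h00 := congrFun (congrFun h 0) 0
  have h01 := congrFun (congrFun h 0) 1
  simp only [Matrix.add_apply, Matrix.of_apply, Matrix.cons_val', Matrix.cons_val_zero,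
    Matrix.cons_val_one, Matrix.cons_val_fin_one, Fin.isValue] at h10 h00 h01
  rw [bor_trace hψ hmem hb] at h01
  unfold borX borY borZ at *
  refine ⟨?_, ?_, ?_⟩
  · rw [h10]
  · rw [h00]; ring
  · rw [h01]; ring

theorem borX_zero (hψ : IsTCocycle Γ ψ) : borX ψ 0 = 0 := by
  unfold borX
  rw [bor_uMat_zero, bor_cocycle_one hψ]
  rfl

/-- Step 1: `z a = a z 1`. -/
theorem borZ_eq (hψ : IsTCocycle Γ ψ) (hmem : ∀ a : k, uMat a ∈ Γ ↔ a ∈ A) (h1 : (1 : k) ∈ A)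
    {a : k} (ha : a ∈ A) : borZ ψ a = a * borZ ψ 1 := by
  have e1 := (bor_rel hψ hmem ha h1).2.1
  have e2 := (bor_rel hψ hmem h1 ha).2.1
  rw [add_comm 1 a] at e2
  linear_combination e1 - e2

/-- Step 3: if `z = 0` on `A` then `y a = a y 1` (`2 ≠ 0`). -/
theorem borY_eq (hψ : IsTCocycle Γ ψ) (hmem : ∀ a : k, uMat a ∈ Γ ↔ a ∈ A) (h1 : (1 : k) ∈ A)
    (h2 : (2 : k) ≠ 0) (hz : borZ ψ 1 = 0) {a : k} (ha : a ∈ A) :
    borY ψ a = a * borY ψ 1 := by
  have e1 := (bor_rel hψ hmem ha h1).2.2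
  have e2 := (bor_rel hψ hmem h1 ha).2.2
  rw [add_comm 1 a] at e2
  have hza := borZ_eq hψ hmem h1 ha
  rw [hz, mul_zero] at hza
  rw [hz] at e1
  rw [hza] at e2
  have : 2 * (borY ψ a - a * borY ψ 1) = 0 := by linear_combination e2 - e1
  have := (mul_eq_zero.mp this).resolve_left h2
  linear_combination this

/-- The function `D a = x a + a² d - a (x 1 + d)`, `d = y 1`. -/
def borD (ψ : GL (Fin 2) k → Matrix (Fin 2) (Fin 2) k) (a : k) : k :=
  borX ψ a + a ^ 2 * borY ψ 1 - a * (borX ψ 1 + borY ψ 1)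

theorem borD_one : borD ψ 1 = 0 := by
  unfold borD
  ring

theorem borD_zero (hψ : IsTCocycle Γ ψ) : borD ψ 0 = 0 := by
  unfold borD
  rw [borX_zero hψ]
  ring

theorem borD_add (hψ : IsTCocycle Γ ψ) (hmem : ∀ a : k, uMat a ∈ Γ ↔ a ∈ A) (h1 : (1 : k) ∈ A)
    (h2 : (2 : k) ≠ 0) (hz : borZ ψ 1 = 0) {a b : k} (ha : a ∈ A) (hb : b ∈ A) :
    borD ψ (a + b) = borD ψ a + borD ψ b := by
  have e1 := (bor_rel hψ hmem ha hb).2.2
  have hzb := borZ_eq hψ hmem h1 hb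
  rw [hz, mul_zero] at hzb
  have hyb := borY_eq hψ hmem h1 h2 hz hb
  rw [hzb, hyb] at e1
  unfold borD
  linear_combination e1

/-- `D` as an additive map on `A`. -/
def borDHom (hψ : IsTCocycle Γ ψ) (hmem : ∀ a : k, uMat a ∈ Γ ↔ a ∈ A) (h1 : (1 : k) ∈ A)
    (h2 : (2 : k) ≠ 0) (hz : borZ ψ 1 = 0) : A →+ k where
  toFun a := borD ψ (a : k)
  map_zero' := borD_zero hψ
  map_add' a b := borD_add hψ hmem h1 h2 hz a.2 b.2

/-- The final step: if `z 1 = 0` and `D = 0` on `A`, then `ψ` is a coboundary on the unipotent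
subgroup. -/
theorem bor_final (hψ : IsTCocycle Γ ψ) (hmem : ∀ a : k, uMat a ∈ Γ ↔ a ∈ A) (h1 : (1 : k) ∈ A)
    (h2 : (2 : k) ≠ 0) (hz : borZ ψ 1 = 0) (hD : ∀ a ∈ A, borD ψ a = 0) :
    ∃ X : Matrix (Fin 2) (Fin 2) k, X.trace = 0 ∧ ∀ a ∈ A, ψ (uMat a) = tad (uMat a) X - X := by
  refine ⟨!![-(ψ (uMat 1) 0 1 + ψ (uMat 1) 0 0) / 2, 0; ψ (uMat 1) 0 0,
    -(-(ψ (uMat 1) 0 1 + ψ (uMat 1) 0 0) / 2)], ?_, ?_⟩
  · rw [Matrix.trace_fin_two]
    simp
  · intro a ha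
    rw [bor_tad_uMat]
    have hza := borZ_eq hψ hmem h1 ha
    rw [hz, mul_zero] at hza
    have hya := borY_eq hψ hmem h1 h2 hz ha
    have hDa := hD a ha
    have htr := bor_trace hψ hmem ha
    unfold borD at hDa
    unfold borX borY borZ at *
    ext i j
    fin_cases i <;> fin_cases j <;>
      simp only [Matrix.sub_apply, Matrix.of_apply, Matrix.cons_val', Matrix.cons_val_zero,
        Matrix.cons_val_one, Matrix.cons_val_fin_one, Fin.isValue, Fin.zero_eta, Fin.mk_one]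
    · rw [hya]; ring
    · field_simp
      linear_combination 2 * hDa
    · rw [hza]; ring
    · rw [htr, hya]; ring

end Rel

end Fermat.Agent.S56.GT
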