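/-
S56 / W5 / GT leaf G3, step 2 of the cocycle computation on the unipotent subgroup:
the lower left entry of `ψ (uMat 1)` vanishes (owner: helper23).
-/
import Fermat.Agent.S56.TW.GT.BorelCore

set_option autoImplicit false

namespace Fermat.Agent.S56.GT

open Matrix

variable {k : Type} [Field k]

section Step2

variable {Γ : Subgroup (GL (Fin 2) k)} {A : AddSubgroup k}
  {ψ : GL (Fin 2) k → Matrix (Fin 2) (Fin 2) k}

/-- Step 2 in characteristic `3`. -/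
theorem borZ_one_of_three (hψ : IsTCocycle Γ ψ) (hmem : ∀ a : k, uMat a ∈ Γ ↔ a ∈ A)
    (h1 : (1 : k) ∈ A) (h3 : (3 : k) = 0) : borZ ψ 1 = 0 := by
  have h11 : (1 + 1 : k) ∈ A := A.add_mem h1 h1
  obtain ⟨-, eY, eX⟩ := bor_rel hψ hmem h1 h1
  obtain ⟨-, -, eX3⟩ := bor_rel hψ hmem h11 h1
  have h111 : (1 + 1 + 1 : k) = 0 := by linear_combination h3
  rw [h111, borX_zero hψ, eX] at eX3
  linear_combination (-borX ψ 1 + 2 * borY ψ 1 + 2 * borZ ψ 1) * h3 - eX3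

/-- The `z`-component of the conjugation formula for a diagonal element. -/
theorem borZ_dMat (hψ : IsTCocycle Γ ψ) (hmem : ∀ a : k, uMat a ∈ Γ ↔ a ∈ A)
    (t : kˣ) (ht : dMat t ∈ Γ) {a : k} (ha : a ∈ A) (hta : (t : k) ^ 2 * a ∈ A) :
    borZ ψ ((t : k) ^ 2 * a) = ((t⁻¹ : kˣ) : k) ^ 2 * borZ ψ a := by
  have h := bor_cocycle_conj hψ ht ((hmem a).mpr ha) ((hmem _).mpr hta) (bor_dMat_mul_uMat t a)
  rw [bor_tad_dMat, bor_tad_uMat] at h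
  have h10 := congrFun (congrFun h 1) 0
  simp only [Matrix.add_apply, Matrix.sub_apply, Matrix.of_apply, Matrix.cons_val',
    Matrix.cons_val_zero, Matrix.cons_val_one, Matrix.cons_val_fin_one, Fin.isValue] at h10
  unfold borZ
  rw [h10]
  ring

/-- The `z`-component of the conjugation formula for an upper triangular element. -/
theorem borZ_upper (hψ : IsTCocycle Γ ψ) (hmem : ∀ a : k, uMat a ∈ Γ ↔ a ∈ A)
    (b : GL (Fin 2) k) (hbΓ : b ∈ Γ) (hb : (b : Matrix (Fin 2) (Fin 2) k) 1 0 = 0)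
    {a : k} (ha : a ∈ A) :
    (b : Matrix (Fin 2) (Fin 2) k) 0 0 / (b : Matrix (Fin 2) (Fin 2) k) 1 1 * a ∈ A ∧
    borZ ψ ((b : Matrix (Fin 2) (Fin 2) k) 0 0 / (b : Matrix (Fin 2) (Fin 2) k) 1 1 * a) =
      (b : Matrix (Fin 2) (Fin 2) k) 1 1 ^ 2 * borZ ψ a := by
  have hconj := bor_upper_mul_uMat b hb a
  have hu : uMat a ∈ Γ := (hmem a).mpr ha
  have hu' : uMat ((b : Matrix (Fin 2) (Fin 2) k) 0 0 / (b : Matrix (Fin 2) (Fin 2) k) 1 1 * a)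
      ∈ Γ := by
    have : uMat ((b : Matrix (Fin 2) (Fin 2) k) 0 0 / (b : Matrix (Fin 2) (Fin 2) k) 1 1 * a)
        = b * uMat a * b⁻¹ := by
      rw [hconj, mul_inv_cancel_right]
    rw [this]
    exact Γ.mul_mem (Γ.mul_mem hbΓ hu) (Γ.inv_mem hbΓ)
  refine ⟨(hmem _).mp hu', ?_⟩
  have h := bor_cocycle_conj hψ hbΓ hu hu' hconj
  rw [bor_tad_uMat] at h
  have h10 := congrFun (congrFun h 1) 0
  simp only [Matrix.add_apply, Matrix.sub_apply, Matrix.of_apply, Matrix.cons_val',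
    Matrix.cons_val_zero, Matrix.cons_val_one, Matrix.cons_val_fin_one, Fin.isValue] at h10
  rw [bor_tad_upper b hb] at h10
  unfold borZ
  rw [h10]
  ring

/-- Step 2 when `A` contains an element `t ≠ 0` with `t ^ 4 ≠ 1` and the torus lies in `Γ`. -/
theorem borZ_one_of_torus (hψ : IsTCocycle Γ ψ) (hmem : ∀ a : k, uMat a ∈ Γ ↔ a ∈ A)
    (h1 : (1 : k) ∈ A) (hmul : ∀ a ∈ A, ∀ b ∈ A, a * b ∈ A)
    (htor : ∀ t : kˣ, (t : k) ∈ A → dMat t ∈ Γ)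
    {t : k} (htA : t ∈ A) (ht0 : t ≠ 0) (ht4 : t ^ 4 ≠ 1) : borZ ψ 1 = 0 := by
  have htt : t ^ 2 * 1 ∈ A := by
    rw [mul_one, pow_two]
    exact hmul t htA t htA
  have e1 := borZ_dMat hψ hmem (Units.mk0 t ht0) (htor _ (by simpa using htA)) h1
    (by simpa using htt)
  have e2 := borZ_eq hψ hmem h1 htt
  rw [Units.val_inv_eq_inv_val, Units.val_mk0] at e1
  rw [e2] at e1
  have e3 : (t ^ 4 - 1) * borZ ψ 1 = 0 := by
    have : t ^ 2 * (t ^ 2 * 1 * borZ ψ 1) = t ^ 2 * (t⁻¹ ^ 2 * borZ ψ 1) := by rw [e1]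
    have hinv : t ^ 2 * t⁻¹ ^ 2 = 1 := by
      rw [← mul_pow, mul_inv_cancel₀ ht0, one_pow]
    linear_combination this + borZ ψ 1 * hinv
  rcases mul_eq_zero.mp e3 with h | h
  · exact absurd (sub_eq_zero.mp h) ht4
  · exact h

/-- Step 2 when all nonzero elements of `A` have fourth power `1`. -/
theorem borZ_one_of_det (hψ : IsTCocycle Γ ψ) (hmem : ∀ a : k, uMat a ∈ Γ ↔ a ∈ A)
    (h1 : (1 : k) ∈ A)
    (hup : ∀ g ∈ Γ, ∃ h ∈ Γ, Matrix.GeneralLinearGroup.det h = 1 ∧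
        ((h * g : GL (Fin 2) k) : Matrix (Fin 2) (Fin 2) k) 1 0 = 0)
    (h4 : ∀ t ∈ A, t ≠ 0 → t ^ 4 = 1)
    (hdet : ∃ g ∈ Γ, ((Matrix.GeneralLinearGroup.det g : kˣ) : k) ^ 2 ≠ 1) :
    borZ ψ 1 = 0 := by
  obtain ⟨g, hg, hgdet⟩ := hdet
  obtain ⟨h, hh, hhdet, hb⟩ := hup g hg
  by_contra hz
  apply hgdet
  have hbΓ : h * g ∈ Γ := Γ.mul_mem hh hg
  obtain ⟨hα, hβ, -, -⟩ := bor_upper_inv (h * g) hb
  obtain ⟨hχA, e1⟩ := borZ_upper hψ hmem (h * g) hbΓ hb h1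
  have e2 := borZ_eq hψ hmem h1 hχA
  rw [e2] at e1
  have hχ : ((h * g : GL (Fin 2) k) : Matrix (Fin 2) (Fin 2) k) 0 0 /
      ((h * g : GL (Fin 2) k) : Matrix (Fin 2) (Fin 2) k) 1 1 * 1 =
      ((h * g : GL (Fin 2) k) : Matrix (Fin 2) (Fin 2) k) 1 1 ^ 2 :=
    mul_right_cancel₀ hz e1
  have hχ0 : ((h * g : GL (Fin 2) k) : Matrix (Fin 2) (Fin 2) k) 0 0 /
      ((h * g : GL (Fin 2) k) : Matrix (Fin 2) (Fin 2) k) 1 1 * 1 ≠ 0 := by
    rw [mul_one]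
    exact div_ne_zero hα hβ
  have hχ4 := h4 _ hχA hχ0
  have hdetb : ((Matrix.GeneralLinearGroup.det (h * g) : kˣ) : k) =
      ((Matrix.GeneralLinearGroup.det g : kˣ) : k) := by
    rw [map_mul, hhdet, one_mul]
  rw [← hdetb, bor_det_upper (h * g) hb]
  have hαβ : ((h * g : GL (Fin 2) k) : Matrix (Fin 2) (Fin 2) k) 0 0 =
      ((h * g : GL (Fin 2) k) : Matrix (Fin 2) (Fin 2) k) 1 1 ^ 2 *
        ((h * g : GL (Fin 2) k) : Matrix (Fin 2) (Fin 2) k) 1 1 := by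
    rw [← hχ, mul_one, div_mul_cancel₀ _ hβ]
  rw [hχ] at hχ4
  rw [hαβ]
  linear_combination hχ4

/-- If `Nat.card A = 3` then `(3 : k) = 0`. -/
theorem bor_three_eq_zero (h1 : (1 : k) ∈ A) (h3 : Nat.card A = 3) : (3 : k) = 0 := by
  have h : (Nat.card A) • (⟨1, h1⟩ : A) = 0 := card_nsmul_eq_zero'
  rw [h3] at h
  have h' := congrArg (Subtype.val) h
  simpa using h'

end Step2

end Fermat.Agent.S56.GT
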