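/-
S56 / W5 / GT leaf G3, step 4 of the cocycle computation on the unipotent subgroup:
the additive function `borD` vanishes on `A` (owner: helper23).
-/
import Fermat.Agent.S56.TW.GT.BorelStep2

set_option autoImplicit false

namespace Fermat.Agent.S56.GT

open Matrix

variable {k : Type} [Field k]

section Step4

variable {Γ : Subgroup (GL (Fin 2) k)} {A : AddSubgroup k}
  {ψ : GL (Fin 2) k → Matrix (Fin 2) (Fin 2) k}

/-- Step 4 when `A` has three elements. -/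
theorem borD_eq_zero_of_card (hψ : IsTCocycle Γ ψ) (hmem : ∀ a : k, uMat a ∈ Γ ↔ a ∈ A)
    (h1 : (1 : k) ∈ A) (h2 : (2 : k) ≠ 0) (hz : borZ ψ 1 = 0) (h3 : Nat.card A = 3)
    {a : k} (ha : a ∈ A) : borD ψ a = 0 := by
  have : Fact (Nat.Prime 3) := ⟨Nat.prime_three⟩
  have hne : (⟨1, h1⟩ : A) ≠ 0 := by
    intro h
    exact one_ne_zero (congrArg Subtype.val h)
  have hmem' : (⟨a, ha⟩ : A) ∈ AddSubgroup.zmultiples (⟨1, h1⟩ : A) :=
    mem_zmultiples_of_prime_card h3 hne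
  obtain ⟨n, hn⟩ := AddSubgroup.mem_zmultiples_iff.mp hmem'
  have h := congrArg (borDHom hψ hmem h1 h2 hz) hn
  rw [map_zsmul] at h
  have e1 : borDHom hψ hmem h1 h2 hz ⟨1, h1⟩ = 0 := borD_one
  rw [e1, smul_zero] at h
  exact h.symm

/-- The `y`- and `x`-components of the conjugation formula for a diagonal element. -/
theorem borD_dMat (hψ : IsTCocycle Γ ψ) (hmem : ∀ a : k, uMat a ∈ Γ ↔ a ∈ A)
    (h1 : (1 : k) ∈ A) (h2 : (2 : k) ≠ 0) (hz : borZ ψ 1 = 0)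
    (t : kˣ) (ht : dMat t ∈ Γ) (ht1 : (t : k) ^ 2 ∈ A) {a : k} (ha : a ∈ A)
    (hta : (t : k) ^ 2 * a ∈ A) :
    borD ψ ((t : k) ^ 2 * a) = (t : k) ^ 2 * borD ψ a + a * borD ψ ((t : k) ^ 2) := by
  have key : ∀ c ∈ A, (t : k) ^ 2 * c ∈ A →
      borY ψ ((t : k) ^ 2 * c) = borY ψ c - (t : k) ^ 2 * c * ψ (dMat t) 1 0 ∧
      borX ψ ((t : k) ^ 2 * c) = (t : k) ^ 2 * borX ψ c + 2 * ((t : k) ^ 2 * c) * ψ (dMat t) 0 0
        + ((t : k) ^ 2 * c) ^ 2 * ψ (dMat t) 1 0 := by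
    intro c hc htc
    have h := bor_cocycle_conj hψ ht ((hmem c).mpr hc) ((hmem _).mpr htc) (bor_dMat_mul_uMat t c)
    rw [bor_tad_dMat, bor_tad_uMat] at h
    have h00 := congrFun (congrFun h 0) 0
    have h01 := congrFun (congrFun h 0) 1
    simp only [Matrix.add_apply, Matrix.sub_apply, Matrix.of_apply, Matrix.cons_val',
      Matrix.cons_val_zero, Matrix.cons_val_one, Matrix.cons_val_fin_one, Fin.isValue] at h00 h01
    rw [bor_trace' hψ ht] at h01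
    unfold borX borY
    constructor
    · rw [h00]; ring
    · rw [h01]; ring
  have ht1' : (t : k) ^ 2 * 1 ∈ A := by rwa [mul_one]
  obtain ⟨kY1, kX1⟩ := key 1 h1 ht1'
  obtain ⟨-, kXa⟩ := key a ha hta
  rw [mul_one] at kY1 kX1
  have hy := borY_eq hψ hmem h1 h2 hz ht1
  rw [hy] at kY1
  unfold borD
  rw [kXa, kX1]
  linear_combination (a ^ 2 * (t : k) ^ 2 - a * (t : k) ^ 2) * kY1

/-- Closure of `A` under powers. -/
theorem bor_pow_mem (h1 : (1 : k) ∈ A) (hmul : ∀ a ∈ A, ∀ b ∈ A, a * b ∈ A) {b : k}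
    (hb : b ∈ A) (n : ℕ) : b ^ n ∈ A := by
  induction n with
  | zero => simpa using h1
  | succ n ih => rw [pow_succ]; exact hmul _ ih _ hb

/-- `borD` is a derivation of `A`. -/
theorem borD_mul (hψ : IsTCocycle Γ ψ) (hmem : ∀ a : k, uMat a ∈ Γ ↔ a ∈ A)
    (h1 : (1 : k) ∈ A) (h2 : (2 : k) ≠ 0) (hz : borZ ψ 1 = 0)
    (hmul : ∀ a ∈ A, ∀ b ∈ A, a * b ∈ A) (htor : ∀ t : kˣ, (t : k) ∈ A → dMat t ∈ Γ)
    {s a : k} (hs : s ∈ A) (ha : a ∈ A) :
    borD ψ (s * a) = s * borD ψ a + a * borD ψ s := by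
  -- the squares
  have hsq : ∀ t ∈ A, ∀ c ∈ A, borD ψ (t ^ 2 * c) = t ^ 2 * borD ψ c + c * borD ψ (t ^ 2) := by
    intro t ht c hc
    by_cases ht0 : t = 0
    · subst ht0
      simp [borD_zero hψ]
    · have htt : t ^ 2 ∈ A := bor_pow_mem h1 hmul ht 2
      have := borD_dMat hψ hmem h1 h2 hz (Units.mk0 t ht0) (htor _ (by simpa using ht))
        (by simpa using htt) hc (by simpa using hmul _ htt _ hc)
      simpa using this
  have hadd := fun {x y : k} (hx : x ∈ A) (hy : y ∈ A) => borD_add hψ hmem h1 h2 hz hx hy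
  have hs1 : s + 1 ∈ A := A.add_mem hs h1
  have hs1' : s - 1 ∈ A := A.sub_mem hs h1
  have hsa : s * a ∈ A := hmul _ hs _ ha
  have hp2 : (s + 1) ^ 2 ∈ A := bor_pow_mem h1 hmul hs1 2
  have hm2 : (s - 1) ^ 2 ∈ A := bor_pow_mem h1 hmul hs1' 2
  -- `(s+1)² a = (s-1)² a + 4 s a`
  have e1 := hsq _ hs1 a ha
  have e2 := hsq _ hs1' a ha
  have e3 : borD ψ ((s + 1) ^ 2 * a) =
      borD ψ ((s - 1) ^ 2 * a) + (borD ψ (s * a) + borD ψ (s * a) +
        (borD ψ (s * a) + borD ψ (s * a))) := by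
    rw [← hadd hsa hsa, ← hadd (A.add_mem hsa hsa) (A.add_mem hsa hsa),
      ← hadd (hmul _ hm2 _ ha) (A.add_mem (A.add_mem hsa hsa) (A.add_mem hsa hsa))]
    congr 1
    ring
  have e4 : borD ψ ((s + 1) ^ 2) =
      borD ψ ((s - 1) ^ 2) + (borD ψ s + borD ψ s + (borD ψ s + borD ψ s)) := by
    rw [← hadd hs hs, ← hadd (A.add_mem hs hs) (A.add_mem hs hs),
      ← hadd hm2 (A.add_mem (A.add_mem hs hs) (A.add_mem hs hs))]
    congr 1
    ring
  have h4 : (4 : k) ≠ 0 := by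
    have : (4 : k) = 2 * 2 := by norm_num
    rw [this]
    exact mul_ne_zero h2 h2
  have e5 : 4 * (borD ψ (s * a) - (s * borD ψ a + a * borD ψ s)) = 0 := by
    linear_combination -e3 + e1 - e2 + a * e4
  have := (mul_eq_zero.mp e5).resolve_left h4
  linear_combination this

/-- The power rule for `borD`. -/
theorem borD_pow (hψ : IsTCocycle Γ ψ) (hmem : ∀ a : k, uMat a ∈ Γ ↔ a ∈ A)
    (h1 : (1 : k) ∈ A) (h2 : (2 : k) ≠ 0) (hz : borZ ψ 1 = 0)
    (hmul : ∀ a ∈ A, ∀ b ∈ A, a * b ∈ A) (htor : ∀ t : kˣ, (t : k) ∈ A → dMat t ∈ Γ)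
    {b : k} (hb : b ∈ A) (n : ℕ) :
    borD ψ (b ^ (n + 1)) = ((n + 1 : ℕ) : k) * b ^ n * borD ψ b := by
  induction n with
  | zero => simp
  | succ n ih =>
    rw [pow_succ, borD_mul hψ hmem h1 h2 hz hmul htor (bor_pow_mem h1 hmul hb (n + 1)) hb, ih]
    push_cast
    ring

/-- Step 4 when `A` is a subfield and the torus lies in `Γ`. -/
theorem borD_eq_zero_of_torus [Finite k] (p : ℕ) [Fact p.Prime] [CharP k p]
    (hψ : IsTCocycle Γ ψ) (hmem : ∀ a : k, uMat a ∈ Γ ↔ a ∈ A)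
    (h1 : (1 : k) ∈ A) (h2 : (2 : k) ≠ 0) (hz : borZ ψ 1 = 0)
    (hmul : ∀ a ∈ A, ∀ b ∈ A, a * b ∈ A) (htor : ∀ t : kˣ, (t : k) ∈ A → dMat t ∈ Γ)
    {a : k} (ha : a ∈ A) : borD ψ a = 0 := by
  have hinj : Function.Injective (fun b : A => (⟨(b : k) ^ p, bor_pow_mem h1 hmul b.2 p⟩ : A)) := by
    intro b c hbc
    have h := congrArg Subtype.val hbc
    exact Subtype.ext (frobenius_inj k p h)
  have hsurj := Finite.injective_iff_surjective.mp hinj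
  obtain ⟨b, hb⟩ := hsurj ⟨a, ha⟩
  have hb' : (b : k) ^ p = a := congrArg Subtype.val hb
  have hp : p = (p - 1) + 1 := (Nat.succ_pred_eq_of_pos (Fact.out : p.Prime).pos).symm
  rw [← hb', hp, borD_pow hψ hmem h1 h2 hz hmul htor b.2 (p - 1), ← hp, CharP.cast_eq_zero k p,
    zero_mul, zero_mul]

end Step4

end Fermat.Agent.S56.GT
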