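/-
S56 / W5 / GT leaf G3 (cocycle computation on the Borel subgroup).  Statement FIXED.
Owner: helper23 (DONE; proof in BorelAux/BorelCore/BorelStep2/BorelStep4).

Write `ψ (uMat a) = [y a, x a; z a, - y a]`.  `Ad (uMat a) : (x, y, z) ↦ (x - 2 a y - a² z, y + a z, z)`.
Cocycle on `U`:  z (a+b) = z a + z b,  y (a+b) = y a + y b + a z b,
                 x (a+b) = x a + x b - 2 a y b - a² z b.
1. symmetry of `y (a+b)`: `a z b = b z a`, so `z a = c a`, `c = z 1`.
2. `c = 0`: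
   * `p = 3`: `x (3 a) = 3 x a - 6 a y a - 5 a² z a = a² z a` and `uMat (3 a) = 1`, `ψ 1 = 0`;
   * `p ≥ 5`, some `t ∈ A`, `t ≠ 0`, `t⁴ ≠ 1` (exists iff `#A ≠ 5`): `b = dMat t`,
     `ψ (b u b⁻¹) = ψ b + tad b (ψ u) - tad (b u b⁻¹) (ψ b)`, `b (uMat a) b⁻¹ = uMat (t² a)`,
     z-component: `z (t² a) = t⁻² z a`, so `c (t⁴ - 1) = 0`;
   * `#A = 5`: `g ∈ Γ` with `det g ^ 2 ≠ 1` (`hdet`), `h` with `det h = 1`, `b = h g` upper
     triangular `[α, *; 0, β]`; `b (uMat a) b⁻¹ = uMat (α/β a)`, so `χ = α/β ∈ A`, `χ⁴ = 1`;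
     z-component: `z (χ a) = β² z a`; if `c ≠ 0` then `χ = β²`, `det b = α β = β⁴ = χ²`,
     `(det b)² = χ⁴ = 1`, contradiction.
3. `z = 0`: `y` additive, symmetry of `x (a+b)`: `a y b = b y a`, `y a = d a`; subtract the
   coboundary of `d • E₂₁` (`(tad (uMat a) - 1) (d E₂₁) = (x, y, z) = (- a² d, a d, 0)`): now
   `y = z = 0` and `x` is additive.
4. subtract the coboundary of `m • (E₁₁ - E₂₂)`, `m = - x 1 / 2`: now `x 1 = 0`.
   * `#A = 3`: `A = {0, 1, -1}`, `x = 0`.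
   * else, `b = dMat t`: y-component gives `(ψ b)₂₁ = 0`, x-component gives
     `x (t² a) = t² x a + a x (t²)`; `D = {s ∈ A | ∀ a ∈ A, x (s a) = s x a + a x s}` is a
     subring containing the squares, so `D = A` (`s = ((s+1)/2)² - ((s-1)/2)²`); a derivation of
     the finite field `A` is zero (`x a = x (a ^ #A) = #A a ^ (#A - 1) x a = 0`).
-/
import Fermat.Agent.S56.TW.GT.Defs
import Fermat.Agent.S56.TW.GT.BorelStep4

set_option autoImplicit false

namespace Fermat.Agent.S56.GT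

variable {k : Type} [Field k]

theorem isTCob_unip_of_borelData [Finite k] (p : ℕ) [Fact p.Prime] [CharP k p] (hp2 : p ≠ 2)
    (Γ : Subgroup (GL (Fin 2) k)) (A : AddSubgroup k) (hB : BorelData p Γ A)
    (hdet : p ≠ 3 → ∃ g ∈ Γ, ((Matrix.GeneralLinearGroup.det g : kˣ) : k) ^ 2 ≠ 1)
    (ψ : GL (Fin 2) k → Matrix (Fin 2) (Fin 2) k) (hψ : IsTCocycle Γ ψ) :
    ∃ X : Matrix (Fin 2) (Fin 2) k, X.trace = 0 ∧ ∀ a ∈ A, ψ (uMat a) = tad (uMat a) X - X := by
  have hmem := hB.mem_iff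
  have h1 := hB.one_mem
  have h2 : (2 : k) ≠ 0 := by
    intro h
    have h' : ((2 : ℕ) : k) = 0 := by exact_mod_cast h
    have hd := (CharP.cast_eq_zero_iff k p 2).mp h'
    exact hp2 ((Nat.prime_dvd_prime_iff_eq Fact.out Nat.prime_two).mp hd)
  have hz : borZ ψ 1 = 0 := by
    by_cases hp3 : p = 3
    · have h3 : (3 : k) = 0 := by
        have := CharP.cast_eq_zero k p
        rw [hp3] at this
        exact_mod_cast this
      exact borZ_one_of_three hψ hmem h1 h3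
    · rcases hB.cases with hc | ⟨hmul, htor, hup⟩
      · exfalso
        have h3 := bor_three_eq_zero h1 hc
        have h' : ((3 : ℕ) : k) = 0 := by exact_mod_cast h3
        have hd := (CharP.cast_eq_zero_iff k p 3).mp h'
        exact hp3 ((Nat.prime_dvd_prime_iff_eq Fact.out Nat.prime_three).mp hd)
      · by_cases hex : ∃ t ∈ A, t ≠ 0 ∧ t ^ 4 ≠ 1
        · obtain ⟨t, htA, ht0, ht4⟩ := hex
          exact borZ_one_of_torus hψ hmem h1 hmul htor htA ht0 ht4
        · push Not at hex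
          exact borZ_one_of_det hψ hmem h1 hup hex (hdet hp3)
  apply bor_final hψ hmem h1 h2 hz
  intro a ha
  rcases hB.cases with hc | ⟨hmul, htor, -⟩
  · exact borD_eq_zero_of_card hψ hmem h1 h2 hz hc ha
  · exact borD_eq_zero_of_torus p hψ hmem h1 h2 hz hmul htor ha

end Fermat.Agent.S56.GT
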