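/-
S56 / W5 / GT leaf G2 (conjugation invariance).  Statements FIXED (helper59); proofs: helper34.

Proof: `ψ' g = tad c (ψ (c⁻¹ g c))` is a twisted cocycle on `conjSub c Γ`
(`tad (c g c⁻¹) (tad c X) = tad c (tad g X)`); if `ψ' = ∂X'` then `ψ = ∂(tad c⁻¹ X')`.
-/
import Fermat.Agent.S56.TW.GT.Defs
import Fermat.Agent.S56.TW.GT.Average.TadBasic

set_option autoImplicit false

namespace Fermat.Agent.S56.GT

variable {k : Type} [Field k]

theorem conj_mem_conjSub (c : GL (Fin 2) k) {Γ : Subgroup (GL (Fin 2) k)} {g : GL (Fin 2) k}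
    (hg : g ∈ Γ) : c * g * c⁻¹ ∈ conjSub c Γ := by
  rw [mem_conjSub]
  have : c⁻¹ * (c * g * c⁻¹) * c = g := by group
  rw [this]
  exact hg

theorem isTCob_of_conjSub (c : GL (Fin 2) k) (Γ : Subgroup (GL (Fin 2) k))
    (h : ∀ ψ' : GL (Fin 2) k → Matrix (Fin 2) (Fin 2) k,
      IsTCocycle (conjSub c Γ) ψ' → IsTCob (conjSub c Γ) ψ')
    (ψ : GL (Fin 2) k → Matrix (Fin 2) (Fin 2) k) (hψ : IsTCocycle Γ ψ) : IsTCob Γ ψ := by
  have hcoc : IsTCocycle (conjSub c Γ) (fun g => tad c (ψ (c⁻¹ * g * c))) := by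
    refine ⟨fun g hg => ?_, fun g hg g' hg' => ?_⟩
    · exact avg_trace_tad_eq_zero c (hψ.trace_zero _ (mem_conjSub.mp hg))
    · have h1 : c⁻¹ * (g * g') * c = (c⁻¹ * g * c) * (c⁻¹ * g' * c) := by group
      show tad c (ψ (c⁻¹ * (g * g') * c))
        = tad c (ψ (c⁻¹ * g * c)) + tad g (tad c (ψ (c⁻¹ * g' * c)))
      rw [h1, hψ.map_mul _ (mem_conjSub.mp hg) _ (mem_conjSub.mp hg'), avg_tad_add,
        ← avg_tad_mul, ← avg_tad_mul]
      congr 2
      group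
  obtain ⟨X', hX', hX⟩ := h _ hcoc
  refine ⟨tad c⁻¹ X', avg_trace_tad_eq_zero _ hX', fun g hg => ?_⟩
  have h2 := hX (c * g * c⁻¹) (conj_mem_conjSub c hg)
  have h3 : c⁻¹ * (c * g * c⁻¹) * c = g := by group
  simp only [h3] at h2
  have h4 : ψ g = tad c⁻¹ (tad c (ψ g)) := by
    rw [← avg_tad_mul, inv_mul_cancel, avg_tad_one]
  rw [h4, h2, avg_tad_sub, ← avg_tad_mul, ← avg_tad_mul]
  congr 2
  group

/-- Irreducibility (no common eigenvector) is invariant under conjugation. -/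
theorem irr_conjSub (c : GL (Fin 2) k) (Γ : Subgroup (GL (Fin 2) k))
    (hirr : ¬ ∃ v : Fin 2 → k, v ≠ 0 ∧
      ∀ g ∈ Γ, ∃ a : k, (g : Matrix (Fin 2) (Fin 2) k).mulVec v = a • v) :
    ¬ ∃ v : Fin 2 → k, v ≠ 0 ∧
      ∀ g ∈ conjSub c Γ, ∃ a : k, (g : Matrix (Fin 2) (Fin 2) k).mulVec v = a • v := by
  rintro ⟨v, hv, hv'⟩
  apply hirr
  have hcc : (c : Matrix (Fin 2) (Fin 2) k) * ((c⁻¹ : GL (Fin 2) k) : Matrix (Fin 2) (Fin 2) k)
      = 1 := by
    rw [← Units.val_mul, mul_inv_cancel, Units.val_one]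
  have hcc' : ((c⁻¹ : GL (Fin 2) k) : Matrix (Fin 2) (Fin 2) k) * (c : Matrix (Fin 2) (Fin 2) k)
      = 1 := by
    rw [← Units.val_mul, inv_mul_cancel, Units.val_one]
  refine ⟨((c⁻¹ : GL (Fin 2) k) : Matrix (Fin 2) (Fin 2) k).mulVec v, ?_, fun g hg => ?_⟩
  · intro h0
    apply hv
    have := congrArg (fun w => (c : Matrix (Fin 2) (Fin 2) k).mulVec w) h0
    simp only [Matrix.mulVec_mulVec, hcc, Matrix.one_mulVec, Matrix.mulVec_zero] at this
    exact this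
  · obtain ⟨a, ha⟩ := hv' _ (conj_mem_conjSub c hg)
    refine ⟨a, ?_⟩
    have := congrArg (fun w => ((c⁻¹ : GL (Fin 2) k) : Matrix (Fin 2) (Fin 2) k).mulVec w) ha
    simp only [Units.val_mul, Matrix.mulVec_mulVec, Matrix.mulVec_smul] at this
    rw [← Matrix.mul_assoc, ← Matrix.mul_assoc, hcc', Matrix.one_mul] at this
    rw [Matrix.mulVec_mulVec]
    exact this

/-- Splitting of the characteristic polynomials is invariant under conjugation. -/
theorem split_conjSub (c : GL (Fin 2) k) (Γ : Subgroup (GL (Fin 2) k))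
    (hsplit : ∀ g ∈ Γ, ∃ α β : k, (g : Matrix (Fin 2) (Fin 2) k).charpoly =
      (Polynomial.X - Polynomial.C α) * (Polynomial.X - Polynomial.C β)) :
    ∀ g ∈ conjSub c Γ, ∃ α β : k, (g : Matrix (Fin 2) (Fin 2) k).charpoly =
      (Polynomial.X - Polynomial.C α) * (Polynomial.X - Polynomial.C β) := by
  intro g hg
  obtain ⟨α, β, hαβ⟩ := hsplit _ (mem_conjSub.mp hg)
  refine ⟨α, β, ?_⟩
  rw [← hαβ]
  have h1 : g = c * ((c⁻¹ * g * c) * c⁻¹) := by group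
  have h2 : (g : Matrix (Fin 2) (Fin 2) k)
      = (c : Matrix (Fin 2) (Fin 2) k) *
        (((c⁻¹ * g * c : GL (Fin 2) k) : Matrix (Fin 2) (Fin 2) k)
          * ((c⁻¹ : GL (Fin 2) k) : Matrix (Fin 2) (Fin 2) k)) := by
    rw [← Units.val_mul, ← Units.val_mul, ← h1]
  have hcc' : ((c⁻¹ : GL (Fin 2) k) : Matrix (Fin 2) (Fin 2) k) * (c : Matrix (Fin 2) (Fin 2) k)
      = 1 := by
    rw [← Units.val_mul, inv_mul_cancel, Units.val_one]
  rw [h2, Matrix.charpoly_mul_comm, Matrix.mul_assoc, hcc', Matrix.mul_one]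

theorem card_conjSub [Finite k] (c : GL (Fin 2) k) (Γ : Subgroup (GL (Fin 2) k)) :
    Nat.card (conjSub c Γ) = Nat.card Γ :=
  Subgroup.card_map_of_injective (MulAut.conj c).injective

theorem exists_det_sq_ne_one_conjSub (c : GL (Fin 2) k) (Γ : Subgroup (GL (Fin 2) k))
    (h : ∃ g ∈ Γ, ((Matrix.GeneralLinearGroup.det g : kˣ) : k) ^ 2 ≠ 1) :
    ∃ g ∈ conjSub c Γ, ((Matrix.GeneralLinearGroup.det g : kˣ) : k) ^ 2 ≠ 1 := by
  obtain ⟨g, hg, hdet⟩ := h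
  refine ⟨c * g * c⁻¹, conj_mem_conjSub c hg, ?_⟩
  have : Matrix.GeneralLinearGroup.det (c * g * c⁻¹) = Matrix.GeneralLinearGroup.det g := by
    rw [map_mul, map_mul, map_inv, mul_comm, ← mul_assoc, inv_mul_cancel, one_mul]
  rw [this]
  exact hdet

end Fermat.Agent.S56.GT
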