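/-
S56 / W5 / GT leaf G4 (structure theorem): definitions for the sub-leaves.  Owner: helper59.
`X = OnePoint k = ℙ¹(k)` with Mathlib's action of `GL (Fin 2) k` (Möbius transformations).
-/
import Fermat.Agent.S56.TW.GT.Defs

set_option autoImplicit false

namespace Fermat.Agent.S56.GT

open Matrix OnePoint

variable {k : Type} [Field k]

theorem uMat_add (a b : k) : uMat (a + b) = uMat a * uMat b :=
  AddChar.map_add_eq_mul _ a b

theorem uMat_zero : uMat (0 : k) = 1 := AddChar.map_zero_eq_one _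

theorem uMat_neg (a : k) : uMat (-a) = (uMat a)⁻¹ := by
  rw [eq_inv_iff_mul_eq_one, ← uMat_add, neg_add_cancel, uMat_zero]

theorem uMat_injective : Function.Injective (uMat : k → GL (Fin 2) k) :=
  Matrix.GeneralLinearGroup.injective_upperRightHom

/-- `g` is unipotent: characteristic polynomial `(X - 1)²`. -/
def IsUnip (g : GL (Fin 2) k) : Prop :=
  (g : Matrix (Fin 2) (Fin 2) k).trace = 2 ∧ (g : Matrix (Fin 2) (Fin 2) k).det = 1

/-- `A = {a | [1, a; 0, 1] ∈ Γ}`. -/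
def unipAdd (Γ : Subgroup (GL (Fin 2) k)) : AddSubgroup k where
  carrier := {a | uMat a ∈ Γ}
  add_mem' {a b} ha hb := by
    show uMat (a + b) ∈ Γ
    rw [uMat_add]; exact Γ.mul_mem ha hb
  zero_mem' := by
    show uMat (0 : k) ∈ Γ
    rw [uMat_zero]; exact Γ.one_mem
  neg_mem' {a} ha := by
    show uMat (-a) ∈ Γ
    rw [uMat_neg]; exact Γ.inv_mem ha

theorem mem_unipAdd {Γ : Subgroup (GL (Fin 2) k)} {a : k} : a ∈ unipAdd Γ ↔ uMat a ∈ Γ :=
  Iff.rfl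

/-- `U = {[1, a; 0, 1] ∈ Γ}`, the upper unipotent subgroup of `Γ`. -/
def unipSub (Γ : Subgroup (GL (Fin 2) k)) : Subgroup (GL (Fin 2) k) where
  carrier := {g | g ∈ Γ ∧ ∃ a : k, g = uMat a}
  mul_mem' := by
    rintro _ _ ⟨hg, a, rfl⟩ ⟨hh, b, rfl⟩
    exact ⟨Γ.mul_mem hg hh, a + b, (uMat_add a b).symm⟩
  one_mem' := ⟨Γ.one_mem, 0, uMat_zero.symm⟩
  inv_mem' := by
    rintro _ ⟨hg, a, rfl⟩
    exact ⟨Γ.inv_mem hg, -a, (uMat_neg a).symm⟩

/-- The scalar matrices in `Γ`. -/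
def scal (Γ : Subgroup (GL (Fin 2) k)) : Subgroup (GL (Fin 2) k) :=
  Γ ⊓ Subgroup.center (GL (Fin 2) k)

variable [DecidableEq k]

/-- The Borel subgroup of `Γ`: the stabiliser of `∞`. -/
def borel (Γ : Subgroup (GL (Fin 2) k)) : Subgroup (GL (Fin 2) k) :=
  Γ ⊓ MulAction.stabilizer (GL (Fin 2) k) (∞ : OnePoint k)

/-- The stabiliser of `x` in `Γ`. -/
def stab (Γ : Subgroup (GL (Fin 2) k)) (x : OnePoint k) : Subgroup (GL (Fin 2) k) :=
  Γ ⊓ MulAction.stabilizer (GL (Fin 2) k) x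

/-- The `Γ`-orbit of `∞` (the set of cusps of `Γ`, when `∞` is a cusp). -/
def cuspSet (Γ : Subgroup (GL (Fin 2) k)) : Set (OnePoint k) :=
  {x | ∃ g ∈ Γ, g • (∞ : OnePoint k) = x}

/-- "`N = 1`": the cusps are `∞` and the points `a ∈ A`. -/
def IsNOne (Γ : Subgroup (GL (Fin 2) k)) : Prop :=
  ∀ x ∈ cuspSet Γ, x = ∞ ∨ ∃ a ∈ unipAdd Γ, x = ((a : k) : OnePoint k)

end Fermat.Agent.S56.GT
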