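/-
S56 / W5 / GT sub-leaf S1 (fixed points of single elements of `GL₂(k)` on `ℙ¹(k) = OnePoint k`).
Statements FIXED (helper59); all proved (helper21).  Helper lemmas: `fx_*`.
Tools: `Mathlib/Topology/Compactification/OnePoint/ProjectiveLine.lean` (`smul_infty_eq_ite`,
`smul_some_eq_ite`, `IsParabolic.smul_eq_self_iff`, `fixpointPolynomial_aeval_eq_zero_iff`),
`Mathlib/LinearAlgebra/Matrix/GeneralLinearGroup/FinTwo.lean`.
-/
import Fermat.Agent.S56.TW.GT.SDefs

set_option autoImplicit false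
set_option linter.unusedSectionVars false
set_option linter.unusedVariables false
set_option linter.style.haveILetI false

namespace Fermat.Agent.S56.GT

open Matrix OnePoint

variable {k : Type} [Field k] [DecidableEq k]

theorem fx_det_eq (g : GL (Fin 2) k) : g 0 0 * g 1 1 - g 0 1 * g 1 0 ≠ 0 := by
  have h := g.det_ne_zero
  rw [Matrix.det_fin_two] at h
  exact h

theorem fx_ext {g h : GL (Fin 2) k} (h00 : g 0 0 = h 0 0) (h01 : g 0 1 = h 0 1)
    (h10 : g 1 0 = h 1 0) (h11 : g 1 1 = h 1 1) : g = h := by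
  apply Units.ext
  ext i j
  fin_cases i <;> fin_cases j
  · exact h00
  · exact h01
  · exact h10
  · exact h11

theorem fx_mul_apply (g h : GL (Fin 2) k) (i j : Fin 2) :
    (g * h) i j = g i 0 * h 0 j + g i 1 * h 1 j := by
  show ((g : Matrix (Fin 2) (Fin 2) k) * (h : Matrix (Fin 2) (Fin 2) k)) i j = _
  rw [Matrix.mul_apply, Fin.sum_univ_two]

theorem mem_center_iff_entries (g : GL (Fin 2) k) :
    g ∈ Subgroup.center (GL (Fin 2) k) ↔ g 0 1 = 0 ∧ g 1 0 = 0 ∧ g 0 0 = g 1 1 := by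
  rw [Subgroup.mem_center_iff]
  constructor
  · intro h
    have hu := h (uMat 1)
    have hl := h (lMat 1)
    have hu00 := congrArg (fun m : GL (Fin 2) k => m 0 0) hu
    have hu01 := congrArg (fun m : GL (Fin 2) k => m 0 1) hu
    have hl00 := congrArg (fun m : GL (Fin 2) k => m 0 0) hl
    simp only [fx_mul_apply] at hu00 hu01 hl00
    simp at hu00 hu01 hl00
    refine ⟨hl00, hu00, ?_⟩
    linear_combination -hu01
  · rintro ⟨h01, h10, h00⟩ h
    apply fx_ext <;> simp only [fx_mul_apply, h01, h10, h00] <;> ring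

theorem smul_eq_self_of_mem_center (g : GL (Fin 2) k) (hg : g ∈ Subgroup.center (GL (Fin 2) k))
    (x : OnePoint k) : g • x = x := by
  obtain ⟨h01, h10, h00⟩ := (mem_center_iff_entries g).mp hg
  have hd := fx_det_eq g
  rw [h01, zero_mul, sub_zero, h00] at hd
  have h11 : g 1 1 ≠ 0 := fun h => hd (by rw [h, mul_zero])
  cases x with
  | infty => rw [smul_infty_eq_self_iff, h10]
  | coe c =>
    rw [smul_some_eq_ite, h10, zero_mul, zero_add, if_neg h11, h01, add_zero, h00,
      mul_div_assoc, mul_comm, div_mul_cancel₀ _ h11]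

/-- A parabolic element has exactly one fixed point. -/
theorem exists_unique_fixed_of_isParabolic (h2 : (2 : k) ≠ 0) (g : GL (Fin 2) k)
    (hg : g.IsParabolic) : ∃ x : OnePoint k, ∀ w : OnePoint k, g • w = w ↔ w = x := by
  haveI : NeZero (2 : k) := ⟨h2⟩
  exact ⟨Matrix.GeneralLinearGroup.parabolicFixedPoint g, fun w => hg.smul_eq_self_iff⟩

theorem fx_not_scalar (g : GL (Fin 2) k) (hc : g ∉ Subgroup.center (GL (Fin 2) k)) :
    (g : Matrix (Fin 2) (Fin 2) k) ∉ Set.range (Matrix.scalar (Fin 2)) := by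
  rintro ⟨a, ha⟩
  apply hc
  rw [mem_center_iff_entries]
  have h : ∀ i j, g i j = (Matrix.scalar (Fin 2) a) i j := fun i j => by rw [ha]
  refine ⟨?_, ?_, ?_⟩
  · rw [h]; simp
  · rw [h]; simp
  · rw [h, h]; simp

/-- A non-scalar, non-parabolic element with eigenvalues in `k` has exactly two fixed points. -/
theorem exists_two_fixed (h2 : (2 : k) ≠ 0) (g : GL (Fin 2) k)
    (hc : g ∉ Subgroup.center (GL (Fin 2) k)) (hp : ¬ g.IsParabolic)
    (hsplit : ∃ α β : k, (g : Matrix (Fin 2) (Fin 2) k).charpoly =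
      (Polynomial.X - Polynomial.C α) * (Polynomial.X - Polynomial.C β)) :
    ∃ x y : OnePoint k, x ≠ y ∧ ∀ w : OnePoint k, g • w = w ↔ w = x ∨ w = y := by
  obtain ⟨α, β, hαβ⟩ := hsplit
  have hd := fx_det_eq g
  by_cases hc0 : g 1 0 = 0
  · -- upper triangular
    have hne : g 0 0 ≠ g 1 1 := by
      intro h
      by_cases hb : g 0 1 = 0
      · exact hc ((mem_center_iff_entries g).mpr ⟨hb, hc0, h⟩)
      · exact hp ((Matrix.GeneralLinearGroup.isParabolic_iff_of_upperTriangular hc0).mpr ⟨h, hb⟩)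
    have h11 : g 1 1 ≠ 0 := by
      intro h
      apply hd
      rw [h, hc0, mul_zero, mul_zero, sub_zero]
    have hsub : g 1 1 - g 0 0 ≠ 0 := sub_ne_zero.mpr (Ne.symm hne)
    refine ⟨∞, ((g 0 1 / (g 1 1 - g 0 0) : k) : OnePoint k), infty_ne_coe _, fun w => ?_⟩
    cases w with
    | infty =>
      rw [smul_infty_eq_self_iff]
      exact ⟨fun _ => Or.inl rfl, fun _ => hc0⟩
    | coe t =>
      rw [smul_some_eq_ite, hc0, zero_mul, zero_add, if_neg h11]
      constructor
      · intro h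
        right
        rw [OnePoint.coe_eq_coe] at h ⊢
        rw [div_eq_iff h11] at h
        rw [eq_div_iff hsub]
        linear_combination -h
      · rintro (h | h)
        · exact absurd h (coe_ne_infty t)
        · rw [OnePoint.coe_eq_coe] at h ⊢
          rw [eq_div_iff hsub] at h
          rw [div_eq_iff h11]
          linear_combination -h
  · -- `g 1 0 ≠ 0`
    have h0 := congrArg (Polynomial.eval 0) hαβ
    have h1 := congrArg (Polynomial.eval 1) hαβ
    rw [Matrix.charpoly_fin_two] at h0 h1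
    simp only [Polynomial.eval_add, Polynomial.eval_sub, Polynomial.eval_mul, Polynomial.eval_pow,
      Polynomial.eval_X, Polynomial.eval_C, Matrix.trace_fin_two, Matrix.det_fin_two] at h0 h1
    have htr : g 0 0 + g 1 1 = α + β := by linear_combination h0 - h1
    have hdet : g 0 0 * g 1 1 - g 0 1 * g 1 0 = α * β := by linear_combination h0
    have hαβne : α ≠ β := by
      intro h
      apply hp
      refine ⟨fx_not_scalar g hc, ?_⟩
      rw [Matrix.discr_fin_two, Matrix.trace_fin_two, Matrix.det_fin_two]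
      rw [h] at htr hdet
      linear_combination (g 0 0 + g 1 1 + 2 * β) * htr - 4 * hdet
    refine ⟨(((g 0 0 - β) / g 1 0 : k) : OnePoint k), (((g 0 0 - α) / g 1 0 : k) : OnePoint k),
      ?_, fun w => ?_⟩
    · intro h
      rw [OnePoint.coe_eq_coe, div_left_inj' hc0] at h
      exact hαβne (by linear_combination h)
    cases w with
    | infty =>
      rw [smul_infty_eq_self_iff]
      exact ⟨fun h => absurd h hc0, fun h => h.elim (fun h => absurd h (infty_ne_coe _))
        (fun h => absurd h (infty_ne_coe _))⟩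
    | coe t =>
      rw [← Matrix.GeneralLinearGroup.fixpointPolynomial_aeval_eq_zero_iff]
      simp only [Matrix.GeneralLinearGroup.fixpointPolynomial, map_sub, map_add, map_mul,
        Polynomial.aeval_C, Polynomial.aeval_X, map_pow, Algebra.algebraMap_self_apply]
      have key : g 1 0 * (g 1 0 * t ^ 2 + (g 1 1 - g 0 0) * t - g 0 1) =
          (g 1 0 * t - (g 0 0 - β)) * (g 1 0 * t - (g 0 0 - α)) := by
        linear_combination (-(g 0 0) + g 1 0 * t) * htr + hdet
      have e1 : ((t : OnePoint k) = (((g 0 0 - β) / g 1 0 : k) : OnePoint k)) ↔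
          g 1 0 * t - (g 0 0 - β) = 0 := by
        rw [OnePoint.coe_eq_coe, eq_div_iff hc0, sub_eq_zero, mul_comm]
      have e2 : ((t : OnePoint k) = (((g 0 0 - α) / g 1 0 : k) : OnePoint k)) ↔
          g 1 0 * t - (g 0 0 - α) = 0 := by
        rw [OnePoint.coe_eq_coe, eq_div_iff hc0, sub_eq_zero, mul_comm]
      rw [e1, e2, ← mul_eq_zero, ← key, mul_eq_zero]
      exact ⟨fun h => Or.inr h, fun h => h.resolve_left hc0⟩

theorem fx_isUnip_iff (g : GL (Fin 2) k) :
    IsUnip g ↔ g 0 0 + g 1 1 = 2 ∧ g 0 0 * g 1 1 - g 0 1 * g 1 0 = 1 := by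
  unfold IsUnip
  rw [Matrix.trace_fin_two, Matrix.det_fin_two]

theorem isUnip_uMat (a : k) : IsUnip (uMat a) := by
  rw [fx_isUnip_iff]
  simp
  norm_num

theorem isUnip_lMat (b : k) : IsUnip (lMat b) := by
  rw [fx_isUnip_iff]
  simp
  norm_num

theorem isUnip_one : IsUnip (1 : GL (Fin 2) k) := by
  rw [fx_isUnip_iff]
  simp
  norm_num

theorem isUnip_conj (c g : GL (Fin 2) k) (hg : IsUnip g) : IsUnip (c * g * c⁻¹) := by
  unfold IsUnip at hg ⊢
  refine ⟨?_, ?_⟩
  · have h : ((c * g * c⁻¹ : GL (Fin 2) k) : Matrix (Fin 2) (Fin 2) k) =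
        (c : Matrix (Fin 2) (Fin 2) k) * (g : Matrix (Fin 2) (Fin 2) k) *
          ((c⁻¹ : GL (Fin 2) k) : Matrix (Fin 2) (Fin 2) k) := rfl
    rw [h, Matrix.trace_mul_comm, ← mul_assoc]
    have h2 : ((c⁻¹ : GL (Fin 2) k) : Matrix (Fin 2) (Fin 2) k) *
        (c : Matrix (Fin 2) (Fin 2) k) = 1 := by
      rw [← Units.val_mul, inv_mul_cancel, Units.val_one]
    rw [h2, one_mul, hg.1]
  · have h : ((c * g * c⁻¹ : GL (Fin 2) k) : Matrix (Fin 2) (Fin 2) k) =
        (c : Matrix (Fin 2) (Fin 2) k) * (g : Matrix (Fin 2) (Fin 2) k) *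
          ((c⁻¹ : GL (Fin 2) k) : Matrix (Fin 2) (Fin 2) k) := rfl
    rw [h, Matrix.det_mul, Matrix.det_mul, mul_right_comm, ← Matrix.det_mul]
    have h2 : (c : Matrix (Fin 2) (Fin 2) k) *
        ((c⁻¹ : GL (Fin 2) k) : Matrix (Fin 2) (Fin 2) k) = 1 := by
      rw [← Units.val_mul, mul_inv_cancel, Units.val_one]
    rw [h2, Matrix.det_one, one_mul, hg.2]

/-- The diagonal entries of a triangular unipotent element are `1`. -/
theorem fx_diag_of_isUnip (g : GL (Fin 2) k) (hg : IsUnip g) (h : g 0 1 * g 1 0 = 0) :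
    g 0 0 = 1 ∧ g 1 1 = 1 := by
  rw [fx_isUnip_iff] at hg
  obtain ⟨h1, h2⟩ := hg
  have h3 : (g 0 0 - 1) ^ 2 = 0 := by
    linear_combination (g 0 0) * h1 - h2 - h
  have h4 : g 0 0 = 1 := by
    have := pow_eq_zero_iff (two_ne_zero) |>.mp h3
    exact sub_eq_zero.mp this
  refine ⟨h4, ?_⟩
  rw [h4] at h1
  linear_combination h1

/-- A nontrivial unipotent element is parabolic. -/
theorem isParabolic_of_isUnip (g : GL (Fin 2) k) (hg : IsUnip g) (h1 : g ≠ 1) :
    g.IsParabolic := by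
  have hg' := hg
  unfold IsUnip at hg'
  refine ⟨?_, ?_⟩
  · rintro ⟨a, ha⟩
    apply h1
    have h : ∀ i j, g i j = (Matrix.scalar (Fin 2) a) i j := fun i j => by rw [ha]
    have h01 : g 0 1 = 0 := by rw [h]; simp
    have h10 : g 1 0 = 0 := by rw [h]; simp
    obtain ⟨h00, h11⟩ := fx_diag_of_isUnip g hg (by rw [h01, zero_mul])
    apply fx_ext <;> simp [h01, h10, h00, h11]
  · rw [Matrix.discr_fin_two, hg'.1, hg'.2]
    norm_num

/-- The unipotent elements fixing `∞` are the `uMat a`. -/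
theorem eq_uMat_of_isUnip (g : GL (Fin 2) k) (hg : IsUnip g)
    (h : g • (∞ : OnePoint k) = ∞) : ∃ a : k, g = uMat a := by
  rw [smul_infty_eq_self_iff] at h
  obtain ⟨h00, h11⟩ := fx_diag_of_isUnip g hg (by rw [h, mul_zero])
  refine ⟨g 0 1, ?_⟩
  apply fx_ext <;> simp [h, h00, h11]

theorem fx_smul_zero_eq_self_iff (g : GL (Fin 2) k) :
    g • ((0 : k) : OnePoint k) = ((0 : k) : OnePoint k) ↔ g 0 1 = 0 := by
  rw [smul_some_eq_ite]
  simp only [mul_zero, zero_add]
  by_cases h11 : g 1 1 = 0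
  · rw [if_pos h11]
    constructor
    · intro h
      exact absurd h (infty_ne_coe _)
    · intro h
      exfalso
      apply fx_det_eq g
      rw [h11, h, mul_zero, zero_mul, sub_zero]
  · rw [if_neg h11, OnePoint.coe_eq_coe, div_eq_zero_iff]
    exact ⟨fun h => h.resolve_right h11, fun h => Or.inl h⟩

/-- The unipotent elements fixing `0` are the `lMat b`. -/
theorem eq_lMat_of_isUnip (g : GL (Fin 2) k) (hg : IsUnip g)
    (h : g • ((0 : k) : OnePoint k) = ((0 : k) : OnePoint k)) : ∃ b : k, g = lMat b := by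
  rw [fx_smul_zero_eq_self_iff] at h
  obtain ⟨h00, h11⟩ := fx_diag_of_isUnip g hg (by rw [h, zero_mul])
  refine ⟨g 1 0, ?_⟩
  apply fx_ext <;> simp [h, h00, h11]

theorem uMat_smul_coe (a x : k) : uMat a • ((x : k) : OnePoint k) = ((x + a : k) : OnePoint k) := by
  rw [smul_some_eq_ite]
  simp

theorem uMat_smul_infty (a : k) : uMat a • (∞ : OnePoint k) = ∞ := by
  rw [smul_infty_eq_self_iff]
  simp

theorem lMat_smul_infty (b : k) (hb : b ≠ 0) :
    lMat b • (∞ : OnePoint k) = ((b⁻¹ : k) : OnePoint k) := by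
  rw [smul_infty_eq_ite]
  simp [hb]

theorem lMat_smul_zero (b : k) : lMat b • ((0 : k) : OnePoint k) = ((0 : k) : OnePoint k) := by
  rw [fx_smul_zero_eq_self_iff]
  simp

theorem dMat_smul_coe (t : kˣ) (x : k) :
    dMat t • ((x : k) : OnePoint k) = (((t : k) ^ 2 * x : k) : OnePoint k) := by
  rw [smul_some_eq_ite]
  simp
  ring

/-- `GL₂(k)` is 2-transitive on `ℙ¹(k)`. -/
theorem exists_smul_eq_infty_zero (x y : OnePoint k) (hxy : x ≠ y) :
    ∃ c : GL (Fin 2) k, c • x = ∞ ∧ c • y = ((0 : k) : OnePoint k) := by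
  cases x with
  | infty =>
    cases y with
    | infty => exact absurd rfl hxy
    | coe t =>
      refine ⟨uMat (-t), uMat_smul_infty _, ?_⟩
      rw [uMat_smul_coe, add_neg_cancel]
  | coe s =>
    cases y with
    | infty =>
      have hdet : (!![0, 1; 1, -s] : Matrix (Fin 2) (Fin 2) k).det ≠ 0 := by
        rw [Matrix.det_fin_two_of]
        simp
      refine ⟨Matrix.GeneralLinearGroup.mkOfDetNeZero _ hdet, ?_, ?_⟩
      · rw [smul_some_eq_ite]
        simp [Matrix.GeneralLinearGroup.mkOfDetNeZero]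
      · rw [smul_infty_eq_ite]
        simp [Matrix.GeneralLinearGroup.mkOfDetNeZero]
    | coe t =>
      have hst : s ≠ t := fun h => hxy (by rw [h])
      have hdet : (!![1, -t; 1, -s] : Matrix (Fin 2) (Fin 2) k).det ≠ 0 := by
        rw [Matrix.det_fin_two_of]
        intro h
        exact hst (by linear_combination -h)
      refine ⟨Matrix.GeneralLinearGroup.mkOfDetNeZero _ hdet, ?_, ?_⟩
      · rw [smul_some_eq_ite]
        simp [Matrix.GeneralLinearGroup.mkOfDetNeZero]
      · rw [smul_some_eq_ite]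
        have h1 : t + -s ≠ 0 := fun h => hst (by linear_combination -h)
        simp [Matrix.GeneralLinearGroup.mkOfDetNeZero, h1]

theorem fx_exists_smul_eq_infty (x : OnePoint k) : ∃ c : GL (Fin 2) k, c • x = ∞ := by
  cases x with
  | infty => exact ⟨1, one_smul _ _⟩
  | coe s =>
    obtain ⟨c, hc, -⟩ := exists_smul_eq_infty_zero ((s : k) : OnePoint k) ∞ (coe_ne_infty s)
    exact ⟨c, hc⟩

theorem fx_isUnip_commutator_infty (g h : GL (Fin 2) k) (hg : g • (∞ : OnePoint k) = ∞)
    (hh : h • (∞ : OnePoint k) = ∞) : IsUnip (g * h * g⁻¹ * h⁻¹) := by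
  have hu : (g * h * g⁻¹ * h⁻¹) • (∞ : OnePoint k) = ∞ := by
    have hg' : g⁻¹ • (∞ : OnePoint k) = ∞ := by rw [inv_smul_eq_iff, hg]
    have hh' : h⁻¹ • (∞ : OnePoint k) = ∞ := by rw [inv_smul_eq_iff, hh]
    rw [mul_smul, mul_smul, mul_smul, hh', hg', hh, hg]
  rw [smul_infty_eq_self_iff] at hg hh hu
  have hmul : (g * h * g⁻¹ * h⁻¹) * (h * g) = g * h := by group
  have e00 := congrArg (fun m : GL (Fin 2) k => m 0 0) hmul
  have e11 := congrArg (fun m : GL (Fin 2) k => m 1 1) hmul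
  simp only [fx_mul_apply _ (h * g), fx_mul_apply g h, fx_mul_apply h g, hg, hh, hu] at e00 e11
  have hdg := fx_det_eq g
  have hdh := fx_det_eq h
  rw [hg, mul_zero, sub_zero] at hdg
  rw [hh, mul_zero, sub_zero] at hdh
  have hg00 : g 0 0 ≠ 0 := left_ne_zero_of_mul hdg
  have hg11 : g 1 1 ≠ 0 := right_ne_zero_of_mul hdg
  have hh00 : h 0 0 ≠ 0 := left_ne_zero_of_mul hdh
  have hh11 : h 1 1 ≠ 0 := right_ne_zero_of_mul hdh
  have u00 : (g * h * g⁻¹ * h⁻¹) 0 0 = 1 := by
    have h1 : ((g * h * g⁻¹ * h⁻¹) 0 0 - 1) * (h 0 0 * g 0 0) = 0 := by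
      linear_combination e00
    rcases mul_eq_zero.mp h1 with h2 | h2
    · exact sub_eq_zero.mp h2
    · exact absurd h2 (mul_ne_zero hh00 hg00)
  have u11 : (g * h * g⁻¹ * h⁻¹) 1 1 = 1 := by
    have h1 : ((g * h * g⁻¹ * h⁻¹) 1 1 - 1) * (h 1 1 * g 1 1) = 0 := by
      linear_combination e11
    rcases mul_eq_zero.mp h1 with h2 | h2
    · exact sub_eq_zero.mp h2
    · exact absurd h2 (mul_ne_zero hh11 hg11)
  rw [fx_isUnip_iff, u00, u11, hu]
  norm_num

/-- The commutator of two elements with a common fixed point is unipotent. -/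
theorem isUnip_commutator (g h : GL (Fin 2) k) (x : OnePoint k) (hg : g • x = x)
    (hh : h • x = x) : IsUnip (g * h * g⁻¹ * h⁻¹) := by
  obtain ⟨c, hc⟩ := fx_exists_smul_eq_infty x
  have hx : c⁻¹ • (∞ : OnePoint k) = x := by rw [inv_smul_eq_iff, hc]
  have hg' : (c * g * c⁻¹) • (∞ : OnePoint k) = ∞ := by
    rw [mul_smul, mul_smul, hx, hg, hc]
  have hh' : (c * h * c⁻¹) • (∞ : OnePoint k) = ∞ := by
    rw [mul_smul, mul_smul, hx, hh, hc]
  have h1 := fx_isUnip_commutator_infty _ _ hg' hh'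
  have h2 := isUnip_conj c⁻¹ _ h1
  have h3 : c⁻¹ * (c * g * c⁻¹ * (c * h * c⁻¹) * (c * g * c⁻¹)⁻¹ * (c * h * c⁻¹)⁻¹) * c⁻¹⁻¹ =
      g * h * g⁻¹ * h⁻¹ := by group
  rw [h3] at h2
  exact h2

theorem fx_eq_zero_of_pow_eq_zero {a : k} {n : ℕ} (h : a ^ n = 0) : a = 0 := by
  by_contra ha
  exact pow_ne_zero n ha h

theorem fx_sub_one_sq (g : GL (Fin 2) k) (hg : IsUnip g) :
    ((g : Matrix (Fin 2) (Fin 2) k) - 1) ^ 2 = 0 := by
  rw [fx_isUnip_iff] at hg
  obtain ⟨h1, h2⟩ := hg
  rw [sq]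
  ext i j
  fin_cases i <;> fin_cases j <;>
    simp [Matrix.mul_apply, Fin.sum_univ_two, Matrix.one_fin_two]
  · linear_combination (g 0 0) * h1 - h2
  · linear_combination (g 0 1) * h1
  · linear_combination (g 1 0) * h1
  · linear_combination (g 1 1) * h1 - h2

/-- In characteristic `p` the unipotent elements are the elements of order dividing `p`. -/
theorem isUnip_iff_pow_eq_one (p : ℕ) [Fact p.Prime] [CharP k p] (g : GL (Fin 2) k) :
    IsUnip g ↔ g ^ p = 1 := by
  have hp2 : 2 ≤ p := (Fact.out : p.Prime).two_le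
  have hcomm : Commute (g : Matrix (Fin 2) (Fin 2) k) 1 := Commute.one_right _
  have hpow : ((g : Matrix (Fin 2) (Fin 2) k) - 1) ^ p =
      (g : Matrix (Fin 2) (Fin 2) k) ^ p - 1 := by
    rw [sub_pow_char_of_commute p hcomm, one_pow]
  constructor
  · intro hg
    have h0 : ((g : Matrix (Fin 2) (Fin 2) k) - 1) ^ p = 0 := by
      obtain ⟨d, rfl⟩ := Nat.exists_eq_add_of_le hp2
      rw [pow_add, fx_sub_one_sq g hg, zero_mul]
    rw [hpow, sub_eq_zero] at h0
    apply Units.ext
    rw [Units.val_pow_eq_pow_val, h0, Units.val_one]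
  · intro hg
    have h1 : (g : Matrix (Fin 2) (Fin 2) k) ^ p = 1 := by
      rw [← Units.val_pow_eq_pow_val, hg, Units.val_one]
    have hnil : IsNilpotent ((g : Matrix (Fin 2) (Fin 2) k) - 1) :=
      ⟨p, by rw [hpow, h1, sub_self]⟩
    have htr : ((g : Matrix (Fin 2) (Fin 2) k) - 1).trace = 0 :=
      (Matrix.isNilpotent_trace_of_isNilpotent hnil).eq_zero
    have hdet : ((g : Matrix (Fin 2) (Fin 2) k) - 1).det = 0 := by
      obtain ⟨n, hn⟩ := hnil
      have h2 := congrArg Matrix.det hn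
      rw [Matrix.det_pow, Matrix.det_zero] at h2
      exact fx_eq_zero_of_pow_eq_zero h2
    rw [Matrix.trace_fin_two] at htr
    rw [Matrix.det_fin_two] at hdet
    simp only [Matrix.sub_apply, Matrix.one_fin_two, Matrix.of_apply, Matrix.cons_val',
      Matrix.cons_val_zero, Matrix.cons_val_one, Matrix.cons_val_fin_one, sub_zero]
      at htr hdet
    rw [fx_isUnip_iff]
    constructor
    · linear_combination htr
    · linear_combination hdet + htr

/-- Irreducible = no fixed point on `ℙ¹(k)`. -/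
theorem exists_smul_ne_of_irr (Γ : Subgroup (GL (Fin 2) k))
    (hirr : ¬ ∃ v : Fin 2 → k, v ≠ 0 ∧
      ∀ g ∈ Γ, ∃ a : k, (g : Matrix (Fin 2) (Fin 2) k).mulVec v = a • v)
    (x : OnePoint k) : ∃ g ∈ Γ, g • x ≠ x := by
  by_contra hcon0
  have hcon : ∀ g ∈ Γ, g • x = x := fun g hg => by_contra fun h => hcon0 ⟨g, hg, h⟩
  apply hirr
  cases x with
  | infty =>
    refine ⟨![1, 0], by simp, fun g hg => ⟨g 0 0, ?_⟩⟩
    have h := hcon g hg
    rw [smul_infty_eq_self_iff] at h
    rw [Matrix.mulVec_fin_two]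
    ext i
    fin_cases i <;> simp [h]
  | coe t =>
    refine ⟨![t, 1], by simp, fun g hg => ⟨g 1 0 * t + g 1 1, ?_⟩⟩
    have h := hcon g hg
    rw [smul_some_eq_ite] at h
    by_cases h0 : g 1 0 * t + g 1 1 = 0
    · rw [if_pos h0] at h
      exact absurd h (infty_ne_coe _)
    · rw [if_neg h0, OnePoint.coe_eq_coe, div_eq_iff h0] at h
      rw [Matrix.mulVec_fin_two]
      ext i
      fin_cases i
      · simp
        linear_combination h
      · simp

end Fermat.Agent.S56.GT
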