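/-
S56 / W5 / GT sub-leaf S-A (Sylow subgroups and cusps).  Statements FIXED.
Owner: helper23 (proofs in CuspsSylow.lean, CuspsPar.lean, CuspsDecomp.lean; `ncard_parabolic`:
helper21, GT/Cusps/Par.lean).  Uses the statements of `GT/Fixed.lean`.

`Γ ≤ GL₂(k)`, `k` finite of characteristic `p` odd.
* `exists_conj_cusp`: Cauchy gives `g ∈ Γ` of order `p`, unipotent (`isUnip_iff_pow_eq_one`), with
  a fixed point `x`; conjugate `x` to `∞` (`exists_smul_eq_infty_zero`): `c g c⁻¹ = uMat a`.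
* `index_unipAdd`: `unipSub Γ` is a `p`-group; a Sylow `p`-subgroup `P ⊇ unipSub Γ` consists of
  unipotent elements and fixes a point (`#ℙ¹(k) = #k + 1 ≡ 1 mod p`), which is `∞` because
  `uMat a` (`a ≠ 0`) fixes only `∞`; so `P ≤ unipSub Γ`.  `#unipSub Γ = #unipAdd Γ`.
* `par_decomp`: `g` parabolic, `λ = tr g / 2`, `g = λ u` with `u` unipotent of order `p`; if
  `m = orderOf λ` (prime to `p`) then `g ^ m = u ^ m ∈ Γ` generates `⟨u⟩`, so `u ∈ Γ`, `λ ∈ Γ`.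
* `par_fixed_mem_cuspSet`: Sylow's theorem: `u` lies in a conjugate `γ (unipSub Γ) γ⁻¹`, `γ ∈ Γ`,
  whose elements fix `γ • ∞`.
* `ncard_parabolic`: `(z, x, u) ↦ z u` is a bijection from
  `scal Γ × {(x, u) | x ∈ cuspSet Γ, u ∈ Γ unipotent, u ≠ 1, u x = x}` onto the parabolic elements
  of `Γ`; for `x = γ • ∞` the unipotent elements of `Γ` fixing `x` are `γ (unipSub Γ) γ⁻¹`.
-/
import Fermat.Agent.S56.TW.GT.Fixed
import Fermat.Agent.S56.TW.GT.CuspsDecomp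
import Fermat.Agent.S56.TW.GT.Cusps.Par

set_option autoImplicit false

namespace Fermat.Agent.S56.GT

open Matrix OnePoint

variable {k : Type} [Field k] [DecidableEq k]

theorem exists_conj_cusp [Finite k] (p : ℕ) [Fact p.Prime] [CharP k p]
    (Γ : Subgroup (GL (Fin 2) k)) (hp : p ∣ Nat.card Γ) :
    ∃ (c : GL (Fin 2) k) (a : k), a ≠ 0 ∧ uMat a ∈ conjSub c Γ := by
  exact cus_exists_conj_cusp p Γ hp

theorem card_unipSub [Finite k] (Γ : Subgroup (GL (Fin 2) k)) :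
    Nat.card (unipSub Γ) = Nat.card (unipAdd Γ) := by
  exact cus_card_unipSub Γ

theorem index_unipAdd [Finite k] (p : ℕ) [Fact p.Prime] [CharP k p] (hp2 : p ≠ 2)
    (Γ : Subgroup (GL (Fin 2) k)) (hcusp : ∃ a : k, a ≠ 0 ∧ uMat a ∈ Γ) :
    ¬ p ∣ Nat.card Γ / Nat.card (unipAdd Γ) := by
  exact cus_index_unipAdd p Γ hcusp

/-- `#A` is a power of `p`, at least `3`. -/
theorem three_le_card_unipAdd [Finite k] (p : ℕ) [Fact p.Prime] [CharP k p] (hp2 : p ≠ 2)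
    (Γ : Subgroup (GL (Fin 2) k)) (hcusp : ∃ a : k, a ≠ 0 ∧ uMat a ∈ Γ) :
    3 ≤ Nat.card (unipAdd Γ) := by
  exact cus_three_le_card p hp2 Γ hcusp

theorem par_decomp [Finite k] (p : ℕ) [Fact p.Prime] [CharP k p] (hp2 : p ≠ 2)
    (Γ : Subgroup (GL (Fin 2) k)) (g : GL (Fin 2) k) (hg : g ∈ Γ) (hpar : g.IsParabolic) :
    ∃ z u : GL (Fin 2) k, z ∈ scal Γ ∧ u ∈ Γ ∧ IsUnip u ∧ u ≠ 1 ∧ g = z * u := by
  exact cus_par_decomp p hp2 Γ g hg hpar

theorem par_fixed_mem_cuspSet [Finite k] (p : ℕ) [Fact p.Prime] [CharP k p] (hp2 : p ≠ 2)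
    (Γ : Subgroup (GL (Fin 2) k)) (hcusp : ∃ a : k, a ≠ 0 ∧ uMat a ∈ Γ)
    (g : GL (Fin 2) k) (hg : g ∈ Γ) (hpar : g.IsParabolic) (x : OnePoint k) (hx : g • x = x) :
    x ∈ cuspSet Γ := by
  exact cus_par_fixed_mem_cuspSet p hp2 Γ hcusp g hg hpar x hx

/-- The parabolic elements of `Γ` fixing `∞` are the products of a scalar of `Γ` and an element
of `unipSub Γ`. -/
theorem par_borel_mem [Finite k] (p : ℕ) [Fact p.Prime] [CharP k p] (hp2 : p ≠ 2)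
    (Γ : Subgroup (GL (Fin 2) k)) (g : GL (Fin 2) k) (hg : g ∈ Γ) (hpar : g.IsParabolic)
    (h : g • (∞ : OnePoint k) = ∞) : g ∈ scal Γ ⊔ unipSub Γ := by
  exact cus_par_borel_mem p hp2 Γ g hg hpar h

theorem ncard_parabolic [Finite k] (p : ℕ) [Fact p.Prime] [CharP k p] (hp2 : p ≠ 2)
    (Γ : Subgroup (GL (Fin 2) k)) (hcusp : ∃ a : k, a ≠ 0 ∧ uMat a ∈ Γ) :
    {g : GL (Fin 2) k | g ∈ Γ ∧ g.IsParabolic}.ncard =
      Nat.card (scal Γ) * (cuspSet Γ).ncard * (Nat.card (unipAdd Γ) - 1) := by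
  exact ncard_parabolic_of p hp2 Γ (par_decomp p hp2 Γ) (par_fixed_mem_cuspSet p hp2 Γ hcusp)

end Fermat.Agent.S56.GT
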