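/-
S56 / W5 / GT sub-leaf S-D (Hua's identity: `N = 1` gives a subfield and the torus).
Statements FIXED (helper59).  Owner: helper6.

`hua_subfield`: `a⁻¹ + 1 ∈ A'` gives `a / (1 + a) ∈ A`, so `1 / (1 + a) = 1 - a / (1 + a) ∈ A`:
`A` is closed under inversion and `A' = A`; Hua: `a - (a⁻¹ + (b⁻¹ - a)⁻¹)⁻¹ = a² b` (`a b ≠ 1`),
so `a² ∈ A` (`b = 1`) and `a b = ((a + b)² - a² - b²) / 2 ∈ A`.

`borelData_of_isNOne`: `0 ∈ cuspSet Γ`, say `0 = γ • ∞`; the unipotent elements of `Γ` fixing `0`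
are `γ (unipSub Γ) γ⁻¹ = {lMat b | b ∈ A'}`, `#A' = #A = q`; `IsNOne`: `cuspSet Γ = {∞} ∪ A` has
`q + 1` elements, and it contains the `q` points `lMat b • ∞ = b⁻¹` (`b ∈ A' ∖ 0`) and `∞`, all
different from `0`: so `A ∖ 0 = (A' ∖ 0)⁻¹`.  `hua_subfield`: `A` is closed under
multiplication, `A' = A`.  `w t = uMat t * lMat (- t⁻¹) * uMat t = [0, t; - t⁻¹, 0] ∈ Γ`,
`dMat t = w t * (w 1)⁻¹`.  Last clause: `g • ∞ ∈ cuspSet Γ` is `∞` (`h = 1`) or `a ∈ A`
(`h = w 1 * uMat (-a)`: `h • a = w 1 • 0 = ∞`).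
-/
import Fermat.Agent.S56.TW.GT.Cusps

set_option autoImplicit false
set_option linter.unusedSimpArgs false

namespace Fermat.Agent.S56.GT

open Matrix OnePoint

variable {k : Type} [Field k]

theorem hua_subfield (p : ℕ) [Fact p.Prime] [CharP k p] (hp2 : p ≠ 2) (A A' : AddSubgroup k)
    (h1 : (1 : k) ∈ A) (hinv : ∀ a : k, a ≠ 0 → (a ∈ A ↔ a⁻¹ ∈ A')) :
    (∀ a ∈ A, ∀ b ∈ A, a * b ∈ A) ∧ ∀ a : k, a ∈ A' ↔ a ∈ A := by
  have h1' : (1 : k) ∈ A' := by
    have := (hinv 1 one_ne_zero).mp h1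
    rwa [inv_one] at this
  -- `A` is closed under inversion
  have hAinv : ∀ b ∈ A, b⁻¹ ∈ A := by
    intro b hb
    by_cases hb0 : b = 0
    · rw [hb0, _root_.inv_zero]
      exact A.zero_mem
    by_cases hb1 : b = 1
    · rw [hb1, inv_one]
      exact h1
    have haA : b - 1 ∈ A := A.sub_mem hb h1
    have ha0 : b - 1 ≠ 0 := sub_ne_zero.mpr hb1
    have ha' : (b - 1)⁻¹ ∈ A' := (hinv _ ha0).mp haA
    have h2 : (b - 1)⁻¹ + 1 ∈ A' := A'.add_mem ha' h1'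
    have hx0 : (b - 1) / b ≠ 0 := div_ne_zero ha0 hb0
    have hxinv : ((b - 1) / b)⁻¹ = (b - 1)⁻¹ + 1 := by
      field_simp
      ring
    have hx : (b - 1) / b ∈ A := (hinv _ hx0).mpr (by rw [hxinv]; exact h2)
    have e : b⁻¹ = 1 - (b - 1) / b := by
      field_simp
      ring
    rw [e]
    exact A.sub_mem h1 hx
  have hAA' : ∀ a : k, a ∈ A' ↔ a ∈ A := by
    intro a
    by_cases ha0 : a = 0
    · rw [ha0]
      exact ⟨fun _ => A.zero_mem, fun _ => A'.zero_mem⟩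
    constructor
    · intro ha
      have h3 : a⁻¹ ∈ A := (hinv a⁻¹ (inv_ne_zero ha0)).mpr (by rwa [inv_inv])
      have h4 := hAinv _ h3
      rwa [inv_inv] at h4
    · intro ha
      have h3 := (hinv a⁻¹ (inv_ne_zero ha0)).mp (hAinv a ha)
      rwa [inv_inv] at h3
  -- squares (Hua's identity with `b = 1`)
  have hsq : ∀ a ∈ A, a * a ∈ A := by
    intro a ha
    by_cases ha0 : a = 0
    · rw [ha0, mul_zero]
      exact A.zero_mem
    by_cases ha1 : a = 1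
    · rw [ha1, mul_one]
      exact h1
    have h3 : (1 - a) ≠ 0 := sub_ne_zero.mpr (Ne.symm ha1)
    have e : a * a = a - (a⁻¹ + (1 - a)⁻¹)⁻¹ := by
      have e1 : a⁻¹ + (1 - a)⁻¹ = (a * (1 - a))⁻¹ := by
        field_simp
        ring
      rw [e1, inv_inv]
      ring
    rw [e]
    exact A.sub_mem ha (hAinv _ (A.add_mem (hAinv a ha) (hAinv _ (A.sub_mem h1 ha))))
  -- `2 a b = (a + b)² - a² - b²`
  have h2ab : ∀ a ∈ A, ∀ b ∈ A, 2 * (a * b) ∈ A := by
    intro a ha b hb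
    have e : 2 * (a * b) = (a + b) * (a + b) - a * a - b * b := by ring
    rw [e]
    exact A.sub_mem (A.sub_mem (hsq _ (A.add_mem ha hb)) (hsq a ha)) (hsq b hb)
  refine ⟨fun a ha b hb => ?_, hAA'⟩
  -- division by `2` inside the additive group `A` (characteristic `p` odd)
  have hpodd : p % 2 = 1 := (Fact.out : p.Prime).eq_two_or_odd.resolve_left hp2
  have hm : (((p + 1) / 2 : ℕ) : k) * 2 = 1 := by
    have h4 : (p + 1) / 2 * 2 = p + 1 := by omega
    have h5 : ((((p + 1) / 2 * 2 : ℕ)) : k) = ((p + 1 : ℕ) : k) := by rw [h4]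
    push_cast at h5
    rw [h5, CharP.cast_eq_zero, zero_add]
  have e : a * b = ((p + 1) / 2) • (2 * (a * b)) := by
    rw [nsmul_eq_mul, ← mul_assoc, hm, one_mul]
  rw [e]
  exact A.nsmul_mem (h2ab a ha b hb) _

/-! ### matrix computations -/

theorem hua_gl_ext {g h : GL (Fin 2) k} (h00 : g 0 0 = h 0 0) (h01 : g 0 1 = h 0 1)
    (h10 : g 1 0 = h 1 0) (h11 : g 1 1 = h 1 1) : g = h := by
  apply Units.ext
  ext i j
  fin_cases i <;> fin_cases j
  · exact h00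
  · exact h01
  · exact h10
  · exact h11

theorem hua_lMat_add (a b : k) : lMat (a + b) = lMat a * lMat b := by
  apply hua_gl_ext <;>
    simp [Matrix.mul_apply, Fin.sum_univ_two, add_comm]

theorem hua_lMat_zero : lMat (0 : k) = 1 := by
  apply hua_gl_ext <;> simp

theorem hua_lMat_neg (a : k) : lMat (-a) = (lMat a)⁻¹ := by
  rw [eq_inv_iff_mul_eq_one, ← hua_lMat_add, neg_add_cancel, hua_lMat_zero]

/-- `A' = {b | [1, 0; b, 1] ∈ Γ}`. -/
def lowAdd (Γ : Subgroup (GL (Fin 2) k)) : AddSubgroup k where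
  carrier := {b | lMat b ∈ Γ}
  add_mem' {a b} ha hb := by
    show lMat (a + b) ∈ Γ
    rw [hua_lMat_add]
    exact Γ.mul_mem ha hb
  zero_mem' := by
    show lMat (0 : k) ∈ Γ
    rw [hua_lMat_zero]
    exact Γ.one_mem
  neg_mem' {a} ha := by
    show lMat (-a) ∈ Γ
    rw [hua_lMat_neg]
    exact Γ.inv_mem ha

theorem mem_lowAdd {Γ : Subgroup (GL (Fin 2) k)} {b : k} : b ∈ lowAdd Γ ↔ lMat b ∈ Γ :=
  Iff.rfl

/-- the Weyl element `w t = [0, t; - t⁻¹, 0]` -/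
def wMat (t : k) : GL (Fin 2) k := uMat t * lMat (-t⁻¹) * uMat t

theorem hua_coe_wMat (t : k) (ht : t ≠ 0) :
    (wMat t : Matrix (Fin 2) (Fin 2) k) = !![0, t; -t⁻¹, 0] := by
  unfold wMat
  rw [Matrix.GeneralLinearGroup.coe_mul, Matrix.GeneralLinearGroup.coe_mul, coe_uMat, coe_lMat]
  ext i j
  fin_cases i <;> fin_cases j <;>
    simp [Matrix.mul_apply, Fin.sum_univ_two, ht]

theorem hua_dMat_eq (t : kˣ) : dMat t = wMat (t : k) * (wMat (1 : k))⁻¹ := by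
  rw [eq_mul_inv_iff_mul_eq]
  apply Units.ext
  rw [Matrix.GeneralLinearGroup.coe_mul, hua_coe_wMat _ t.ne_zero, hua_coe_wMat _ one_ne_zero,
    coe_dMat]
  ext i j
  fin_cases i <;> fin_cases j <;>
    simp [Matrix.mul_apply, Fin.sum_univ_two]

theorem hua_det_uMat (a : k) : Matrix.GeneralLinearGroup.det (uMat a) = 1 := by
  apply Units.ext
  simp [Matrix.det_fin_two]

theorem hua_det_lMat (a : k) : Matrix.GeneralLinearGroup.det (lMat a) = 1 := by
  apply Units.ext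
  simp [Matrix.det_fin_two]

theorem hua_det_wMat (t : k) : Matrix.GeneralLinearGroup.det (wMat t) = 1 := by
  unfold wMat
  rw [map_mul, map_mul, hua_det_uMat, hua_det_lMat, one_mul, one_mul]

/-- conjugation of `uMat c` by an element `γ` with `γ • ∞ = 0` -/
theorem hua_conj (γ : GL (Fin 2) k) (h00 : γ 0 0 = 0) (h01 : γ 0 1 ≠ 0) (c : k) :
    γ * uMat c * γ⁻¹ = lMat (γ 1 0 / γ 0 1 * c) := by
  rw [mul_inv_eq_iff_eq_mul]
  apply hua_gl_ext
  · simp [Matrix.mul_apply, Fin.sum_univ_two, h00]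
  · simp [Matrix.mul_apply, Fin.sum_univ_two, h00]
  · simp [Matrix.mul_apply, Fin.sum_univ_two, h00]
  · simp [Matrix.mul_apply, Fin.sum_univ_two, h00]
    field_simp

theorem borelData_of_isNOne [DecidableEq k] [Finite k] (p : ℕ) [Fact p.Prime] [CharP k p]
    (hp2 : p ≠ 2) (Γ : Subgroup (GL (Fin 2) k)) (h1 : uMat (1 : k) ∈ Γ)
    (h0 : ((0 : k) : OnePoint k) ∈ cuspSet Γ) (hN : IsNOne Γ) :
    BorelData p Γ (unipAdd Γ) := by
  classical
  -- the element `γ` with `γ • ∞ = 0`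
  obtain ⟨γ, hγ, hγ0⟩ := h0
  have hγ10 : γ 1 0 ≠ 0 := by
    intro h
    rw [smul_infty_eq_ite, if_pos h] at hγ0
    exact infty_ne_coe _ hγ0
  have hγ00 : γ 0 0 = 0 := by
    rw [smul_infty_eq_ite, if_neg hγ10] at hγ0
    have := OnePoint.coe_injective hγ0
    rcases div_eq_zero_iff.mp this with h | h
    · exact h
    · exact absurd h hγ10
  have hγ01 : γ 0 1 ≠ 0 := by
    intro h
    have hdet := γ.det_ne_zero
    rw [Matrix.det_fin_two] at hdet
    apply hdet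
    show γ 0 0 * γ 1 1 - γ 0 1 * γ 1 0 = 0
    rw [hγ00, h]
    ring
  set μ : k := γ 1 0 / γ 0 1 with hμ
  have hμ0 : μ ≠ 0 := div_ne_zero hγ10 hγ01
  -- `μ A ⊆ A'`
  have hμA : ∀ c ∈ unipAdd Γ, μ * c ∈ lowAdd Γ := by
    intro c hc
    show lMat (μ * c) ∈ Γ
    rw [hμ, ← hua_conj γ hγ00 hγ01 c]
    exact Γ.mul_mem (Γ.mul_mem hγ hc) (Γ.inv_mem hγ)
  -- `(A' ∖ 0)⁻¹ ⊆ A`
  have hA'inv : ∀ b ∈ lowAdd Γ, b⁻¹ ∈ unipAdd Γ := by
    intro b hb
    by_cases hb0 : b = 0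
    · rw [hb0, _root_.inv_zero]
      exact (unipAdd Γ).zero_mem
    have hcusp : ((b⁻¹ : k) : OnePoint k) ∈ cuspSet Γ := by
      refine ⟨lMat b, hb, ?_⟩
      rw [smul_infty_eq_ite]
      have e1 : (lMat b) 1 0 = b := by simp
      have e2 : (lMat b) 0 0 = 1 := by simp
      rw [e1, e2, if_neg hb0, one_div]
    rcases hN _ hcusp with h | ⟨a, ha, h⟩
    · exact absurd h (coe_ne_infty _)
    · rw [OnePoint.coe_injective h]
      exact ha
  -- pigeonhole: `c ↦ (μ c)⁻¹` is a bijection of `A`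
  have hinv : ∀ a : k, a ≠ 0 → (a ∈ unipAdd Γ ↔ a⁻¹ ∈ lowAdd Γ) := by
    intro a ha0
    constructor
    · intro ha
      let f : unipAdd Γ → unipAdd Γ := fun c => ⟨(μ * c)⁻¹, hA'inv _ (hμA c c.2)⟩
      have hf : Function.Injective f := by
        intro c c' hcc
        have h2 : (μ * (c : k))⁻¹ = (μ * (c' : k))⁻¹ := congrArg Subtype.val hcc
        have h3 := inv_injective h2
        exact Subtype.ext (mul_left_cancel₀ hμ0 h3)
      obtain ⟨c, hc⟩ := (Finite.injective_iff_surjective.mp hf) ⟨a, ha⟩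
      have h2 : (μ * (c : k))⁻¹ = a := congrArg Subtype.val hc
      rw [← h2, inv_inv]
      exact hμA c c.2
    · intro ha
      have := hA'inv _ ha
      rwa [inv_inv] at this
  obtain ⟨hmul, hAA'⟩ := hua_subfield p hp2 (unipAdd Γ) (lowAdd Γ) h1 hinv
  -- the Weyl elements
  have hw : ∀ t : k, t ≠ 0 → t ∈ unipAdd Γ → wMat t ∈ Γ := by
    intro t ht0 ht
    unfold wMat
    have h2 : -t⁻¹ ∈ lowAdd Γ := (lowAdd Γ).neg_mem ((hinv t ht0).mp ht)
    exact Γ.mul_mem (Γ.mul_mem ht h2) ht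
  have hw1 : wMat (1 : k) ∈ Γ := hw 1 one_ne_zero h1
  refine ⟨fun a => Iff.rfl, h1, index_unipAdd p hp2 Γ ⟨1, one_ne_zero, h1⟩, Or.inr ⟨hmul, ?_, ?_⟩⟩
  · intro t ht
    rw [hua_dMat_eq]
    exact Γ.mul_mem (hw _ t.ne_zero ht) (Γ.inv_mem hw1)
  · intro g hg
    by_cases hg10 : g 1 0 = 0
    · exact ⟨1, Γ.one_mem, map_one _, by rw [one_mul]; exact hg10⟩
    · have hcusp : (((g 0 0 / g 1 0 : k)) : OnePoint k) ∈ cuspSet Γ := by
        refine ⟨g, hg, ?_⟩
        rw [smul_infty_eq_ite, if_neg hg10]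
      have ha : g 0 0 / g 1 0 ∈ unipAdd Γ := by
        rcases hN _ hcusp with h | ⟨a, ha, h⟩
        · exact absurd h (coe_ne_infty _)
        · rw [OnePoint.coe_injective h]
          exact ha
      refine ⟨wMat 1 * uMat (-(g 0 0 / g 1 0)), Γ.mul_mem hw1 ((unipAdd Γ).neg_mem ha), ?_, ?_⟩
      · rw [map_mul, hua_det_wMat, hua_det_uMat, one_mul]
      · rw [Matrix.GeneralLinearGroup.coe_mul, Matrix.GeneralLinearGroup.coe_mul,
          hua_coe_wMat _ one_ne_zero, coe_uMat]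
        simp [Matrix.mul_apply, Fin.sum_univ_two]
        field_simp
        ring

end Fermat.Agent.S56.GT
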