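/-
S56 / W5 / GT sub-leaf S-B (class equation, abstract).  Statement FIXED.  PROVED (helper69).
Pure finite combinatorics (Mathlib only).

`G` finite acting on a finite set `X`; `Z ≤ G` acts trivially; every `g ∉ Z` has exactly one
(`P g`) or exactly two (`¬ P g`) fixed points; `Ω` is an orbit with `ω ≥ 2` points whose
stabilisers have at least `z q` elements; there are exactly `z ω (q - 1)` elements `g ∉ Z` with
`P g`  (`z = #Z`).
Double counting `{(g, x) | g x = x}`:
  `∑_g #Fix g = z #X + #par + 2 (#G - z - #par)`,  `∑_x #G_x = #G + ∑_{x ∉ Ω} #G_x`, hence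
  (★)  `∑_{x ∉ Ω} (#G_x - z) + 2 z + z ω (q - 2) = #G`.
For `y ∉ Ω` with `#G_y ≠ z` (so `#G_y ≥ 2 z`, as `Z ≤ G_y`) the orbit `O` of `y` contributes
`#O (#G_y - z) = #G - z #O ≥ #G / 2` to (★); two such orbits would contribute `≥ #G`: impossible.
No such orbit: `#G = z (2 + ω (q - 2)) < z ω q ≤ #G` (`ω ≥ 2`): impossible.  So there is exactly
one, and `z #O = z (2 + ω (q - 2))`, `#G = #G_y #O`.
-/
import Mathlib

set_option autoImplicit false
set_option linter.unusedSectionVars false
set_option linter.style.haveILetI false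

namespace Fermat.Agent.S56.GT

section aux

open Classical

variable {G X : Type} [Group G] [Fintype G] [Fintype X] [MulAction G X]

theorem classEq_card_stab (x : X) :
    Nat.card (MulAction.stabilizer G x) = (Finset.univ.filter fun g : G => g • x = x).card := by
  have h1 : Nat.card (MulAction.stabilizer G x)
      = Set.ncard ((MulAction.stabilizer G x : Subgroup G) : Set G) := Nat.card_coe_set_eq _
  rw [h1, ← Set.ncard_coe_finset]
  congr 1
  ext g
  simp [MulAction.mem_stabilizer_iff]

theorem classEq_card_orbit (x : X) :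
    Nat.card (MulAction.orbit G x)
      = (Finset.univ.filter fun w : X => w ∈ MulAction.orbit G x).card := by
  have h1 : Nat.card (MulAction.orbit G x) = Set.ncard (MulAction.orbit G x) :=
    Nat.card_coe_set_eq _
  rw [h1, ← Set.ncard_coe_finset]
  congr 1
  ext g
  simp

theorem classEq_double_count :
    ∑ x : X, (Finset.univ.filter fun g : G => g • x = x).card
      = ∑ g : G, (Finset.univ.filter fun x : X => g • x = x).card := by
  simp only [Finset.card_filter]
  exact Finset.sum_comm

theorem classEq_orbit_stab (x : X) :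
    (Finset.univ.filter fun w : X => w ∈ MulAction.orbit G x).card
      * Nat.card (MulAction.stabilizer G x) = Nat.card G := by
  rw [← classEq_card_orbit]
  have := MulAction.card_orbit_mul_card_stabilizer_eq_card_group G x
  simpa [Nat.card_eq_fintype_card] using this

theorem classEq_stab_smul (g : G) (x : X) :
    Nat.card (MulAction.stabilizer G (g • x)) = Nat.card (MulAction.stabilizer G x) := by
  have h1 := classEq_orbit_stab (G := G) (g • x)
  rw [MulAction.orbit_smul] at h1
  have h2 := classEq_orbit_stab (G := G) x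
  have hpos : 0 < (Finset.univ.filter fun w : X => w ∈ MulAction.orbit G x).card :=
    Finset.card_pos.mpr ⟨x, by simp⟩
  exact Nat.eq_of_mul_eq_mul_left hpos (h1.trans h2.symm)

/-- the sum of the stabiliser orders over an orbit -/
theorem classEq_sum_orbit (x : X) :
    ∑ w ∈ Finset.univ.filter (fun w : X => w ∈ MulAction.orbit G x),
      Nat.card (MulAction.stabilizer G w) = Nat.card G := by
  rw [Finset.sum_const_nat (m := Nat.card (MulAction.stabilizer G x))]
  · exact classEq_orbit_stab x
  · intro w hw
    rw [Finset.mem_filter] at hw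
    obtain ⟨g, rfl⟩ := hw.2
    exact classEq_stab_smul g x

/-- the count of the fixed points -/
theorem classEq_sum_fix (Z : Subgroup G) (P : G → Prop)
    (hZfix : ∀ g ∈ Z, ∀ x : X, g • x = x)
    (hfix1 : ∀ g : G, g ∉ Z → P g → ∃ x : X, ∀ w : X, g • w = w ↔ w = x)
    (hfix2 : ∀ g : G, g ∉ Z → ¬ P g → ∃ x y : X, x ≠ y ∧ ∀ w : X, g • w = w ↔ w = x ∨ w = y) :
    ∑ g : G, (Finset.univ.filter fun x : X => g • x = x).card
      = (Finset.univ.filter fun g : G => g ∈ Z).card * Fintype.card X
        + (Finset.univ.filter fun g : G => g ∉ Z ∧ P g).card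
        + 2 * (Finset.univ.filter fun g : G => g ∉ Z ∧ ¬ P g).card := by
  rw [← Finset.sum_filter_add_sum_filter_not Finset.univ (fun g : G => g ∈ Z),
    ← Finset.sum_filter_add_sum_filter_not (Finset.univ.filter fun g : G => ¬ g ∈ Z) P,
    Finset.filter_filter, Finset.filter_filter]
  rw [Finset.sum_const_nat (m := Fintype.card X), Finset.sum_const_nat (m := 1),
    Finset.sum_const_nat (m := 2)]
  · ring
  · intro g hg
    rw [Finset.mem_filter] at hg
    obtain ⟨x, y, hxy, h⟩ := hfix2 g hg.2.1 hg.2.2
    rw [Finset.card_eq_two]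
    refine ⟨x, y, hxy, ?_⟩
    ext w
    simp [h w]
  · intro g hg
    rw [Finset.mem_filter] at hg
    obtain ⟨x, h⟩ := hfix1 g hg.2.1 hg.2.2
    rw [Finset.card_eq_one]
    refine ⟨x, ?_⟩
    ext w
    simp [h w]
  · intro g hg
    rw [Finset.mem_filter] at hg
    rw [Finset.filter_true_of_mem fun x _ => hZfix g hg.2 x]
    rfl

/-- the partition of `G` -/
theorem classEq_card_G (Z : Subgroup G) (P : G → Prop) :
    (Finset.univ.filter fun g : G => g ∈ Z).card
        + (Finset.univ.filter fun g : G => g ∉ Z ∧ P g).card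
        + (Finset.univ.filter fun g : G => g ∉ Z ∧ ¬ P g).card = Nat.card G := by
  have h1 := Finset.card_filter_add_card_filter_not (s := (Finset.univ : Finset G))
    (fun g : G => g ∈ Z)
  have h2 := Finset.card_filter_add_card_filter_not
    (s := (Finset.univ.filter fun g : G => ¬ g ∈ Z)) P
  rw [Finset.filter_filter, Finset.filter_filter] at h2
  rw [Nat.card_eq_fintype_card, ← Finset.card_univ, ← h1, ← h2]
  ring

theorem classEq_card_sub (Z : Subgroup G) :
    Nat.card Z = (Finset.univ.filter fun g : G => g ∈ Z).card := by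
  have h1 : Nat.card Z = Set.ncard (Z : Set G) := Nat.card_coe_set_eq _
  rw [h1, ← Set.ncard_coe_finset]
  congr 1
  ext g
  simp

end aux

theorem classEq_abstract {G X : Type} [Group G] [Finite G] [Finite X] [MulAction G X]
    (Z : Subgroup G) (P : G → Prop) (Ω : Set X) (q : ℕ)
    (hω : 2 ≤ Ω.ncard) (hq : 2 ≤ q)
    (hZfix : ∀ g ∈ Z, ∀ x : X, g • x = x)
    (hfix1 : ∀ g : G, g ∉ Z → P g → ∃ x : X, ∀ w : X, g • w = w ↔ w = x)
    (hfix2 : ∀ g : G, g ∉ Z → ¬ P g → ∃ x y : X, x ≠ y ∧ ∀ w : X, g • w = w ↔ w = x ∨ w = y)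
    (hpar : {g : G | g ∉ Z ∧ P g}.ncard = Nat.card Z * Ω.ncard * (q - 1))
    (hΩ : ∀ g : G, ∀ x ∈ Ω, g • x ∈ Ω)
    (htrans : ∀ x ∈ Ω, ∀ y ∈ Ω, ∃ g : G, g • x = y)
    (hstab : ∃ x ∈ Ω, Nat.card Z * q ≤ Nat.card (MulAction.stabilizer G x)) :
    (∃ y : X, y ∉ Ω ∧ Nat.card (MulAction.stabilizer G y) ≠ Nat.card Z) ∧
      ∀ y : X, y ∉ Ω → Nat.card (MulAction.stabilizer G y) ≠ Nat.card Z →
        Nat.card G = Nat.card (MulAction.stabilizer G y) * (2 + Ω.ncard * (q - 2)) := by
  classical
  letI : Fintype G := Fintype.ofFinite G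
  letI : Fintype X := Fintype.ofFinite X
  obtain ⟨q', rfl⟩ : ∃ q', q = q' + 2 := ⟨q - 2, by omega⟩
  have hq1 : q' + 2 - 1 = q' + 1 := rfl
  have hq2 : q' + 2 - 2 = q' := rfl
  rw [hq1] at hpar
  rw [hq2]
  -- the stabiliser orders
  have hZle : ∀ x : X, Z ≤ MulAction.stabilizer G x := fun x g hg =>
    MulAction.mem_stabilizer_iff.mpr (hZfix g hg x)
  have hzpos : 0 < Nat.card Z := Nat.card_pos
  have hs_ge : ∀ x : X, Nat.card Z ≤ Nat.card (MulAction.stabilizer G x) := fun x =>
    Subgroup.card_le_of_le (hZle x)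
  have hs_two : ∀ x : X, Nat.card (MulAction.stabilizer G x) ≠ Nat.card Z →
      2 * Nat.card Z ≤ Nat.card (MulAction.stabilizer G x) := by
    intro x hx
    obtain ⟨k, hk⟩ := Subgroup.card_dvd_of_le (hZle x)
    have h1 := hs_ge x
    rcases k with _ | _ | k
    · rw [hk, mul_zero] at h1
      omega
    · rw [zero_add, mul_one] at hk
      exact absurd hk hx
    · rw [hk]
      nlinarith
  -- the counts of group elements
  have hzc : (Finset.univ.filter fun g : G => g ∈ Z).card = Nat.card Z :=
    (classEq_card_sub Z).symm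
  have hparc : (Finset.univ.filter fun g : G => g ∉ Z ∧ P g).card
      = Nat.card Z * Ω.ncard * (q' + 1) := by
    rw [← hpar, ← Set.ncard_coe_finset]
    congr 1
    ext g
    simp
  have hG := classEq_card_G Z P
  have hfix := classEq_sum_fix (X := X) Z P hZfix hfix1 hfix2
  rw [← classEq_double_count] at hfix
  simp only [← classEq_card_stab] at hfix
  rw [hzc, hparc] at hfix hG
  -- the orbit `Ω`
  have hAcard : (Finset.univ.filter fun x : X => x ∈ Ω).card = Ω.ncard := by
    rw [← Set.ncard_coe_finset]
    congr 1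
    ext x
    simp
  have hABcard : (Finset.univ.filter fun x : X => x ∈ Ω).card
      + (Finset.univ.filter fun x : X => ¬ x ∈ Ω).card = Fintype.card X := by
    rw [← Finset.card_univ]
    exact Finset.card_filter_add_card_filter_not _
  obtain ⟨x₀, hx₀, hx₀s⟩ := hstab
  have hAorb : (Finset.univ.filter fun x : X => x ∈ Ω)
      = Finset.univ.filter (fun w : X => w ∈ MulAction.orbit G x₀) := by
    ext x
    simp only [Finset.mem_filter, Finset.mem_univ, true_and]
    constructor
    · intro hx
      obtain ⟨g, hg⟩ := htrans x₀ hx₀ x hx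
      exact ⟨g, hg⟩
    · rintro ⟨g, rfl⟩
      exact hΩ g x₀ hx₀
  have hSA : ∑ x ∈ Finset.univ.filter (fun x : X => x ∈ Ω),
      Nat.card (MulAction.stabilizer G x) = Nat.card G := by
    rw [hAorb]
    exact classEq_sum_orbit x₀
  have hnω : Ω.ncard * Nat.card (MulAction.stabilizer G x₀) = Nat.card G := by
    rw [← hAcard, hAorb]
    exact classEq_orbit_stab x₀
  -- the excess `t x = #G_x - z`
  have hst : ∀ x : X, Nat.card (MulAction.stabilizer G x)
      = Nat.card Z + (Nat.card (MulAction.stabilizer G x) - Nat.card Z) := fun x => by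
    have := hs_ge x
    omega
  have hSB : ∑ x ∈ Finset.univ.filter (fun x : X => ¬ x ∈ Ω),
      Nat.card (MulAction.stabilizer G x)
      = (Finset.univ.filter fun x : X => ¬ x ∈ Ω).card * Nat.card Z
        + ∑ x ∈ Finset.univ.filter (fun x : X => ¬ x ∈ Ω),
            (Nat.card (MulAction.stabilizer G x) - Nat.card Z) := by
    rw [← smul_eq_mul, ← Finset.sum_const, ← Finset.sum_add_distrib]
    exact Finset.sum_congr rfl fun x _ => hst x
  rw [← Finset.sum_filter_add_sum_filter_not Finset.univ (fun x : X => x ∈ Ω), hSA, hSB,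
    ← hABcard, hAcard] at hfix
  -- abbreviations
  set z := Nat.card Z with hz
  set n := Nat.card G with hn
  set ω := Ω.ncard with hωd
  set B : Finset X := Finset.univ.filter (fun x : X => ¬ x ∈ Ω) with hB
  set T : ℕ := ∑ x ∈ B, (Nat.card (MulAction.stabilizer G x) - z) with hT
  set npar := (Finset.univ.filter fun g : G => g ∉ Z ∧ ¬ P g).card with hnpar
  -- (★)
  have e1 : z * ω * (q' + 1) = z * ω * q' + z * ω := by ring
  have e2 : ω * (z * (q' + 2)) = z * ω * q' + 2 * (z * ω) := by ring
  have e3 : 2 * z ≤ z * ω := by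
    rw [mul_comm 2 z]
    exact Nat.mul_le_mul_left z hω
  have e4 : ω * (z * (q' + 2)) ≤ n := by
    rw [← hnω]
    exact Nat.mul_le_mul_left ω hx₀s
  have e5 : z * (ω + B.card) = z * ω + B.card * z := by ring
  rw [e5] at hfix
  have hstar : n + T = z * ω + z * ω * (q' + 1) + 2 * npar := by omega
  -- orbits outside `Ω`
  have horbB : ∀ y : X, y ∉ Ω →
      Finset.univ.filter (fun w : X => w ∈ MulAction.orbit G y) ⊆ B := by
    intro y hy w hw
    rw [Finset.mem_filter] at hw
    obtain ⟨g, rfl⟩ := hw.2
    rw [hB, Finset.mem_filter]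
    refine ⟨Finset.mem_univ _, fun hgy => hy ?_⟩
    have := hΩ g⁻¹ _ hgy
    rwa [inv_smul_smul] at this
  have horbT : ∀ y : X,
      (Finset.univ.filter (fun w : X => w ∈ MulAction.orbit G y)).card * z
        + ∑ x ∈ Finset.univ.filter (fun w : X => w ∈ MulAction.orbit G y),
            (Nat.card (MulAction.stabilizer G x) - z) = n := by
    intro y
    rw [← smul_eq_mul, ← Finset.sum_const, ← Finset.sum_add_distrib]
    exact (Finset.sum_congr rfl fun x _ => (hst x).symm).trans (classEq_sum_orbit (G := G) y)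
  have horb2 : ∀ y : X, Nat.card (MulAction.stabilizer G y) ≠ z →
      2 * ((Finset.univ.filter (fun w : X => w ∈ MulAction.orbit G y)).card * z) ≤ n := by
    intro y hy
    have h1 := classEq_orbit_stab (G := G) y
    have h2 := hs_two y hy
    calc 2 * ((Finset.univ.filter (fun w : X => w ∈ MulAction.orbit G y)).card * z)
        = (Finset.univ.filter (fun w : X => w ∈ MulAction.orbit G y)).card * (2 * z) := by ring
      _ ≤ (Finset.univ.filter (fun w : X => w ∈ MulAction.orbit G y)).card
            * Nat.card (MulAction.stabilizer G y) := Nat.mul_le_mul_left _ h2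
      _ = n := h1
  refine ⟨?_, ?_⟩
  · -- existence
    by_contra hcon
    push Not at hcon
    have hT0 : T = 0 := by
      rw [hT]
      refine Finset.sum_eq_zero fun x hx => ?_
      rw [hB, Finset.mem_filter] at hx
      rw [hcon x hx.2]
      exact Nat.sub_self _
    omega
  · -- the formula
    intro y hy hsy
    set O : Finset X := Finset.univ.filter (fun w : X => w ∈ MulAction.orbit G y) with hO
    have hOB : O ⊆ B := horbB y hy
    have hOt : O.card * z + ∑ w ∈ O, (Nat.card (MulAction.stabilizer G w) - z) = n := horbT y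
    have hO2 : 2 * (O.card * z) ≤ n := horb2 y hsy
    -- all other points outside `Ω` have stabiliser `Z`
    have hrest : ∀ x ∈ B, x ∉ O → Nat.card (MulAction.stabilizer G x) - z = 0 := by
      intro x hxB hxO
      by_contra hne
      have hsx : Nat.card (MulAction.stabilizer G x) ≠ z := by
        intro h
        rw [h] at hne
        exact hne (Nat.sub_self _)
      have hxΩ : x ∉ Ω := by
        rw [hB, Finset.mem_filter] at hxB
        exact hxB.2
      set O' : Finset X := Finset.univ.filter (fun w : X => w ∈ MulAction.orbit G x) with hO'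
      have hO'B : O' ⊆ B := horbB x hxΩ
      have hO't : O'.card * z + ∑ w ∈ O', (Nat.card (MulAction.stabilizer G w) - z) = n :=
        horbT x
      have hO'2 : 2 * (O'.card * z) ≤ n := horb2 x hsx
      have hdisj : Disjoint O O' := by
        rw [Finset.disjoint_left]
        intro w hw hw'
        rw [hO, Finset.mem_filter] at hw
        rw [hO', Finset.mem_filter] at hw'
        apply hxO
        rw [hO, Finset.mem_filter]
        refine ⟨Finset.mem_univ _, ?_⟩
        have h1 := MulAction.orbit_eq_iff.mpr hw.2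
        have h2 := MulAction.orbit_eq_iff.mpr hw'.2
        rw [← h1, h2]
        exact MulAction.mem_orbit_self x
      have hle : ∑ w ∈ O ∪ O', (Nat.card (MulAction.stabilizer G w) - z) ≤ T :=
        Finset.sum_le_sum_of_subset (Finset.union_subset hOB hO'B)
      rw [Finset.sum_union hdisj] at hle
      clear_value T npar n z ω O O' B
      clear hfix hABcard hSB e2 e4 e5 hx₀s hnω hAcard hs_ge hs_two hst
      omega
    have hTO : T = ∑ w ∈ O, (Nat.card (MulAction.stabilizer G w) - z) :=
      (Finset.sum_subset hOB hrest).symm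
    have hOcard : O.card * z = z * (2 + ω * q') := by
      have e6 : z * (2 + ω * q') = 2 * z + z * ω * q' := by ring
      omega
    have hOc : O.card = 2 + ω * q' := by
      rw [mul_comm] at hOcard
      exact Nat.eq_of_mul_eq_mul_left hzpos hOcard
    have h1 : O.card * Nat.card (MulAction.stabilizer G y) = n :=
      classEq_orbit_stab (G := G) y
    rw [hOc] at h1
    rw [← h1, mul_comm]

end Fermat.Agent.S56.GT
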