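/-
S56 / W5 / GT sub-leaf S-C1 (counting in the Borel subgroup, abstract).  Statements FIXED.
PROVED (helper13).  Pure finite combinatorics (Mathlib + the counting lemmas of `GT/ClassEq.lean`).

`B` finite acting on a finite nonempty set `Y` (= the cusps other than `∞`); `Z, U` normal in `B`,
`Z ∩ U = 1`, `#B = z q d` (`z = #Z`, `q = #U`); `Z` acts trivially; the elements of `Z U ∖ Z` have
no fixed point; every element outside `Z U` has exactly one fixed point.
Double counting: `∑_y (#B_y - z) = #B - z q = z q (d - 1)`.  `B_y ∩ Z U = Z`, so `#B_y = z e_y`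
with `e_y ∣ d` (`B_y / Z` embeds in `B / Z U`), the orbit of `y` has `q d / e_y` elements and
contributes `z q (d - d / e_y)`.  If `d = 1` all orbits have `q` elements.  If `d > 1` exactly one
orbit `O₁` has `e > 1`, and `e = d`, `#O₁ = q`; the others have `q d` elements.  `T = B_{y₁}`
(`y₁ ∈ O₁`) acts on `O₁ ∖ {y₁}` with all stabilisers `= Z`, so `d ∣ q - 1`.

Proof as written: `#(Z U) = z q` (`bc_card_sup`); `∑_g #Fix g = z #Y + (#B - z q)` (`bc_sum_fix`);
Burnside (`bc_burnside`) gives `#Y = q + m q d` (`bc_card_formula`); if `d ≥ 2` the orbit analysis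
(`bc_exists_stab`) gives `y₁` with `#B_{y₁} = z d`, and `bc_card_formula` for `T = B_{y₁}` acting
on `Y` (with `Z`, `U = 1`) gives `#Y = 1 + m' d`, so `d ∣ q - 1`.
-/
import Mathlib
import Fermat.Agent.S56.TW.GT.ClassEq

set_option autoImplicit false
set_option linter.unusedSectionVars false
set_option linter.style.haveILetI false

namespace Fermat.Agent.S56.GT

theorem arith_endgame (N q d d₂ : ℕ) (hq : 3 ≤ q) (hN : 1 ≤ N) (hd : 1 ≤ d)
    (h1 : d ∣ q - 1) (h2 : d ∣ N - 1)
    (h3 : (1 + N * q) * d = d₂ * (1 + N * (q - 2))) : N = 1 ∨ q = 3 := by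
  by_cases hN1 : N = 1
  · exact Or.inl hN1
  right
  obtain ⟨r, rfl⟩ : ∃ r, q = r + 2 := ⟨q - 2, by omega⟩
  have hr : r + 2 - 2 = r := rfl
  rw [hr] at h3
  have hdN : d ≤ N - 1 := Nat.le_of_dvd (by omega) h2
  -- `D = 1 + N r` divides `2 d`
  have hcop : Nat.Coprime (1 + N * r) N := by
    rw [Nat.coprime_add_mul_left_left]
    exact Nat.coprime_one_left N
  have hdvd : (1 + N * r) ∣ N * (2 * d) + (1 + N * r) * d := by
    refine ⟨d₂, ?_⟩
    rw [mul_comm (1 + N * r) d₂, ← h3]
    ring
  have hdvd2 : (1 + N * r) ∣ N * (2 * d) :=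
    (Nat.dvd_add_left (Dvd.intro _ rfl)).1 hdvd
  have hdvd3 : (1 + N * r) ∣ 2 * d := hcop.dvd_of_dvd_mul_left hdvd2
  have hle : 1 + N * r ≤ 2 * d := Nat.le_of_dvd (by omega) hdvd3
  have hr2 : r < 2 := by
    by_contra hcon
    have hr2 : 2 ≤ r := by omega
    have := Nat.mul_le_mul_left N hr2
    omega
  omega

section bcaux

open Classical

variable {B Y : Type} [Group B] [Fintype B] [Fintype Y] [MulAction B Y]

theorem bc_card_sup (Z U : Subgroup B) [U.Normal] (hZU : Z ⊓ U = ⊥) :
    Nat.card (Z ⊔ U : Subgroup B) = Nat.card Z * Nat.card U := by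
  have h1 : U.relIndex (Z ⊔ U) = Nat.card Z := by
    rw [Subgroup.relIndex_sup_right, ← Subgroup.inf_relIndex_right, inf_comm, hZU,
      Subgroup.relIndex_bot_left]
  have h2 := Subgroup.relIndex_mul_relIndex ⊥ U (Z ⊔ U) bot_le le_sup_right
  rw [Subgroup.relIndex_bot_left, Subgroup.relIndex_bot_left, h1] at h2
  rw [← h2, mul_comm]

theorem bc_burnside [Nonempty Y] :
    ∃ n : ℕ, 1 ≤ n ∧
      ∑ g : B, (Finset.univ.filter fun y : Y => g • y = y).card = n * Nat.card B := by
  have : Nonempty (MulAction.orbitRel.Quotient B Y) :=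
    ⟨Quotient.mk'' (Classical.arbitrary Y)⟩
  refine ⟨Fintype.card (MulAction.orbitRel.Quotient B Y), Fintype.card_pos, ?_⟩
  have := MulAction.sum_card_fixedBy_eq_card_orbits_mul_card_group B Y
  rw [Nat.card_eq_fintype_card, ← this]
  refine Finset.sum_congr rfl fun g _ => ?_
  symm
  apply Fintype.card_of_subtype
  intro y
  simp [MulAction.mem_fixedBy]

theorem bc_sum_fix (Z U : Subgroup B)
    (hZfix : ∀ g ∈ Z, ∀ y : Y, g • y = y)
    (hfree : ∀ g ∈ Z ⊔ U, g ∉ Z → ∀ y : Y, g • y ≠ y)
    (hone : ∀ g : B, g ∉ Z ⊔ U → ∃ x : Y, ∀ y : Y, g • y = y ↔ y = x) :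
    ∑ g : B, (Finset.univ.filter fun y : Y => g • y = y).card
      = Nat.card Z * Fintype.card Y + (Nat.card B - Nat.card (Z ⊔ U : Subgroup B)) := by
  have hZH : Z ≤ Z ⊔ U := le_sup_left
  rw [← Finset.sum_filter_add_sum_filter_not Finset.univ (fun g : B => g ∈ Z ⊔ U),
    ← Finset.sum_filter_add_sum_filter_not (Finset.univ.filter fun g : B => g ∈ Z ⊔ U)
      (fun g : B => g ∈ Z),
    Finset.filter_filter, Finset.filter_filter]
  rw [Finset.sum_const_nat (m := Fintype.card Y), Finset.sum_const_nat (m := 0),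
    Finset.sum_const_nat (m := 1)]
  · have e1 : (Finset.univ.filter fun g : B => g ∈ Z ⊔ U ∧ g ∈ Z)
        = Finset.univ.filter fun g : B => g ∈ Z := by
      ext g
      simp only [Finset.mem_filter, Finset.mem_univ, true_and]
      exact ⟨fun h => h.2, fun h => ⟨hZH h, h⟩⟩
    have e2 := Finset.card_filter_add_card_filter_not (s := (Finset.univ : Finset B))
      (fun g : B => g ∈ Z ⊔ U)
    rw [Finset.card_univ, ← Nat.card_eq_fintype_card, ← classEq_card_sub] at e2
    rw [e1, ← classEq_card_sub]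
    omega
  · intro g hg
    rw [Finset.mem_filter] at hg
    obtain ⟨x, h⟩ := hone g hg.2
    rw [Finset.card_eq_one]
    refine ⟨x, ?_⟩
    ext w
    simp [h w]
  · intro g hg
    rw [Finset.mem_filter] at hg
    rw [Finset.card_eq_zero, Finset.filter_eq_empty_iff]
    intro y _
    exact hfree g hg.2.1 hg.2.2 y
  · intro g hg
    rw [Finset.mem_filter] at hg
    rw [Finset.filter_true_of_mem fun x _ => hZfix g hg.2.2 x]
    rfl

/-- the orbit analysis: if `d ≥ 2` some stabiliser has `z d` elements -/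
theorem bc_exists_stab (Z : Subgroup B) (q d : ℕ) (hq : 1 ≤ q) (hd : 2 ≤ d)
    (hcard : Nat.card B = Nat.card Z * q * d)
    (hZfix : ∀ g ∈ Z, ∀ y : Y, g • y = y)
    (hsum : ∑ y : Y, Nat.card (MulAction.stabilizer B y)
      = Nat.card Z * Fintype.card Y + (Nat.card B - Nat.card Z * q)) :
    ∃ y : Y, Nat.card (MulAction.stabilizer B y) = Nat.card Z * d := by
  have hZle : ∀ x : Y, Z ≤ MulAction.stabilizer B x := fun x g hg =>
    MulAction.mem_stabilizer_iff.mpr (hZfix g hg x)
  have hzpos : 0 < Nat.card Z := Nat.card_pos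
  have hs_ge : ∀ x : Y, Nat.card Z ≤ Nat.card (MulAction.stabilizer B x) := fun x =>
    Subgroup.card_le_of_le (hZle x)
  have hs_two : ∀ x : Y, Nat.card (MulAction.stabilizer B x) ≠ Nat.card Z →
      2 * Nat.card Z ≤ Nat.card (MulAction.stabilizer B x) := by
    intro x hx
    obtain ⟨k, hk⟩ := Subgroup.card_dvd_of_le (hZle x)
    have h1 := hs_ge x
    rcases k with _ | _ | k
    · rw [hk, mul_zero] at h1
      omega
    · rw [zero_add, mul_one] at hk
      exact absurd hk hx
    · rw [hk]
      nlinarith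
  have hst : ∀ x : Y, Nat.card (MulAction.stabilizer B x)
      = Nat.card Z + (Nat.card (MulAction.stabilizer B x) - Nat.card Z) := fun x => by
    have := hs_ge x
    omega
  have hS : ∑ x : Y, Nat.card (MulAction.stabilizer B x)
      = Fintype.card Y * Nat.card Z
        + ∑ x : Y, (Nat.card (MulAction.stabilizer B x) - Nat.card Z) := by
    rw [← Finset.card_univ, ← smul_eq_mul, ← Finset.sum_const, ← Finset.sum_add_distrib]
    exact Finset.sum_congr rfl fun x _ => hst x
  set z := Nat.card Z with hz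
  set n := Nat.card B with hn
  set T : ℕ := ∑ x : Y, (Nat.card (MulAction.stabilizer B x) - z) with hT
  have hzq : z * q ≤ n := by
    rw [hcard]
    exact Nat.le_mul_of_pos_right _ (by omega)
  have hzq0 : 0 < z * q := Nat.mul_pos hzpos hq
  have hzq2 : 2 * (z * q) ≤ n := by
    rw [hcard, mul_comm 2]
    exact Nat.mul_le_mul_left _ hd
  have hTn : T + z * q = n := by
    rw [hS, mul_comm] at hsum
    omega
  have horbT : ∀ y : Y,
      (Finset.univ.filter (fun w : Y => w ∈ MulAction.orbit B y)).card * z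
        + ∑ x ∈ Finset.univ.filter (fun w : Y => w ∈ MulAction.orbit B y),
            (Nat.card (MulAction.stabilizer B x) - z) = n := by
    intro y
    rw [← smul_eq_mul, ← Finset.sum_const, ← Finset.sum_add_distrib]
    exact (Finset.sum_congr rfl fun x _ => (hst x).symm).trans (classEq_sum_orbit (G := B) y)
  have horb2 : ∀ y : Y, Nat.card (MulAction.stabilizer B y) ≠ z →
      2 * ((Finset.univ.filter (fun w : Y => w ∈ MulAction.orbit B y)).card * z) ≤ n := by
    intro y hy
    have h1 := classEq_orbit_stab (G := B) y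
    have h2 := hs_two y hy
    calc 2 * ((Finset.univ.filter (fun w : Y => w ∈ MulAction.orbit B y)).card * z)
        = (Finset.univ.filter (fun w : Y => w ∈ MulAction.orbit B y)).card * (2 * z) := by ring
      _ ≤ (Finset.univ.filter (fun w : Y => w ∈ MulAction.orbit B y)).card
            * Nat.card (MulAction.stabilizer B y) := Nat.mul_le_mul_left _ h2
      _ = n := h1
  -- some stabiliser is bigger than `Z`
  obtain ⟨y, hy⟩ : ∃ y : Y, Nat.card (MulAction.stabilizer B y) ≠ z := by
    by_contra hcon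
    push Not at hcon
    have hT0 : T = 0 := by
      rw [hT]
      refine Finset.sum_eq_zero fun x _ => ?_
      rw [hcon x]
      exact Nat.sub_self _
    omega
  refine ⟨y, ?_⟩
  set O : Finset Y := Finset.univ.filter (fun w : Y => w ∈ MulAction.orbit B y) with hO
  have hOt : O.card * z + ∑ w ∈ O, (Nat.card (MulAction.stabilizer B w) - z) = n := horbT y
  have hO2 : 2 * (O.card * z) ≤ n := horb2 y hy
  have hrest : ∀ x ∈ (Finset.univ : Finset Y), x ∉ O →
      Nat.card (MulAction.stabilizer B x) - z = 0 := by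
    intro x _ hxO
    by_contra hne
    have hsx : Nat.card (MulAction.stabilizer B x) ≠ z := by
      intro h
      rw [h] at hne
      exact hne (Nat.sub_self _)
    set O' : Finset Y := Finset.univ.filter (fun w : Y => w ∈ MulAction.orbit B x) with hO'
    have hO't : O'.card * z + ∑ w ∈ O', (Nat.card (MulAction.stabilizer B w) - z) = n :=
      horbT x
    have hO'2 : 2 * (O'.card * z) ≤ n := horb2 x hsx
    have hdisj : Disjoint O O' := by
      rw [Finset.disjoint_left]
      intro w hw hw'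
      rw [hO, Finset.mem_filter] at hw
      rw [hO', Finset.mem_filter] at hw'
      apply hxO
      rw [hO, Finset.mem_filter]
      refine ⟨Finset.mem_univ _, ?_⟩
      have h1 := MulAction.orbit_eq_iff.mpr hw.2
      have h2 := MulAction.orbit_eq_iff.mpr hw'.2
      rw [← h1, h2]
      exact MulAction.mem_orbit_self x
    have hle : ∑ w ∈ O ∪ O', (Nat.card (MulAction.stabilizer B w) - z) ≤ T :=
      Finset.sum_le_sum_of_subset (Finset.subset_univ _)
    rw [Finset.sum_union hdisj] at hle
    clear_value T n z O O'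
    omega
  have hTO : T = ∑ w ∈ O, (Nat.card (MulAction.stabilizer B w) - z) :=
    (Finset.sum_subset (Finset.subset_univ O) hrest).symm
  have hOcard : O.card * z = z * q := by omega
  have hOc : O.card = q := by
    rw [mul_comm] at hOcard
    exact Nat.eq_of_mul_eq_mul_left hzpos hOcard
  have h1 : O.card * Nat.card (MulAction.stabilizer B y) = n :=
    classEq_orbit_stab (G := B) y
  rw [hOc, hcard] at h1
  have h2 : q * Nat.card (MulAction.stabilizer B y) = q * (z * d) := by
    rw [h1]
    ring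
  exact Nat.eq_of_mul_eq_mul_left hq h2

end bcaux

/-- the formula for `#Y` (Burnside) -/
theorem bc_card_formula {B Y : Type} [Group B] [Finite B] [Finite Y] [Nonempty Y]
    [MulAction B Y] (Z U : Subgroup B) [U.Normal] (d : ℕ)
    (hcard : Nat.card B = Nat.card Z * Nat.card U * d)
    (hZU : Z ⊓ U = ⊥)
    (hZfix : ∀ g ∈ Z, ∀ y : Y, g • y = y)
    (hfree : ∀ g ∈ Z ⊔ U, g ∉ Z → ∀ y : Y, g • y ≠ y)
    (hone : ∀ g : B, g ∉ Z ⊔ U → ∃ x : Y, ∀ y : Y, g • y = y ↔ y = x) :
    ∃ m : ℕ, Nat.card Y = Nat.card U + m * (Nat.card U * d) := by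
  classical
  letI : Fintype B := Fintype.ofFinite B
  letI : Fintype Y := Fintype.ofFinite Y
  have hzpos : 0 < Nat.card Z := Nat.card_pos
  have hqpos : 0 < Nat.card U := Nat.card_pos
  have hBpos : 0 < Nat.card B := Nat.card_pos
  have hd : 1 ≤ d := by
    rcases Nat.eq_zero_or_pos d with h | h
    · rw [h, mul_zero] at hcard
      omega
    · exact h
  have hfix := bc_sum_fix (Y := Y) Z U hZfix hfree hone
  obtain ⟨n, hn1, hn⟩ := bc_burnside (B := B) (Y := Y)
  rw [hn, bc_card_sup Z U hZU, hcard, ← Nat.card_eq_fintype_card] at hfix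
  obtain ⟨m, rfl⟩ : ∃ m, n = m + 1 := ⟨n - 1, by omega⟩
  refine ⟨m, ?_⟩
  have hle : Nat.card Z * Nat.card U ≤ Nat.card Z * Nat.card U * d :=
    Nat.le_mul_of_pos_right _ hd
  have e1 : (m + 1) * (Nat.card Z * Nat.card U * d)
      = Nat.card Z * (m * (Nat.card U * d)) + Nat.card Z * Nat.card U * d := by ring
  have e2 : Nat.card Z * Nat.card Y = Nat.card Z * (Nat.card U + m * (Nat.card U * d)) := by
    rw [mul_add]
    omega
  exact Nat.eq_of_mul_eq_mul_left hzpos e2

theorem borelCount_abstract {B Y : Type} [Group B] [Finite B] [Finite Y] [Nonempty Y]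
    [MulAction B Y] (Z U : Subgroup B) [Z.Normal] [U.Normal] (d : ℕ)
    (hcard : Nat.card B = Nat.card Z * Nat.card U * d)
    (hZU : Z ⊓ U = ⊥)
    (hZfix : ∀ g ∈ Z, ∀ y : Y, g • y = y)
    (hfree : ∀ g ∈ Z ⊔ U, g ∉ Z → ∀ y : Y, g • y ≠ y)
    (hone : ∀ g : B, g ∉ Z ⊔ U → ∃ x : Y, ∀ y : Y, g • y = y ↔ y = x) :
    d ∣ Nat.card U - 1 ∧ ∃ m : ℕ, Nat.card Y = Nat.card U + m * (Nat.card U * d) := by
  obtain ⟨m, hm⟩ := bc_card_formula Z U d hcard hZU hZfix hfree hone
  refine ⟨?_, m, hm⟩
  have hqpos : 0 < Nat.card U := Nat.card_pos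
  have hBpos : 0 < Nat.card B := Nat.card_pos
  have hd : 1 ≤ d := by
    rcases Nat.eq_zero_or_pos d with h | h
    · rw [h, mul_zero] at hcard
      omega
    · exact h
  rcases Nat.lt_or_ge d 2 with hd2 | hd2
  · have : d = 1 := by omega
    rw [this]
    exact one_dvd _
  -- a point `y₁` whose stabiliser `T` has `z d` elements
  obtain ⟨y₁, hy₁⟩ : ∃ y : Y, Nat.card (MulAction.stabilizer B y) = Nat.card Z * d := by
    classical
    letI : Fintype B := Fintype.ofFinite B
    letI : Fintype Y := Fintype.ofFinite Y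
    refine bc_exists_stab (Y := Y) Z (Nat.card U) d hqpos hd2 hcard hZfix ?_
    have hfix := bc_sum_fix (Y := Y) Z U hZfix hfree hone
    rw [bc_card_sup Z U hZU, ← classEq_double_count] at hfix
    simp only [← classEq_card_stab] at hfix
    exact hfix
  -- `T` acts on `Y`, `Z` acts trivially, the other elements have exactly one fixed point
  have hZT : Z ≤ MulAction.stabilizer B y₁ := fun g hg =>
    MulAction.mem_stabilizer_iff.mpr (hZfix g hg y₁)
  have hcardZT : Nat.card (Z.subgroupOf (MulAction.stabilizer B y₁)) = Nat.card Z :=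
    Nat.card_congr (Subgroup.subgroupOfEquivOfLe hZT).toEquiv
  obtain ⟨m', hm'⟩ := bc_card_formula (B := MulAction.stabilizer B y₁) (Y := Y)
    (Z.subgroupOf (MulAction.stabilizer B y₁)) ⊥ d
    (by rw [hcardZT, Subgroup.card_bot, mul_one, hy₁])
    (inf_bot_eq _)
    (fun g hg y => hZfix (g : B) (Subgroup.mem_subgroupOf.1 hg) y)
    (fun g hg hg' => absurd (by rwa [sup_bot_eq] at hg) hg')
    (fun g hg => by
      rw [sup_bot_eq, Subgroup.mem_subgroupOf] at hg
      have hgH : (g : B) ∉ Z ⊔ U := fun h =>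
        hfree (g : B) h hg y₁ (MulAction.mem_stabilizer_iff.1 g.2)
      exact hone (g : B) hgH)
  rw [Subgroup.card_bot, one_mul] at hm'
  rw [hm] at hm'
  have e : Nat.card U - 1 + m * (Nat.card U * d) = m' * d := by omega
  have hdvd : d ∣ Nat.card U - 1 + m * (Nat.card U * d) := ⟨m', by rw [e, mul_comm]⟩
  exact (Nat.dvd_add_left ⟨m * Nat.card U, by ring⟩).1 hdvd

end Fermat.Agent.S56.GT
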