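/-
S56 / W5 / GT sub-leaf S-B' (class equation for `Γ ≤ GL₂(k)` on `ℙ¹(k)`).  Statements FIXED.
PROVED (helper69) from the statements of `GT/Fixed.lean`, `GT/Cusps.lean` and `classEq_abstract`.

Instantiate `classEq_abstract` (`GT/ClassEq.lean`) with `G = ↥Γ`, `X = OnePoint k`
(`Finite (OnePoint k)` = `Finite (Option k)`), `Z = (scal Γ).subgroupOf Γ`,
`P g = (g : GL (Fin 2) k).IsParabolic`, `Ω = cuspSet Γ`, `q = Nat.card (unipAdd Γ)`:
* `hω`: `∞ ∈ Ω` and `g • ∞ ≠ ∞` for some `g ∈ Γ` (`exists_smul_ne_of_irr`);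
* `hq`: `three_le_card_unipAdd`;  `hZfix`: `smul_eq_self_of_mem_center`;
* `hfix1`: `exists_unique_fixed_of_isParabolic`;  `hfix2`: `exists_two_fixed` + `hsplit`;
* `hpar`: `ncard_parabolic` (transport along `Subtype.val`; parabolic elements are not scalar);
* `hstab` at `x = ∞`: `(z, u) ↦ z u` is injective from `scal Γ × unipSub Γ` into the stabiliser
  (a scalar `uMat a` has `a = 0`), `card_unipSub`.
Then translate `MulAction.stabilizer ↥Γ y` to `stab Γ y` and `Z` to `scal Γ` (cardinalities).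
-/
import Fermat.Agent.S56.TW.GT.Cusps
import Fermat.Agent.S56.TW.GT.ClassEq

set_option autoImplicit false
set_option linter.unusedSectionVars false
set_option linter.style.haveILetI false

namespace Fermat.Agent.S56.GT

open Matrix OnePoint

variable {k : Type} [Field k] [DecidableEq k]

theorem infty_mem_cuspSet (Γ : Subgroup (GL (Fin 2) k)) : (∞ : OnePoint k) ∈ cuspSet Γ :=
  ⟨1, Γ.one_mem, one_smul _ _⟩

theorem smul_mem_cuspSet (Γ : Subgroup (GL (Fin 2) k)) {g : GL (Fin 2) k} (hg : g ∈ Γ)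
    {x : OnePoint k} (hx : x ∈ cuspSet Γ) : g • x ∈ cuspSet Γ := by
  obtain ⟨h, hh, rfl⟩ := hx
  exact ⟨g * h, Γ.mul_mem hg hh, mul_smul g h _⟩

/-! ### auxiliary statements (helper69) -/

theorem classEqC_finite_onePoint [Finite k] : Finite (OnePoint k) :=
  inferInstanceAs (Finite (Option k))

/-- the stabiliser of `x` in `↥Γ` is `stab Γ x`, as a subgroup of `↥Γ` -/
theorem classEqC_stabilizer_eq (Γ : Subgroup (GL (Fin 2) k)) (x : OnePoint k) :
    MulAction.stabilizer Γ x = (stab Γ x).subgroupOf Γ := by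
  ext g
  rw [MulAction.mem_stabilizer_iff, Subgroup.mem_subgroupOf]
  unfold stab
  rw [Subgroup.mem_inf, MulAction.mem_stabilizer_iff]
  constructor
  · intro h
    exact ⟨g.2, h⟩
  · intro h
    exact h.2

theorem classEqC_card_subgroupOf {G : Type*} [Group G] {H K : Subgroup G} (h : H ≤ K) :
    Nat.card (H.subgroupOf K) = Nat.card H :=
  Nat.card_congr (Subgroup.subgroupOfEquivOfLe h).toEquiv

theorem classEqC_card_stabilizer (Γ : Subgroup (GL (Fin 2) k)) (x : OnePoint k) :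
    Nat.card (MulAction.stabilizer Γ x) = Nat.card (stab Γ x) := by
  rw [classEqC_stabilizer_eq]
  exact classEqC_card_subgroupOf inf_le_left

theorem classEqC_orbit_eq (Γ : Subgroup (GL (Fin 2) k)) :
    MulAction.orbit Γ (∞ : OnePoint k) = cuspSet Γ := by
  ext x
  constructor
  · rintro ⟨g, rfl⟩
    exact ⟨g.1, g.2, rfl⟩
  · rintro ⟨g, hg, rfl⟩
    exact ⟨⟨g, hg⟩, rfl⟩

/-- a parabolic element is not central -/
theorem classEqC_not_mem_center (g : GL (Fin 2) k) (hg : g.IsParabolic) :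
    g ∉ Subgroup.center (GL (Fin 2) k) := by
  intro hc
  rw [mem_center_iff_entries] at hc
  obtain ⟨h01, h10, h00⟩ := hc
  apply hg.1
  refine ⟨g 0 0, ?_⟩
  ext i j
  fin_cases i <;> fin_cases j <;> simp [Matrix.scalar_apply, Matrix.diagonal, h01, h10, h00]

/-- `scal Γ` and `unipSub Γ` meet trivially -/
theorem classEqC_disjoint (Γ : Subgroup (GL (Fin 2) k)) : Disjoint (scal Γ) (unipSub Γ) := by
  rw [Subgroup.disjoint_def]
  intro g hs hu
  obtain ⟨-, a, rfl⟩ := hu
  have hc : uMat a ∈ Subgroup.center (GL (Fin 2) k) := hs.2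
  rw [mem_center_iff_entries] at hc
  have ha : a = 0 := by
    have := hc.1
    simpa using this
  rw [ha, uMat_zero]

theorem two_le_ncard_cuspSet [Finite k] (Γ : Subgroup (GL (Fin 2) k))
    (hirr : ¬ ∃ v : Fin 2 → k, v ≠ 0 ∧
      ∀ g ∈ Γ, ∃ a : k, (g : Matrix (Fin 2) (Fin 2) k).mulVec v = a • v) :
    2 ≤ (cuspSet Γ).ncard := by
  haveI := classEqC_finite_onePoint (k := k)
  obtain ⟨g, hg, hne⟩ := exists_smul_ne_of_irr Γ hirr (∞ : OnePoint k)
  have h1 : (1 : ℕ) < (cuspSet Γ).ncard := by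
    rw [Set.one_lt_ncard_iff (Set.toFinite _)]
    exact ⟨g • ∞, ∞, smul_mem_cuspSet Γ hg (infty_mem_cuspSet Γ), infty_mem_cuspSet Γ, hne⟩
  exact h1

/-- Orbit-stabiliser for the orbit `cuspSet Γ` of `∞`. -/
theorem card_eq_ncard_cuspSet_mul_card_borel [Finite k] (Γ : Subgroup (GL (Fin 2) k)) :
    Nat.card Γ = (cuspSet Γ).ncard * Nat.card (borel Γ) := by
  classical
  haveI := classEqC_finite_onePoint (k := k)
  letI : Fintype Γ := Fintype.ofFinite Γ
  letI : Fintype (OnePoint k) := Fintype.ofFinite _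
  have h1 := classEq_orbit_stab (G := Γ) (∞ : OnePoint k)
  rw [← classEq_card_orbit, classEqC_card_stabilizer] at h1
  have h2 : Nat.card (MulAction.orbit Γ (∞ : OnePoint k)) = (cuspSet Γ).ncard := by
    rw [Nat.card_coe_set_eq, classEqC_orbit_eq]
  rw [h2] at h1
  exact h1.symm

theorem card_scal_dvd_card_stab [Finite k] (Γ : Subgroup (GL (Fin 2) k)) (x : OnePoint k) :
    Nat.card (scal Γ) ∣ Nat.card (stab Γ x) := by
  refine Subgroup.card_dvd_of_le ?_
  intro g hg
  exact ⟨hg.1, MulAction.mem_stabilizer_iff.mpr (smul_eq_self_of_mem_center g hg.2 x)⟩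

theorem classEq_concrete [Finite k] (p : ℕ) [Fact p.Prime] [CharP k p] (hp2 : p ≠ 2)
    (Γ : Subgroup (GL (Fin 2) k))
    (hirr : ¬ ∃ v : Fin 2 → k, v ≠ 0 ∧
      ∀ g ∈ Γ, ∃ a : k, (g : Matrix (Fin 2) (Fin 2) k).mulVec v = a • v)
    (hsplit : ∀ g ∈ Γ, ∃ α β : k, (g : Matrix (Fin 2) (Fin 2) k).charpoly =
      (Polynomial.X - Polynomial.C α) * (Polynomial.X - Polynomial.C β))
    (hcusp : ∃ a : k, a ≠ 0 ∧ uMat a ∈ Γ) :
    (∃ y : OnePoint k, y ∉ cuspSet Γ ∧ Nat.card (stab Γ y) ≠ Nat.card (scal Γ)) ∧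
      ∀ y : OnePoint k, y ∉ cuspSet Γ → Nat.card (stab Γ y) ≠ Nat.card (scal Γ) →
        Nat.card Γ =
          Nat.card (stab Γ y) * (2 + (cuspSet Γ).ncard * (Nat.card (unipAdd Γ) - 2)) := by
  classical
  haveI := classEqC_finite_onePoint (k := k)
  have h2 : (2 : k) ≠ 0 := by
    intro h
    have h' : ((2 : ℕ) : k) = 0 := by exact_mod_cast h
    have hdvd := (CharP.cast_eq_zero_iff k p 2).mp h'
    have hp := (Fact.out : p.Prime)
    have := (Nat.prime_dvd_prime_iff_eq hp Nat.prime_two).mp hdvd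
    exact hp2 this
  have hZcard : Nat.card ((scal Γ).subgroupOf Γ) = Nat.card (scal Γ) :=
    classEqC_card_subgroupOf inf_le_left
  have hmemZ : ∀ g : Γ, g ∈ (scal Γ).subgroupOf Γ ↔
      (g : GL (Fin 2) k) ∈ Subgroup.center (GL (Fin 2) k) := by
    intro g
    rw [Subgroup.mem_subgroupOf]
    exact ⟨fun h => h.2, fun h => ⟨g.2, h⟩⟩
  have key := classEq_abstract (G := Γ) (X := OnePoint k) ((scal Γ).subgroupOf Γ)
    (fun g => (g : GL (Fin 2) k).IsParabolic) (cuspSet Γ) (Nat.card (unipAdd Γ))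
    (two_le_ncard_cuspSet Γ hirr)
    (le_trans (by norm_num) (three_le_card_unipAdd p hp2 Γ hcusp))
    (fun g hg x => smul_eq_self_of_mem_center (g : GL (Fin 2) k) ((hmemZ g).mp hg) x)
    (fun g _ hP => exists_unique_fixed_of_isParabolic h2 (g : GL (Fin 2) k) hP)
    (fun g hg hP => exists_two_fixed h2 (g : GL (Fin 2) k) (fun hc => hg ((hmemZ g).mpr hc)) hP
      (hsplit g g.2))
    (by
      rw [hZcard, ← ncard_parabolic p hp2 Γ hcusp]
      have himg : (Subtype.val : Γ → GL (Fin 2) k) ''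
          {g : Γ | g ∉ (scal Γ).subgroupOf Γ ∧ (g : GL (Fin 2) k).IsParabolic}
          = {g : GL (Fin 2) k | g ∈ Γ ∧ g.IsParabolic} := by
        ext g
        constructor
        · rintro ⟨g', hg', rfl⟩
          exact ⟨g'.2, hg'.2⟩
        · rintro ⟨hg, hP⟩
          exact ⟨⟨g, hg⟩, ⟨fun hZ => classEqC_not_mem_center g hP ((hmemZ ⟨g, hg⟩).mp hZ), hP⟩,
            rfl⟩
      rw [← himg, Set.ncard_image_of_injective _ Subtype.val_injective])
    (fun g x hx => smul_mem_cuspSet Γ g.2 hx)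
    (by
      rintro x ⟨g, hg, rfl⟩ y ⟨h, hh, rfl⟩
      refine ⟨⟨h * g⁻¹, Γ.mul_mem hh (Γ.inv_mem hg)⟩, ?_⟩
      show (h * g⁻¹) • g • (∞ : OnePoint k) = h • ∞
      rw [mul_smul, inv_smul_smul])
    (by
      refine ⟨∞, infty_mem_cuspSet Γ, ?_⟩
      rw [hZcard, classEqC_card_stabilizer, ← card_unipSub, ← Nat.card_prod]
      have hinj := Subgroup.mul_injective_of_disjoint (classEqC_disjoint Γ)
      refine Nat.card_le_card_of_injective
        (fun zu : scal Γ × unipSub Γ =>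
          (⟨(zu.1 : GL (Fin 2) k) * (zu.2 : GL (Fin 2) k), ?_⟩ : stab Γ (∞ : OnePoint k))) ?_
      · refine ⟨Γ.mul_mem zu.1.2.1 zu.2.2.1, ?_⟩
        show (zu.1 : GL (Fin 2) k) * (zu.2 : GL (Fin 2) k)
          ∈ MulAction.stabilizer (GL (Fin 2) k) (∞ : OnePoint k)
        rw [MulAction.mem_stabilizer_iff, mul_smul]
        obtain ⟨a, ha⟩ := zu.2.2.2
        rw [ha, uMat_smul_infty]
        exact smul_eq_self_of_mem_center _ zu.1.2.2 _
      · intro zu zu' h
        exact hinj (congrArg Subtype.val h))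
  simp only [hZcard, classEqC_card_stabilizer] at key
  exact key

end Fermat.Agent.S56.GT
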