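/-
S56 / W5 / GT sub-leaf S-C1' (counting in the Borel subgroup of `Γ ≤ GL₂(k)`).  Statement FIXED.
PROVED (helper69) from the statements of `GT/Fixed.lean`, `GT/Cusps.lean`, `GT/ClassEqC.lean` and
`borelCount_abstract`.

Instantiate `borelCount_abstract` (`GT/BorelCount.lean`) with `B = ↥(borel Γ)`,
`Y = ↥(cuspSet Γ ∖ {∞})` (a `SubMulAction`: `borel Γ` fixes `∞` and preserves `cuspSet Γ`; nonempty
by `two_le_ncard_cuspSet`), `Z = (scal Γ).subgroupOf (borel Γ)` (central),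
`U = (unipSub Γ).subgroupOf (borel Γ)` (normal: `isUnip_conj`, `eq_uMat_of_isUnip`),
`d = #borel Γ / (#scal Γ * #unipAdd Γ)` (the division is exact: `(z, u) ↦ z u` is an injective
homomorphism `scal Γ × unipSub Γ → borel Γ`).
* `hZU`: a scalar `uMat a` has `a = 0`;  `hfree`: `z * uMat a` moves `x ∈ k` to `x + a`;
* `hone`: `g ∈ borel Γ`, `g ∉ Z U`: `g` is not scalar and not parabolic (`par_borel_mem`), so it
  has exactly two fixed points `∞, y` (`exists_two_fixed`).  KEY: `y ∈ cuspSet Γ`.  If not: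
  no parabolic element of `Γ` fixes `y` (`par_fixed_mem_cuspSet`); for `h ∈ stab Γ y` the
  commutator `g h g⁻¹ h⁻¹` is unipotent (`isUnip_commutator`) and fixes `y`, so it is `1`
  (`isParabolic_of_isUnip`); so `g (h ∞) = h ∞`, `h ∞ ∈ {∞, y}`, `h ∞ = ∞` (`h y = y`, `y ≠ ∞`):
  `stab Γ y ≤ borel Γ`; `stab Γ y ∩ unipSub Γ = 1`, so `#stab Γ y * q ≤ #borel Γ`
  (`(h, u) ↦ h u` injective); `stab Γ y ∋ g` is not `scal Γ`, so by `hE1`
  `ω #borel Γ = #Γ = #stab Γ y (2 + ω (q - 2)) ≤ #borel Γ (2 + ω (q - 2)) / q`, i.e.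
  `ω q ≤ 2 + ω (q - 2)`: false for `ω ≥ 2`.
-/
import Fermat.Agent.S56.TW.GT.ClassEqC
import Fermat.Agent.S56.TW.GT.BorelCount

set_option autoImplicit false
set_option linter.unusedSectionVars false
set_option linter.style.haveILetI false

namespace Fermat.Agent.S56.GT

open Matrix OnePoint

variable {k : Type} [Field k] [DecidableEq k]

/-! ### auxiliary statements (helper69) -/

theorem borelC_two_ne_zero (p : ℕ) [Fact p.Prime] [CharP k p] (hp2 : p ≠ 2) : (2 : k) ≠ 0 := by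
  intro h
  have h' : ((2 : ℕ) : k) = 0 := by exact_mod_cast h
  have hdvd := (CharP.cast_eq_zero_iff k p 2).mp h'
  have hp := (Fact.out : p.Prime)
  exact hp2 ((Nat.prime_dvd_prime_iff_eq hp Nat.prime_two).mp hdvd)

theorem borelC_scal_le_stab (Γ : Subgroup (GL (Fin 2) k)) (x : OnePoint k) :
    scal Γ ≤ stab Γ x := fun g hg =>
  ⟨hg.1, MulAction.mem_stabilizer_iff.mpr (smul_eq_self_of_mem_center g hg.2 x)⟩

theorem borelC_unipSub_le_borel (Γ : Subgroup (GL (Fin 2) k)) : unipSub Γ ≤ borel Γ := by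
  rintro g ⟨hg, a, rfl⟩
  exact ⟨hg, MulAction.mem_stabilizer_iff.mpr (uMat_smul_infty a)⟩

/-- a `uMat a` fixing a finite point is trivial -/
theorem borelC_uMat_fix {a : k} {y : OnePoint k} (hy : y ≠ ∞) (h : uMat a • y = y) : a = 0 := by
  obtain ⟨x, rfl⟩ := OnePoint.ne_infty_iff_exists.mp hy
  rw [uMat_smul_coe] at h
  have h' : x + a = x := OnePoint.coe_injective h
  simpa using h'

theorem borelC_disjoint_stab (Γ : Subgroup (GL (Fin 2) k)) {y : OnePoint k} (hy : y ≠ ∞) :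
    Disjoint (stab Γ y) (unipSub Γ) := by
  rw [Subgroup.disjoint_def]
  rintro g hs ⟨-, a, rfl⟩
  have h := MulAction.mem_stabilizer_iff.mp hs.2
  rw [borelC_uMat_fix hy h, uMat_zero]

/-- two subgroups of `H` meeting trivially: `#A * #A' ≤ #H` -/
theorem borelC_card_mul_le {G : Type*} [Group G] {A A' H : Subgroup G} [Finite H]
    (hA : A ≤ H) (hA' : A' ≤ H) (hd : Disjoint A A') :
    Nat.card A * Nat.card A' ≤ Nat.card H := by
  rw [← Nat.card_prod]
  have hinj := Subgroup.mul_injective_of_disjoint hd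
  refine Nat.card_le_card_of_injective
    (fun zu : A × A' => (⟨(zu.1 : G) * (zu.2 : G), H.mul_mem (hA zu.1.2) (hA' zu.2.2)⟩ : H)) ?_
  intro zu zu' h
  exact hinj (congrArg Subtype.val h)

/-- **KEY**: the second fixed point of a non-scalar element of the Borel subgroup with two fixed
points is a cusp. -/
theorem borelC_key [Finite k] (p : ℕ) [Fact p.Prime] [CharP k p] (hp2 : p ≠ 2)
    (Γ : Subgroup (GL (Fin 2) k))
    (hirr : ¬ ∃ v : Fin 2 → k, v ≠ 0 ∧
      ∀ g ∈ Γ, ∃ a : k, (g : Matrix (Fin 2) (Fin 2) k).mulVec v = a • v)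
    (hcusp : ∃ a : k, a ≠ 0 ∧ uMat a ∈ Γ)
    (hE1 : ∀ y : OnePoint k, y ∉ cuspSet Γ → Nat.card (stab Γ y) ≠ Nat.card (scal Γ) →
      Nat.card Γ =
        Nat.card (stab Γ y) * (2 + (cuspSet Γ).ncard * (Nat.card (unipAdd Γ) - 2)))
    (g : GL (Fin 2) k) (hg : g ∈ Γ) (hgc : g ∉ Subgroup.center (GL (Fin 2) k))
    (hginf : g • (∞ : OnePoint k) = ∞)
    (y : OnePoint k) (hy : y ≠ ∞) (hgy : g • y = y)
    (hfix : ∀ w : OnePoint k, g • w = w → w = ∞ ∨ w = y) : y ∈ cuspSet Γ := by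
  by_contra hyc
  -- the stabiliser of `y` lies in the Borel subgroup
  have hle : stab Γ y ≤ borel Γ := by
    intro h hh
    have hhΓ : h ∈ Γ := hh.1
    have hhy : h • y = y := MulAction.mem_stabilizer_iff.mp hh.2
    refine ⟨hhΓ, MulAction.mem_stabilizer_iff.mpr ?_⟩
    have hcΓ : g * h * g⁻¹ * h⁻¹ ∈ Γ :=
      Γ.mul_mem (Γ.mul_mem (Γ.mul_mem hg hhΓ) (Γ.inv_mem hg)) (Γ.inv_mem hhΓ)
    have hcU := isUnip_commutator g h y hgy hhy
    have hcy : (g * h * g⁻¹ * h⁻¹) • y = y := by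
      have e1 : h⁻¹ • y = y := by
        rw [inv_smul_eq_iff]
        exact hhy.symm
      have e2 : g⁻¹ • y = y := by
        rw [inv_smul_eq_iff]
        exact hgy.symm
      rw [mul_smul, mul_smul, mul_smul, e1, e2, hhy, hgy]
    have hc1 : g * h * g⁻¹ * h⁻¹ = 1 := by
      by_contra hne
      exact hyc (par_fixed_mem_cuspSet p hp2 Γ hcusp _ hcΓ
        (isParabolic_of_isUnip _ hcU hne) y hcy)
    have hcomm : g * h = h * g := by
      have := hc1
      rw [mul_inv_eq_one, mul_inv_eq_iff_eq_mul] at this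
      exact this
    have h1 : g • (h • (∞ : OnePoint k)) = h • ∞ := by
      rw [← mul_smul, hcomm, mul_smul, hginf]
    rcases hfix _ h1 with h2 | h2
    · exact h2
    · exfalso
      apply hy
      have h3 : h • (∞ : OnePoint k) = h • y := by rw [h2, hhy]
      exact (MulAction.injective h h3).symm
  have hd := borelC_disjoint_stab Γ hy
  have hmul := borelC_card_mul_le hle (borelC_unipSub_le_borel Γ) hd
  rw [card_unipSub] at hmul
  have hne : Nat.card (stab Γ y) ≠ Nat.card (scal Γ) := by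
    intro heq
    have h1 := Subgroup.eq_of_le_of_card_ge (borelC_scal_le_stab Γ y) heq.le
    have h2 : g ∈ stab Γ y := ⟨hg, MulAction.mem_stabilizer_iff.mpr hgy⟩
    rw [← h1] at h2
    exact hgc h2.2
  have hE := hE1 y hyc hne
  have hΓ := card_eq_ncard_cuspSet_mul_card_borel Γ
  have hω := two_le_ncard_cuspSet Γ hirr
  have hq := three_le_card_unipAdd p hp2 Γ hcusp
  have hspos : 0 < Nat.card (stab Γ y) := Nat.card_pos
  obtain ⟨q', hq'⟩ : ∃ q', Nat.card (unipAdd Γ) = q' + 2 := ⟨Nat.card (unipAdd Γ) - 2, by omega⟩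
  rw [hq'] at hE hmul
  have hq2 : q' + 2 - 2 = q' := rfl
  rw [hq2] at hE
  have h3 : Nat.card (stab Γ y) * ((cuspSet Γ).ncard * (q' + 2))
      ≤ Nat.card (stab Γ y) * (2 + (cuspSet Γ).ncard * q') := by
    calc Nat.card (stab Γ y) * ((cuspSet Γ).ncard * (q' + 2))
        = (cuspSet Γ).ncard * (Nat.card (stab Γ y) * (q' + 2)) := by ring
      _ ≤ (cuspSet Γ).ncard * Nat.card (borel Γ) := Nat.mul_le_mul_left _ hmul
      _ = Nat.card (stab Γ y) * (2 + (cuspSet Γ).ncard * q') := by rw [← hΓ, hE]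
  have h4 := Nat.le_of_mul_le_mul_left h3 hspos
  have h5 : (cuspSet Γ).ncard * (q' + 2) = (cuspSet Γ).ncard * q' + 2 * (cuspSet Γ).ncard := by
    ring
  omega

/-- the cusps other than `∞`, with the action of the Borel subgroup -/
def borelC_cusps (Γ : Subgroup (GL (Fin 2) k)) : SubMulAction (borel Γ) (OnePoint k) where
  carrier := cuspSet Γ \ {∞}
  smul_mem' := by
    rintro b x ⟨hx, hx'⟩
    refine ⟨smul_mem_cuspSet Γ b.2.1 hx, ?_⟩
    intro h
    apply hx'
    have hb : (b : GL (Fin 2) k) • (∞ : OnePoint k) = ∞ := MulAction.mem_stabilizer_iff.mp b.2.2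
    have h' : (b : GL (Fin 2) k) • x = (b : GL (Fin 2) k) • ∞ := by
      rw [hb]
      exact h
    exact MulAction.injective _ h'

theorem borelC_mem_cusps (Γ : Subgroup (GL (Fin 2) k)) (x : OnePoint k) :
    x ∈ borelC_cusps Γ ↔ x ∈ cuspSet Γ ∧ x ≠ ∞ := Iff.rfl

theorem borelC_normal_Z (Γ : Subgroup (GL (Fin 2) k)) :
    ((scal Γ).subgroupOf (borel Γ)).Normal := by
  constructor
  intro z hz b
  rw [Subgroup.mem_subgroupOf] at hz ⊢
  have hc : (z : GL (Fin 2) k) ∈ Subgroup.center (GL (Fin 2) k) := hz.2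
  have hcoe : ((b * z * b⁻¹ : borel Γ) : GL (Fin 2) k)
      = (b : GL (Fin 2) k) * z * (b : GL (Fin 2) k)⁻¹ := rfl
  rw [Subgroup.mem_center_iff] at hc
  rw [hcoe, hc (b : GL (Fin 2) k), mul_inv_cancel_right]
  exact hz

theorem borelC_normal_U (Γ : Subgroup (GL (Fin 2) k)) :
    ((unipSub Γ).subgroupOf (borel Γ)).Normal := by
  constructor
  intro u hu b
  rw [Subgroup.mem_subgroupOf] at hu ⊢
  obtain ⟨huΓ, a, ha⟩ := hu
  have hb : (b : GL (Fin 2) k) • (∞ : OnePoint k) = ∞ := MulAction.mem_stabilizer_iff.mp b.2.2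
  have hb' : (b : GL (Fin 2) k)⁻¹ • (∞ : OnePoint k) = ∞ := by
    rw [inv_smul_eq_iff]
    exact hb.symm
  have hcoe : ((b * u * b⁻¹ : borel Γ) : GL (Fin 2) k)
      = (b : GL (Fin 2) k) * u * (b : GL (Fin 2) k)⁻¹ := rfl
  rw [hcoe]
  refine ⟨Γ.mul_mem (Γ.mul_mem b.2.1 huΓ) (Γ.inv_mem b.2.1), ?_⟩
  apply eq_uMat_of_isUnip
  · rw [ha]
    exact isUnip_conj _ _ (isUnip_uMat a)
  · rw [mul_smul, mul_smul, hb', ha, uMat_smul_infty, hb]

theorem borelC_inf (Γ : Subgroup (GL (Fin 2) k)) :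
    (scal Γ).subgroupOf (borel Γ) ⊓ (unipSub Γ).subgroupOf (borel Γ) = ⊥ := by
  rw [eq_bot_iff]
  intro g hg
  rw [Subgroup.mem_inf, Subgroup.mem_subgroupOf, Subgroup.mem_subgroupOf] at hg
  rw [Subgroup.mem_bot]
  exact Subtype.ext (Subgroup.disjoint_def.mp (classEqC_disjoint Γ) hg.1 hg.2)

/-- `#Z * #U` divides `#B` -/
theorem borelC_dvd [Finite k] (Γ : Subgroup (GL (Fin 2) k)) :
    Nat.card ((scal Γ).subgroupOf (borel Γ)) * Nat.card ((unipSub Γ).subgroupOf (borel Γ))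
      ∣ Nat.card (borel Γ) := by
  have comm : ∀ (z : (scal Γ).subgroupOf (borel Γ)) (u : (unipSub Γ).subgroupOf (borel Γ)),
      Commute (((scal Γ).subgroupOf (borel Γ)).subtype z)
        (((unipSub Γ).subgroupOf (borel Γ)).subtype u) := by
    intro z u
    have hc : ((z : borel Γ) : GL (Fin 2) k) ∈ Subgroup.center (GL (Fin 2) k) :=
      (Subgroup.mem_subgroupOf.mp z.2).2
    rw [Subgroup.mem_center_iff] at hc
    show (z : borel Γ) * (u : borel Γ) = (u : borel Γ) * (z : borel Γ)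
    apply Subtype.ext
    exact (hc _).symm
  have hinj : Function.Injective (MonoidHom.noncommCoprod _ _ comm) := by
    intro a b hab
    have h := Subgroup.mul_injective_of_disjoint (disjoint_iff.mpr (borelC_inf Γ))
    apply h
    simpa [MonoidHom.noncommCoprod_apply] using hab
  have := Subgroup.card_dvd_of_injective _ hinj
  rwa [Nat.card_prod] at this

theorem borelCount_concrete [Finite k] (p : ℕ) [Fact p.Prime] [CharP k p] (hp2 : p ≠ 2)
    (Γ : Subgroup (GL (Fin 2) k))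
    (hirr : ¬ ∃ v : Fin 2 → k, v ≠ 0 ∧
      ∀ g ∈ Γ, ∃ a : k, (g : Matrix (Fin 2) (Fin 2) k).mulVec v = a • v)
    (hsplit : ∀ g ∈ Γ, ∃ α β : k, (g : Matrix (Fin 2) (Fin 2) k).charpoly =
      (Polynomial.X - Polynomial.C α) * (Polynomial.X - Polynomial.C β))
    (hcusp : ∃ a : k, a ≠ 0 ∧ uMat a ∈ Γ)
    (hE1 : ∀ y : OnePoint k, y ∉ cuspSet Γ → Nat.card (stab Γ y) ≠ Nat.card (scal Γ) →
      Nat.card Γ =
        Nat.card (stab Γ y) * (2 + (cuspSet Γ).ncard * (Nat.card (unipAdd Γ) - 2))) :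
    ∃ d m : ℕ, 1 ≤ d ∧
      Nat.card (borel Γ) = Nat.card (scal Γ) * Nat.card (unipAdd Γ) * d ∧
      d ∣ Nat.card (unipAdd Γ) - 1 ∧
      (cuspSet Γ).ncard = 1 + Nat.card (unipAdd Γ) + m * (Nat.card (unipAdd Γ) * d) := by
  classical
  haveI := classEqC_finite_onePoint (k := k)
  have h2 : (2 : k) ≠ 0 := borelC_two_ne_zero p hp2
  haveI hZn := borelC_normal_Z Γ
  haveI hUn := borelC_normal_U Γ
  have hscal_le : scal Γ ≤ borel Γ := borelC_scal_le_stab Γ ∞
  have hunip_le : unipSub Γ ≤ borel Γ := borelC_unipSub_le_borel Γ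
  have hZcard : Nat.card ((scal Γ).subgroupOf (borel Γ)) = Nat.card (scal Γ) :=
    classEqC_card_subgroupOf hscal_le
  have hUcard : Nat.card ((unipSub Γ).subgroupOf (borel Γ)) = Nat.card (unipAdd Γ) := by
    rw [classEqC_card_subgroupOf hunip_le, card_unipSub]
  -- `Y` is nonempty
  haveI hYne : Nonempty (borelC_cusps Γ) := by
    obtain ⟨g, hg, hne⟩ := exists_smul_ne_of_irr Γ hirr (∞ : OnePoint k)
    exact ⟨⟨g • ∞, smul_mem_cuspSet Γ hg (infty_mem_cuspSet Γ), hne⟩⟩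
  -- the cardinality of `Y`
  have hYcard : Nat.card (borelC_cusps Γ) + 1 = (cuspSet Γ).ncard := by
    have h1 : Nat.card (borelC_cusps Γ) = (cuspSet Γ \ {∞}).ncard := Nat.card_coe_set_eq _
    rw [h1]
    exact Set.ncard_sdiff_singleton_add_one (infty_mem_cuspSet Γ) (Set.toFinite _)
  -- `d`
  have hdvd := borelC_dvd Γ
  obtain ⟨d, hd⟩ := hdvd
  have hdpos : 1 ≤ d := by
    rcases Nat.eq_zero_or_pos d with h0 | h0
    · rw [h0, mul_zero] at hd
      have : 0 < Nat.card (borel Γ) := Nat.card_pos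
      omega
    · exact h0
  -- the abstract count
  obtain ⟨hd1, m, hm⟩ := borelCount_abstract (B := borel Γ) (Y := borelC_cusps Γ)
    ((scal Γ).subgroupOf (borel Γ)) ((unipSub Γ).subgroupOf (borel Γ)) d hd (borelC_inf Γ)
    (by
      intro g hg y
      apply Subtype.ext
      exact smul_eq_self_of_mem_center (g : GL (Fin 2) k) (Subgroup.mem_subgroupOf.mp hg).2 y.1)
    (by
      intro g hg hgZ y hgy
      have hmem : g ∈ ((↑((scal Γ).subgroupOf (borel Γ) ⊔ (unipSub Γ).subgroupOf (borel Γ)))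
          : Set (borel Γ)) := hg
      rw [Subgroup.mul_normal] at hmem
      obtain ⟨z, hz, u, hu, rfl⟩ := Set.mem_mul.mp hmem
      obtain ⟨-, a, ha⟩ := Subgroup.mem_subgroupOf.mp hu
      have hzc : ((z : borel Γ) : GL (Fin 2) k) ∈ Subgroup.center (GL (Fin 2) k) :=
        (Subgroup.mem_subgroupOf.mp hz).2
      have hy' : ((z * u : borel Γ) : GL (Fin 2) k) • (y : OnePoint k) = y :=
        congrArg Subtype.val hgy
      have hcoe : ((z * u : borel Γ) : GL (Fin 2) k)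
          = (z : GL (Fin 2) k) * (u : GL (Fin 2) k) := rfl
      rw [hcoe, mul_smul, smul_eq_self_of_mem_center _ hzc, ha] at hy'
      have ha0 := borelC_uMat_fix y.2.2 hy'
      apply hgZ
      have hu1 : u = 1 := by
        apply Subtype.ext
        rw [ha, ha0, uMat_zero]
        rfl
      rw [hu1, mul_one]
      exact hz)
    (by
      intro g hg
      have hgΓ : (g : GL (Fin 2) k) ∈ Γ := g.2.1
      have hginf : (g : GL (Fin 2) k) • (∞ : OnePoint k) = ∞ :=
        MulAction.mem_stabilizer_iff.mp g.2.2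
      have hgc : (g : GL (Fin 2) k) ∉ Subgroup.center (GL (Fin 2) k) := by
        intro hc
        apply hg
        exact Subgroup.mem_sup_left (Subgroup.mem_subgroupOf.mpr ⟨hgΓ, hc⟩)
      have hnp : ¬ (g : GL (Fin 2) k).IsParabolic := by
        intro hpar
        apply hg
        have h1 := par_borel_mem p hp2 Γ (g : GL (Fin 2) k) hgΓ hpar hginf
        rw [← Subgroup.subgroupOf_sup hscal_le hunip_le, Subgroup.mem_subgroupOf]
        exact h1
      obtain ⟨x, y, hxy, hfix⟩ := exists_two_fixed h2 (g : GL (Fin 2) k) hgc hnp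
        (hsplit _ hgΓ)
      -- normalise: the fixed points are `∞` and `y₀ ≠ ∞`
      obtain ⟨y₀, hy₀, hfix'⟩ : ∃ y₀ : OnePoint k, y₀ ≠ ∞ ∧
          ∀ w : OnePoint k, (g : GL (Fin 2) k) • w = w ↔ w = ∞ ∨ w = y₀ := by
        rcases (hfix ∞).mp hginf with h | h
        · refine ⟨y, fun hy => hxy (h.symm.trans hy.symm), fun w => ?_⟩
          rw [hfix w, h]
        · refine ⟨x, fun hx => hxy (hx.trans h), fun w => ?_⟩
          rw [hfix w, h, or_comm]
      have hy₀g : (g : GL (Fin 2) k) • y₀ = y₀ := (hfix' y₀).mpr (Or.inr rfl)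
      have hy₀c : y₀ ∈ cuspSet Γ := borelC_key p hp2 Γ hirr hcusp hE1 _ hgΓ hgc hginf y₀ hy₀ hy₀g
        (fun w hw => (hfix' w).mp hw)
      refine ⟨⟨y₀, hy₀c, hy₀⟩, fun y' => ?_⟩
      constructor
      · intro h
        have h' : (g : GL (Fin 2) k) • (y' : OnePoint k) = y' := congrArg Subtype.val h
        rcases (hfix' _).mp h' with h3 | h3
        · exact absurd h3 y'.2.2
        · exact Subtype.ext h3
      · rintro rfl
        exact Subtype.ext hy₀g)
  rw [hZcard, hUcard] at hd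
  rw [hUcard] at hd1 hm
  exact ⟨d, m, hdpos, hd, hd1, by omega⟩

end Fermat.Agent.S56.GT
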