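/-
S56 / W5 / GT sub-leaf S-C (`N = 1` or `q = 3`).  Owner: helper59.  Sorry-free given
`GT/ClassEqC.lean` (`classEq_concrete`), `GT/BorelCountC.lean` (`borelCount_concrete`) and
`arith_endgame`.

`ω = #cuspSet Γ`, `q = #unipAdd Γ`, `z = #scal Γ`, `#borel Γ = z q d`, `ω = 1 + q + m q d`
(`N = 1 + m d`), `#Γ = ω #borel Γ`; a point `y₂` outside the cusps with `#Γ_{y₂} = z d₂ ≠ z` has
`#Γ = #Γ_{y₂} (2 + ω (q - 2))`, and `2 + ω (q - 2) = q (1 + N (q - 2))`; so
`(1 + N q) d = d₂ (1 + N (q - 2))`, and `arith_endgame` gives `N = 1` or `q = 3`.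
If `N = 1` then `ω = q + 1` and the `q + 1` cusps `∞`, `a ∈ A` are all the cusps.
-/
import Fermat.Agent.S56.TW.GT.BorelCountC

set_option autoImplicit false

namespace Fermat.Agent.S56.GT

open Matrix OnePoint

variable {k : Type} [Field k] [DecidableEq k]

theorem torus_finite_onePoint [Finite k] : Finite (OnePoint k) :=
  inferInstanceAs (Finite (Option k))

/-- The points `∞` and `a ∈ A`. -/
def torusSet (Γ : Subgroup (GL (Fin 2) k)) : Set (OnePoint k) :=
  insert (∞ : OnePoint k) ((fun a : k => (a : OnePoint k)) '' (unipAdd Γ : Set k))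

theorem torusSet_subset (Γ : Subgroup (GL (Fin 2) k))
    (h0 : ((0 : k) : OnePoint k) ∈ cuspSet Γ) : torusSet Γ ⊆ cuspSet Γ := by
  rintro x (rfl | ⟨a, ha, rfl⟩)
  · exact infty_mem_cuspSet Γ
  · have h := smul_mem_cuspSet Γ (mem_unipAdd.mp ha) h0
    rwa [uMat_smul_coe, zero_add] at h

theorem ncard_torusSet [Finite k] (Γ : Subgroup (GL (Fin 2) k)) :
    (torusSet Γ).ncard = Nat.card (unipAdd Γ) + 1 := by
  haveI := torus_finite_onePoint (k := k)
  unfold torusSet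
  rw [Set.ncard_insert_of_notMem, Set.ncard_image_of_injective _ OnePoint.coe_injective]
  · rfl
  · rintro ⟨a, -, ha⟩
    exact OnePoint.coe_ne_infty a ha

theorem isNOne_or_card_eq_three [Finite k] (p : ℕ) [Fact p.Prime] [CharP k p] (hp2 : p ≠ 2)
    (Γ : Subgroup (GL (Fin 2) k))
    (hirr : ¬ ∃ v : Fin 2 → k, v ≠ 0 ∧
      ∀ g ∈ Γ, ∃ a : k, (g : Matrix (Fin 2) (Fin 2) k).mulVec v = a • v)
    (hsplit : ∀ g ∈ Γ, ∃ α β : k, (g : Matrix (Fin 2) (Fin 2) k).charpoly =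
      (Polynomial.X - Polynomial.C α) * (Polynomial.X - Polynomial.C β))
    (hcusp : ∃ a : k, a ≠ 0 ∧ uMat a ∈ Γ)
    (h0 : ((0 : k) : OnePoint k) ∈ cuspSet Γ) :
    IsNOne Γ ∨ Nat.card (unipAdd Γ) = 3 := by
  haveI := torus_finite_onePoint (k := k)
  obtain ⟨⟨y₂, hy₂, hy₂z⟩, hE1⟩ := classEq_concrete p hp2 Γ hirr hsplit hcusp
  obtain ⟨d, m, hd, hB, hdq, hω⟩ := borelCount_concrete p hp2 Γ hirr hsplit hcusp hE1
  have hq := three_le_card_unipAdd p hp2 Γ hcusp
  have hΓ := card_eq_ncard_cuspSet_mul_card_borel Γ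
  have hE := hE1 y₂ hy₂ hy₂z
  obtain ⟨d₂, hd₂⟩ := card_scal_dvd_card_stab Γ y₂
  set q := Nat.card (unipAdd Γ) with hqdef
  set z := Nat.card (scal Γ) with hzdef
  set ω := (cuspSet Γ).ncard with hωdef
  have hz : 0 < z := Nat.card_pos
  -- `N = 1 + m d`
  have hωN : ω = 1 + (1 + m * d) * q := by rw [hω]; ring
  have hkey : 2 + ω * (q - 2) = q * (1 + (1 + m * d) * (q - 2)) := by
    obtain ⟨r, hr⟩ : ∃ r, q = r + 2 := ⟨q - 2, by omega⟩
    rw [hωN, hr]
    simp only [Nat.add_sub_cancel]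
    ring
  have h3 : (1 + (1 + m * d) * q) * d = d₂ * (1 + (1 + m * d) * (q - 2)) := by
    have h4 : z * q * ((1 + (1 + m * d) * q) * d) =
        z * q * (d₂ * (1 + (1 + m * d) * (q - 2))) := by
      calc z * q * ((1 + (1 + m * d) * q) * d) = ω * (z * q * d) := by rw [hωN]; ring
        _ = Nat.card Γ := by rw [hΓ, hB]
        _ = z * d₂ * (2 + ω * (q - 2)) := by rw [hE, hd₂]
        _ = z * q * (d₂ * (1 + (1 + m * d) * (q - 2))) := by rw [hkey]; ring
    exact Nat.eq_of_mul_eq_mul_left (Nat.mul_pos hz (by omega)) h4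
  have hdN : d ∣ (1 + m * d) - 1 := by
    rw [Nat.add_sub_cancel_left]
    exact Dvd.intro_left m rfl
  rcases arith_endgame (1 + m * d) q d d₂ hq (by omega) hd hdq hdN h3 with hN | hq3
  · left
    have hmd : m * d = 0 := by omega
    have hcard : ω = q + 1 := by rw [hωN, hmd]; ring
    have hsub := torusSet_subset Γ h0
    have heq : torusSet Γ = cuspSet Γ :=
      Set.eq_of_subset_of_ncard_le hsub (by rw [ncard_torusSet, ← hωdef, hcard]) (Set.toFinite _)
    intro x hx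
    rw [← heq] at hx
    rcases hx with rfl | ⟨a, ha, rfl⟩
    · exact Or.inl rfl
    · exact Or.inr ⟨a, ha, rfl⟩
  · exact Or.inr hq3

end Fermat.Agent.S56.GT
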