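/-
S56 / W5 / GT leaf G4 (structure theorem): assembly.  Owner: helper59.
Sub-leaves: `GT/Fixed.lean`, `GT/Cusps.lean`, `GT/ClassEq.lean`, `GT/BorelCount.lean`,
`GT/Torus.lean`, `GT/Hua.lean`.

`Γ ≤ GL₂(k)` irreducible over `k`, all eigenvalues in `k`, `p ∣ #Γ`.  `X = ℙ¹(k)`.
* every non-scalar element of `Γ` fixes exactly 1 (parabolic) or 2 (semisimple) points of `X`;
* `Ω` = fixed points of the parabolic elements; for `x ∈ Ω` the unipotent elements of `Γ` fixing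
  `x` form a Sylow `p`-subgroup `U_x` of order `q`; `Γ` is transitive on `Ω`, `#Ω = 1 + N q`;
* class equation: `∑_{x ∉ Ω} (#Γ_x - z) = z (g - 2 - #Ω (q - 2))` (`z = #scalars`, `g = #Γ / z`),
  so the points outside `Ω` with stabiliser `≠ Z` form ONE orbit `O₂`, `#O₂ = 2 + #Ω (q - 2)`;
* torus: the semisimple elements of `Γ_∞` fix a second point of `Ω`; `d ∣ q - 1`, `d ∣ N - 1`,
  `1 + N (q - 2) ∣ 2 d`; hence `N = 1` or `q = 3`;
* `N = 1`: `A' ∖ 0 = (A ∖ 0)⁻¹`, Hua's identity: `A` is a subfield, `dMat t = w t * (w 1)⁻¹`,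
  `w t = uMat t * lMat (-1/t) * uMat t`.
-/
import Fermat.Agent.S56.TW.GT.Conj
import Fermat.Agent.S56.TW.GT.Torus
import Fermat.Agent.S56.TW.GT.Hua

set_option autoImplicit false

namespace Fermat.Agent.S56.GT

open Matrix OnePoint

variable {k : Type} [Field k]

theorem conjSub_conjSub (c₁ c₂ : GL (Fin 2) k) (Γ : Subgroup (GL (Fin 2) k)) :
    conjSub c₂ (conjSub c₁ Γ) = conjSub (c₂ * c₁) Γ := by
  ext g
  rw [mem_conjSub, mem_conjSub, mem_conjSub]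
  have : c₁⁻¹ * (c₂⁻¹ * g * c₂) * c₁ = (c₂ * c₁)⁻¹ * g * (c₂ * c₁) := by group
  rw [this]

/-- `[s, 0; 0, 1]`. -/
def sMat (s : kˣ) : GL (Fin 2) k :=
  ⟨!![(s : k), 0; 0, 1], !![((s⁻¹ : kˣ) : k), 0; 0, 1],
    by simp [Matrix.one_fin_two], by simp [Matrix.one_fin_two]⟩

theorem sMat_conj_uMat (s : kˣ) (a : k) : sMat s * uMat a * (sMat s)⁻¹ = uMat ((s : k) * a) := by
  apply Units.ext
  simp only [Units.val_mul]
  show (!![(s : k), 0; 0, 1] : Matrix (Fin 2) (Fin 2) k) * !![1, a; 0, 1] *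
    !![((s⁻¹ : kˣ) : k), 0; 0, 1] = !![1, (s : k) * a; 0, 1]
  ext i j
  fin_cases i <;> fin_cases j <;> simp [Matrix.mul_apply, Fin.sum_univ_two]

theorem sMat_smul_infty [DecidableEq k] (s : kˣ) : sMat s • (∞ : OnePoint k) = ∞ := by
  rw [OnePoint.smul_infty_eq_self_iff]
  rfl

theorem sMat_smul_zero [DecidableEq k] (s : kˣ) :
    sMat s • ((0 : k) : OnePoint k) = ((0 : k) : OnePoint k) := by
  rw [OnePoint.smul_some_eq_ite]
  have h10 : (sMat s : GL (Fin 2) k) 1 0 = 0 := rfl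
  have h11 : (sMat s : GL (Fin 2) k) 1 1 = 1 := rfl
  have h01 : (sMat s : GL (Fin 2) k) 0 1 = 0 := rfl
  simp [h10, h11, h01]

/-- Conjugation by an element fixing `∞` transports the cusps. -/
theorem smul_mem_cuspSet_conjSub [DecidableEq k] (c : GL (Fin 2) k)
    (hc : c • (∞ : OnePoint k) = ∞) (Γ : Subgroup (GL (Fin 2) k)) {x : OnePoint k}
    (hx : x ∈ cuspSet Γ) : c • x ∈ cuspSet (conjSub c Γ) := by
  obtain ⟨g, hg, rfl⟩ := hx
  refine ⟨c * g * c⁻¹, conj_mem_conjSub c hg, ?_⟩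
  have hc' : c⁻¹ • (∞ : OnePoint k) = ∞ := by
    rw [inv_smul_eq_iff, hc]
  rw [mul_smul, mul_smul, hc']

theorem exists_borelData [Finite k] (p : ℕ) [Fact p.Prime] [CharP k p] (hp2 : p ≠ 2)
    (Γ : Subgroup (GL (Fin 2) k))
    (hirr : ¬ ∃ v : Fin 2 → k, v ≠ 0 ∧
      ∀ g ∈ Γ, ∃ a : k, (g : Matrix (Fin 2) (Fin 2) k).mulVec v = a • v)
    (hsplit : ∀ g ∈ Γ, ∃ α β : k, (g : Matrix (Fin 2) (Fin 2) k).charpoly =
      (Polynomial.X - Polynomial.C α) * (Polynomial.X - Polynomial.C β))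
    (hp : p ∣ Nat.card Γ) :
    ∃ (c : GL (Fin 2) k) (A : AddSubgroup k), BorelData p (conjSub c Γ) A := by
  classical
  -- step 1: `∞` is a cusp
  obtain ⟨c₁, a₀, ha₀, hmem₁⟩ := exists_conj_cusp p Γ hp
  have hirr₁ := irr_conjSub c₁ Γ hirr
  -- step 2: `0` is a cusp
  obtain ⟨g, hg, hgx⟩ := exists_smul_ne_of_irr (conjSub c₁ Γ) hirr₁ (∞ : OnePoint k)
  obtain ⟨t, ht⟩ : ∃ t : k, g • (∞ : OnePoint k) = ((t : k) : OnePoint k) := by
    rcases h : g • (∞ : OnePoint k) with _ | t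
    · exact absurd h hgx
    · exact ⟨t, rfl⟩
  have hmem₂ : uMat a₀ ∈ conjSub (uMat (-t)) (conjSub c₁ Γ) := by
    have h2 := conj_mem_conjSub (uMat (-t)) hmem₁
    have h3 : uMat (-t) * uMat a₀ * (uMat (-t))⁻¹ = uMat a₀ := by
      rw [← uMat_neg, ← uMat_add, ← uMat_add]
      congr 1
      ring
    rwa [h3] at h2
  have h0₂ : ((0 : k) : OnePoint k) ∈ cuspSet (conjSub (uMat (-t)) (conjSub c₁ Γ)) := by
    have h2 := smul_mem_cuspSet_conjSub (uMat (-t)) (uMat_smul_infty _) (conjSub c₁ Γ)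
      (⟨g, hg, rfl⟩ : g • (∞ : OnePoint k) ∈ cuspSet (conjSub c₁ Γ))
    rwa [ht, uMat_smul_coe, add_neg_cancel] at h2
  -- step 3: `uMat 1 ∈ Γ`
  set s : kˣ := (Units.mk0 a₀ ha₀)⁻¹ with hs
  have h1 : uMat (1 : k) ∈ conjSub (sMat s) (conjSub (uMat (-t)) (conjSub c₁ Γ)) := by
    have h2 := conj_mem_conjSub (sMat s) hmem₂
    rw [sMat_conj_uMat] at h2
    have h3 : (s : k) * a₀ = 1 := by
      rw [hs, Units.val_inv_eq_inv_val, Units.val_mk0, inv_mul_cancel₀ ha₀]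
    rwa [h3] at h2
  have h0 : ((0 : k) : OnePoint k) ∈
      cuspSet (conjSub (sMat s) (conjSub (uMat (-t)) (conjSub c₁ Γ))) := by
    have h2 := smul_mem_cuspSet_conjSub (sMat s) (sMat_smul_infty s) _ h0₂
    rwa [sMat_smul_zero] at h2
  rw [conjSub_conjSub, conjSub_conjSub] at h1 h0
  generalize sMat s * uMat (-t) * c₁ = c at h1 h0
  have hirr₂ := irr_conjSub c Γ hirr
  have hsplit₂ := split_conjSub c Γ hsplit
  have hcusp : ∃ a : k, a ≠ 0 ∧ uMat a ∈ conjSub c Γ := ⟨1, one_ne_zero, h1⟩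
  refine ⟨c, unipAdd (conjSub c Γ), ?_⟩
  rcases isNOne_or_card_eq_three p hp2 (conjSub c Γ) hirr₂ hsplit₂ hcusp h0 with hN | h3
  · exact borelData_of_isNOne p hp2 (conjSub c Γ) h1 h0 hN
  · exact ⟨fun a => Iff.rfl, h1, index_unipAdd p hp2 (conjSub c Γ) hcusp, Or.inl h3⟩

end Fermat.Agent.S56.GT
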