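/-
S56 / W5 / GT: `H¹(Γ, ad⁰ ⊗ det) = 0` in matrix form, from the leaves
`GT/Average.lean` (G1), `GT/Conj.lean` (G2), `GT/Borel.lean` (G3), `GT/Structure.lean` (G4).
Owner: helper59.  Assembly (this file): helper34.

* `p ∤ #Γ`: averaging (G1) over the trivial subgroup.
* `p ∣ #Γ`: conjugate (G2) into the normal form of the structure theorem (G4), compute on the
  unipotent subgroup `{uMat a | a ∈ A}` (G3), which has index prime to `p`, and average (G1).
-/
import Fermat.Agent.S56.TW.GT.Average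
import Fermat.Agent.S56.TW.GT.Conj
import Fermat.Agent.S56.TW.GT.Borel
import Fermat.Agent.S56.TW.GT.Structure

set_option autoImplicit false

namespace Fermat.Agent.S56.GT

variable {k : Type} [Field k]

/-- The unipotent subgroup `{uMat a | a ∈ A}`. -/
def gtUSub (A : AddSubgroup k) : Subgroup (GL (Fin 2) k) where
  carrier := uMat '' (A : Set k)
  one_mem' := ⟨0, A.zero_mem, AddChar.map_zero_eq_one _⟩
  mul_mem' := by
    rintro _ _ ⟨a, ha, rfl⟩ ⟨b, hb, rfl⟩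
    exact ⟨a + b, A.add_mem ha hb, AddChar.map_add_eq_mul _ a b⟩
  inv_mem' := by
    rintro _ ⟨a, ha, rfl⟩
    exact ⟨-a, A.neg_mem ha, AddChar.map_neg_eq_inv _ a⟩

theorem mem_gtUSub {A : AddSubgroup k} {g : GL (Fin 2) k} :
    g ∈ gtUSub A ↔ ∃ a ∈ A, uMat a = g := Iff.rfl

theorem card_gtUSub (A : AddSubgroup k) : Nat.card (gtUSub A) = Nat.card A :=
  Nat.card_image_of_injective Matrix.GeneralLinearGroup.injective_upperRightHom (A : Set k)

/-- A twisted cocycle vanishes at `1`. -/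
theorem gt_cocycle_one {Γ : Subgroup (GL (Fin 2) k)}
    {ψ : GL (Fin 2) k → Matrix (Fin 2) (Fin 2) k} (hψ : IsTCocycle Γ ψ) : ψ 1 = 0 := by
  have h := hψ.map_mul 1 Γ.one_mem 1 Γ.one_mem
  rw [mul_one, avg_tad_one] at h
  exact left_eq_add.mp h

theorem gt_main [Finite k] (p : ℕ) [Fact p.Prime] [CharP k p] (hp2 : p ≠ 2)
    (Γ : Subgroup (GL (Fin 2) k))
    (hirr : ¬ ∃ v : Fin 2 → k, v ≠ 0 ∧
      ∀ g ∈ Γ, ∃ a : k, (g : Matrix (Fin 2) (Fin 2) k).mulVec v = a • v)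
    (hsplit : ∀ g ∈ Γ, ∃ α β : k, (g : Matrix (Fin 2) (Fin 2) k).charpoly =
      (Polynomial.X - Polynomial.C α) * (Polynomial.X - Polynomial.C β))
    (hdet : p ≠ 3 → ∃ g ∈ Γ, ((Matrix.GeneralLinearGroup.det g : kˣ) : k) ^ 2 ≠ 1)
    (ψ : GL (Fin 2) k → Matrix (Fin 2) (Fin 2) k) (hψ : IsTCocycle Γ ψ) : IsTCob Γ ψ := by
  by_cases hp : p ∣ Nat.card Γ
  · -- the structure theorem, after conjugation
    obtain ⟨c, A, hB⟩ := exists_borelData p hp2 Γ hirr hsplit hp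
    refine isTCob_of_conjSub c Γ (fun ψ' hψ' => ?_) ψ hψ
    obtain ⟨X, hX, hX'⟩ := isTCob_unip_of_borelData p hp2 (conjSub c Γ) A hB
      (fun h3 => exists_det_sq_ne_one_conjSub c Γ (hdet h3)) ψ' hψ'
    have hle : gtUSub A ≤ conjSub c Γ := by
      rintro _ ⟨a, ha, rfl⟩
      exact (hB.mem_iff a).mpr ha
    refine isTCob_of_isTCob_subgroup p (conjSub c Γ) (gtUSub A) hle ?_ ψ' hψ' ?_
    · rw [card_gtUSub]
      exact hB.index
    · refine ⟨X, hX, ?_⟩
      rintro _ ⟨a, ha, rfl⟩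
      exact hX' a ha
  · -- averaging over the trivial subgroup
    refine isTCob_of_isTCob_subgroup p Γ ⊥ bot_le ?_ ψ hψ ?_
    · rw [Subgroup.card_bot, Nat.div_one]
      exact hp
    · refine ⟨0, Matrix.trace_zero _ _, fun g hg => ?_⟩
      rw [Subgroup.mem_bot] at hg
      rw [hg, gt_cocycle_one hψ, avg_tad_zero, sub_zero]

end Fermat.Agent.S56.GT
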