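/-
S56 / W5 / GT leaf G1 (averaging = restriction to a subgroup of index prime to `p` is injective
on `H¹`).  Statement FIXED (helper59); proof: helper34.

Proof: subtract the coboundary, so `ψ = 0` on `U`; then `ψ (g u) = ψ g` for `u ∈ U`; put
`Y = [Γ : U]⁻¹ • ∑_{gU ∈ Γ/U} ψ g`; the cocycle identity `ψ (h g) = ψ h + tad h (ψ g)` summed over
the cosets gives `Y = ψ h + tad h Y`, i.e. `ψ h = tad h (-Y) - (-Y)`.  (`tad` is multiplicative:
`tad (g h) = tad g ∘ tad h`, `k`-linear, trace-preserving up to `det`.)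
-/
import Fermat.Agent.S56.TW.GT.Defs
import Fermat.Agent.S56.TW.GT.Average.TadBasic

set_option autoImplicit false
set_option linter.style.haveILetI false

namespace Fermat.Agent.S56.GT

variable {k : Type} [Field k]

/-- A twisted cocycle which vanishes on `U` is constant on the left cosets of `U`. -/
theorem avg_const_on_coset {Γ U : Subgroup (GL (Fin 2) k)}
    {ψ : GL (Fin 2) k → Matrix (Fin 2) (Fin 2) k} (hψ : IsTCocycle Γ ψ)
    (h0 : ∀ u ∈ U, ψ u = 0) {a b : GL (Fin 2) k} (ha : a ∈ Γ)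
    (hab : a⁻¹ * b ∈ U) (hab' : a⁻¹ * b ∈ Γ) : ψ b = ψ a := by
  have h1 : b = a * (a⁻¹ * b) := by group
  rw [h1, hψ.map_mul a ha _ hab', h0 _ hab, avg_tad_zero, add_zero]

/-- Averaging: a twisted cocycle on `Γ` which vanishes on a subgroup `U` whose index is
invertible in `k` is a coboundary. -/
theorem avg_isTCob_of_vanish [Finite k] (Γ U : Subgroup (GL (Fin 2) k))
    (hn : ((U.relIndex Γ : ℕ) : k) ≠ 0)
    (ψ : GL (Fin 2) k → Matrix (Fin 2) (Fin 2) k) (hψ : IsTCocycle Γ ψ)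
    (h0 : ∀ u ∈ U, ψ u = 0) : IsTCob Γ ψ := by
  classical
  letI : Fintype (Γ ⧸ U.subgroupOf Γ) := Fintype.ofFinite _
  set F : Γ ⧸ U.subgroupOf Γ → Matrix (Fin 2) (Fin 2) k :=
    fun q => ψ ((q.out : Γ) : GL (Fin 2) k) with hF
  set S : Matrix (Fin 2) (Fin 2) k := ∑ q, F q with hS
  have hcard : Fintype.card (Γ ⧸ U.subgroupOf Γ) = U.relIndex Γ := by
    rw [← Nat.card_eq_fintype_card, ← Subgroup.index_eq_card]
    rfl
  -- the translated sum
  have hkey : ∀ h : Γ, ∀ q : Γ ⧸ U.subgroupOf Γ,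
      ψ ((h : GL (Fin 2) k) * ((q.out : Γ) : GL (Fin 2) k)) = F (h • q) := by
    intro h q
    have h1 : (QuotientGroup.mk ((h • q).out) : Γ ⧸ U.subgroupOf Γ)
        = QuotientGroup.mk (h * q.out) := by
      rw [QuotientGroup.out_eq']
      conv_lhs => rw [← QuotientGroup.out_eq' q]
      rfl
    have h2 : ((h • q).out)⁻¹ * (h * q.out) ∈ U.subgroupOf Γ := QuotientGroup.eq.mp h1
    have h3 : (((h • q).out : Γ) : GL (Fin 2) k)⁻¹ * ((h : GL (Fin 2) k) * ((q.out : Γ) : GL (Fin 2) k))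
        ∈ U := by
      have := Subgroup.mem_subgroupOf.mp h2
      simpa using this
    exact avg_const_on_coset hψ h0 ((h • q).out).2 h3
      (Γ.mul_mem (Γ.inv_mem ((h • q).out).2) (Γ.mul_mem h.2 (q.out).2))
  have hsum : ∀ h : Γ, (U.relIndex Γ : k) • ψ (h : GL (Fin 2) k) = S - tad (h : GL (Fin 2) k) S := by
    intro h
    have e1 : ∑ q : Γ ⧸ U.subgroupOf Γ, F (h • q) = S :=
      Equiv.sum_comp (MulAction.toPerm h) F
    have e2 : ∑ q : Γ ⧸ U.subgroupOf Γ, F (h • q)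
        = ∑ q : Γ ⧸ U.subgroupOf Γ, (ψ (h : GL (Fin 2) k) + tad (h : GL (Fin 2) k) (F q)) := by
      apply Finset.sum_congr rfl
      intro q _
      rw [← hkey h q, hψ.map_mul _ h.2 _ (q.out).2]
    rw [Finset.sum_add_distrib, Finset.sum_const, Finset.card_univ, hcard, ← avg_tad_sum,
      e1] at e2
    rw [← Nat.cast_smul_eq_nsmul k] at e2
    rw [eq_sub_iff_add_eq]
    exact e2.symm
  refine ⟨-((U.relIndex Γ : k)⁻¹ • S), ?_, fun g hg => ?_⟩
  · rw [Matrix.trace_neg, Matrix.trace_smul, hS, Matrix.trace_sum]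
    have : ∀ q ∈ (Finset.univ : Finset (Γ ⧸ U.subgroupOf Γ)), (F q).trace = 0 :=
      fun q _ => hψ.trace_zero _ (q.out).2
    rw [Finset.sum_eq_zero this, smul_zero, neg_zero]
  · have h1 := hsum ⟨g, hg⟩
    simp only at h1
    have h2 : ψ g = (U.relIndex Γ : k)⁻¹ • (S - tad g S) := by
      rw [← h1, smul_smul, inv_mul_cancel₀ hn, one_smul]
    rw [h2, avg_tad_neg, avg_tad_smul, smul_sub]
    abel

theorem isTCob_of_isTCob_subgroup [Finite k] (p : ℕ) [Fact p.Prime] [CharP k p]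
    (Γ U : Subgroup (GL (Fin 2) k)) (hU : U ≤ Γ) (hidx : ¬ p ∣ Nat.card Γ / Nat.card U)
    (ψ : GL (Fin 2) k → Matrix (Fin 2) (Fin 2) k) (hψ : IsTCocycle Γ ψ) (h : IsTCob U ψ) :
    IsTCob Γ ψ := by
  obtain ⟨X₀, hX₀, hX⟩ := h
  -- the index
  have hcardU : Nat.card (U.subgroupOf Γ) = Nat.card U :=
    Nat.card_congr (Subgroup.subgroupOfEquivOfLe hU).toEquiv
  have hidx' : Nat.card Γ / Nat.card U = U.relIndex Γ := by
    have h1 : (U.subgroupOf Γ).index * Nat.card (U.subgroupOf Γ) = Nat.card Γ :=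
      Subgroup.index_mul_card _
    rw [hcardU] at h1
    have hpos : 0 < Nat.card U := Nat.card_pos
    rw [← h1, Nat.mul_div_cancel _ hpos]
    rfl
  have hn : ((U.relIndex Γ : ℕ) : k) ≠ 0 := by
    rw [Ne, CharP.cast_eq_zero_iff k p, ← hidx']
    exact hidx
  -- subtract the coboundary
  have hcoc : IsTCocycle Γ (fun g => ψ g - (tad g X₀ - X₀)) := by
    refine ⟨fun g hg => ?_, fun g hg g' hg' => ?_⟩
    · rw [Matrix.trace_sub, Matrix.trace_sub, hψ.trace_zero g hg,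
        avg_trace_tad_eq_zero g hX₀, hX₀]
      simp
    · show ψ (g * g') - (tad (g * g') X₀ - X₀)
        = ψ g - (tad g X₀ - X₀) + tad g (ψ g' - (tad g' X₀ - X₀))
      rw [hψ.map_mul g hg g' hg', avg_cob_mul, avg_tad_sub g (ψ g')]
      abel
  have hvan : ∀ u ∈ U, (fun g => ψ g - (tad g X₀ - X₀)) u = 0 := by
    intro u hu
    show ψ u - (tad u X₀ - X₀) = 0
    rw [hX u hu, sub_self]
  obtain ⟨Y, hY, hY'⟩ := avg_isTCob_of_vanish Γ U hn _ hcoc hvan
  refine ⟨Y + X₀, by rw [Matrix.trace_add, hY, hX₀, add_zero], fun g hg => ?_⟩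
  have h1 := hY' g hg
  simp only at h1
  rw [avg_tad_add]
  have h2 : ψ g = (tad g Y - Y) + (tad g X₀ - X₀) := by
    rw [← h1]
    abel
  rw [h2]
  abel

end Fermat.Agent.S56.GT
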