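/-
S56 / W5 / GT sub-leaf S-A (Sylow subgroups and cusps), part 1: the upper unipotent subgroup of
`Γ` is a Sylow `p`-subgroup (owner: helper23).  Uses the statements of `GT/Fixed.lean`.
-/
import Fermat.Agent.S56.TW.GT.Fixed

set_option autoImplicit false

namespace Fermat.Agent.S56.GT

open Matrix OnePoint

variable {k : Type} [Field k]

/-- Powers of an upper triangular matrix. -/
theorem cus_upper_pow (g : Matrix (Fin 2) (Fin 2) k) (hg : g 1 0 = 0) (m : ℕ) :
    (g ^ m) 1 0 = 0 ∧ (g ^ m) 0 0 = g 0 0 ^ m ∧ (g ^ m) 1 1 = g 1 1 ^ m := by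
  induction m with
  | zero => simp
  | succ m ih =>
    obtain ⟨h10, h00, h11⟩ := ih
    rw [pow_succ]
    simp only [Matrix.mul_apply, Fin.sum_univ_two, hg, h10, h00, h11]
    refine ⟨by ring, by ring, by ring⟩

/-- In characteristic `p`, an element with `x ^ (p ^ n) = 1` is `1`. -/
theorem cus_eq_one_of_pow (p : ℕ) [Fact p.Prime] [CharP k p] (x : k) (n : ℕ)
    (h : x ^ p ^ n = 1) : x = 1 := by
  have h' : (x - 1) ^ p ^ n = 0 := by
    rw [sub_pow_char_pow, h, one_pow, sub_self]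
  exact sub_eq_zero.mp (pow_eq_zero_iff (pow_pos (Fact.out : p.Prime).pos n).ne' |>.mp h')

/-- An upper triangular element of `p`-power order is upper unipotent. -/
theorem cus_eq_uMat_of_pow (p : ℕ) [Fact p.Prime] [CharP k p] (g : GL (Fin 2) k)
    (hg : (g : Matrix (Fin 2) (Fin 2) k) 1 0 = 0) (n : ℕ) (h : g ^ p ^ n = 1) :
    g = uMat ((g : Matrix (Fin 2) (Fin 2) k) 0 1) := by
  have h' : (g : Matrix (Fin 2) (Fin 2) k) ^ p ^ n = 1 := by
    rw [← Units.val_pow_eq_pow_val, h, Units.val_one]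
  obtain ⟨-, h00, h11⟩ := cus_upper_pow (g : Matrix (Fin 2) (Fin 2) k) hg (p ^ n)
  rw [h'] at h00 h11
  have e00 := cus_eq_one_of_pow p _ n h00.symm
  have e11 := cus_eq_one_of_pow p _ n h11.symm
  apply Units.ext
  ext i j
  fin_cases i <;> fin_cases j <;> simp [e00, e11, hg]

theorem cus_uMat_pow (p : ℕ) [CharP k p] (a : k) : uMat a ^ p = 1 := by
  have h : ∀ m : ℕ, uMat a ^ m = uMat (m • a) := by
    intro m
    induction m with
    | zero => simp [uMat_zero]
    | succ m ih => rw [pow_succ, ih, succ_nsmul, uMat_add]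
  rw [h, nsmul_eq_mul, CharP.cast_eq_zero k p, zero_mul, uMat_zero]

theorem cus_isPGroup_unipSub (p : ℕ) [CharP k p] (Γ : Subgroup (GL (Fin 2) k)) :
    IsPGroup p (unipSub Γ) := by
  rintro ⟨g, hg, a, rfl⟩
  refine ⟨1, ?_⟩
  apply Subtype.ext
  rw [pow_one]
  exact cus_uMat_pow p a

variable [DecidableEq k]

/-- `uMat a`, `a ≠ 0`, fixes only `∞`. -/
theorem cus_fixed_uMat {a : k} (ha : a ≠ 0) {x : OnePoint k} (h : uMat a • x = x) : x = ∞ := by
  cases x with
  | infty => rfl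
  | coe y =>
    rw [uMat_smul_coe] at h
    have := OnePoint.coe_injective h
    exact absurd (add_eq_left.mp this) ha

theorem cus_not_dvd_card_onePoint [Finite k] (p : ℕ) [Fact p.Prime] [CharP k p] :
    ¬ p ∣ Nat.card (OnePoint k) := by
  have h1 : Nat.card (OnePoint k) = Nat.card k + 1 := Finite.card_option
  have h2 : p ∣ Nat.card k := by
    have h := addOrderOf_dvd_natCard (1 : k)
    have e : addOrderOf (1 : k) = p := CharP.eq k (CharP.addOrderOf_one k) inferInstance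
    rwa [e] at h
  rw [h1]
  intro h
  have := (Nat.dvd_add_right h2).mp h
  exact (Fact.out : p.Prime).one_lt.ne' (Nat.dvd_one.mp this)

/-- The upper unipotent subgroup of `Γ` is a Sylow `p`-subgroup of `Γ`. -/
theorem cus_exists_sylow [Finite k] (p : ℕ) [Fact p.Prime] [CharP k p]
    (Γ : Subgroup (GL (Fin 2) k)) (hcusp : ∃ a : k, a ≠ 0 ∧ uMat a ∈ Γ) :
    ∃ P : Sylow p Γ, (P : Subgroup Γ) = (unipSub Γ).subgroupOf Γ := by
  obtain ⟨a, ha0, haΓ⟩ := hcusp
  have hle : unipSub Γ ≤ Γ := fun g hg => hg.1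
  have hU' : IsPGroup p ((unipSub Γ).subgroupOf Γ) :=
    (cus_isPGroup_unipSub p Γ).of_equiv (Subgroup.subgroupOfEquivOfLe hle).symm
  obtain ⟨P, hP⟩ := hU'.exists_le_sylow
  refine ⟨P, le_antisymm ?_ hP⟩
  -- `P` fixes a point
  obtain ⟨x, hx⟩ := P.isPGroup'.nonempty_fixed_point_of_prime_not_dvd_card (OnePoint k)
    (cus_not_dvd_card_onePoint p)
  have hx' : ∀ g : Γ, g ∈ (P : Subgroup Γ) → (g : GL (Fin 2) k) • x = x := by
    intro g hg
    exact hx ⟨g, hg⟩
  -- this point is `∞`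
  have hu : (⟨uMat a, haΓ⟩ : Γ) ∈ (P : Subgroup Γ) := by
    apply hP
    rw [Subgroup.mem_subgroupOf]
    exact ⟨haΓ, a, rfl⟩
  have hxinf : x = ∞ := cus_fixed_uMat ha0 (hx' _ hu)
  subst hxinf
  intro g hg
  rw [Subgroup.mem_subgroupOf]
  refine ⟨g.2, (g : GL (Fin 2) k) 0 1, ?_⟩
  have h10 : ((g : GL (Fin 2) k) : Matrix (Fin 2) (Fin 2) k) 1 0 = 0 :=
    smul_infty_eq_self_iff.mp (hx' g hg)
  obtain ⟨n, hn⟩ := P.isPGroup' ⟨g, hg⟩
  have hn' : (g : GL (Fin 2) k) ^ p ^ n = 1 := by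
    have := congrArg (fun y : (P : Subgroup Γ) => ((y : Γ) : GL (Fin 2) k)) hn
    simpa using this
  exact cus_eq_uMat_of_pow p _ h10 n hn'

end Fermat.Agent.S56.GT
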