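/-
S56 / W5 / GT sub-leaf S-A (Sylow subgroups and cusps), part 2: index of the unipotent subgroup,
decomposition of parabolic elements, their fixed points (owner: helper23).
Uses the statements of `GT/Fixed.lean`.
-/
import Fermat.Agent.S56.TW.GT.CuspsSylow

set_option autoImplicit false

namespace Fermat.Agent.S56.GT

open Matrix OnePoint

variable {k : Type} [Field k]

theorem cus_card_unipSub (Γ : Subgroup (GL (Fin 2) k)) :
    Nat.card (unipSub Γ) = Nat.card (unipAdd Γ) := by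
  symm
  apply Nat.card_congr
  refine Equiv.ofBijective (fun a : unipAdd Γ => (⟨uMat a.1, a.2, a.1, rfl⟩ : unipSub Γ)) ⟨?_, ?_⟩
  · intro a b hab
    have h := congrArg Subtype.val hab
    exact Subtype.ext (uMat_injective h)
  · rintro ⟨g, hg, a, rfl⟩
    exact ⟨⟨a, hg⟩, rfl⟩

theorem cus_three_le_card [Finite k] (p : ℕ) [Fact p.Prime] [CharP k p] (hp2 : p ≠ 2)
    (Γ : Subgroup (GL (Fin 2) k)) (hcusp : ∃ a : k, a ≠ 0 ∧ uMat a ∈ Γ) :
    3 ≤ Nat.card (unipAdd Γ) := by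
  obtain ⟨a, ha0, haΓ⟩ := hcusp
  have hx0 : (⟨a, haΓ⟩ : unipAdd Γ) ≠ 0 := by
    intro h
    exact ha0 (congrArg Subtype.val h)
  have hpx : p • (⟨a, haΓ⟩ : unipAdd Γ) = 0 := by
    apply Subtype.ext
    show p • a = 0
    rw [nsmul_eq_mul, CharP.cast_eq_zero k p, zero_mul]
  have hord := addOrderOf_eq_prime hpx hx0
  have hdvd := addOrderOf_dvd_natCard (⟨a, haΓ⟩ : unipAdd Γ)
  rw [hord] at hdvd
  have hpos : 0 < Nat.card (unipAdd Γ) := Nat.card_pos
  have hle := Nat.le_of_dvd hpos hdvd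
  have hp3 : 3 ≤ p := by
    have := (Fact.out : p.Prime).two_le
    omega
  omega

section Dec

variable [DecidableEq k]

theorem cus_index_unipAdd [Finite k] (p : ℕ) [Fact p.Prime] [CharP k p]
    (Γ : Subgroup (GL (Fin 2) k)) (hcusp : ∃ a : k, a ≠ 0 ∧ uMat a ∈ Γ) :
    ¬ p ∣ Nat.card Γ / Nat.card (unipAdd Γ) := by
  obtain ⟨P, hP⟩ := cus_exists_sylow p Γ hcusp
  have hle : unipSub Γ ≤ Γ := fun g hg => hg.1
  have hidx := P.not_dvd_index
  have hcard : Nat.card (P : Subgroup Γ) = Nat.card (unipAdd Γ) := by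
    rw [hP, ← cus_card_unipSub]
    exact Nat.card_congr (Subgroup.subgroupOfEquivOfLe hle).toEquiv
  have hmul := Subgroup.card_mul_index (P : Subgroup Γ)
  rw [hcard] at hmul
  rw [← hmul, Nat.mul_div_cancel_left _ Nat.card_pos]
  exact hidx

/-- A unipotent element has a fixed point (any characteristic). -/
theorem cus_exists_fixed_of_isUnip (g : GL (Fin 2) k) (hg : IsUnip g) :
    ∃ x : OnePoint k, g • x = x := by
  obtain ⟨htr, hdet⟩ := hg
  rw [Matrix.trace_fin_two] at htr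
  rw [Matrix.det_fin_two] at hdet
  by_cases h10 : (g : Matrix (Fin 2) (Fin 2) k) 1 0 = 0
  · exact ⟨∞, smul_infty_eq_self_iff.mpr h10⟩
  · refine ⟨(((g : Matrix (Fin 2) (Fin 2) k) 0 0 - 1) / (g : Matrix (Fin 2) (Fin 2) k) 1 0 : k),
      ?_⟩
    rw [smul_some_eq_ite]
    have hden : (g : Matrix (Fin 2) (Fin 2) k) 1 0 *
        (((g : Matrix (Fin 2) (Fin 2) k) 0 0 - 1) / (g : Matrix (Fin 2) (Fin 2) k) 1 0) +
        (g : Matrix (Fin 2) (Fin 2) k) 1 1 = 1 := by
      rw [mul_div_cancel₀ _ h10]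
      linear_combination htr
    rw [if_neg (by rw [hden]; exact one_ne_zero), hden, div_one]
    congr 1
    field_simp
    linear_combination -hdet + (g : Matrix (Fin 2) (Fin 2) k) 0 0 * htr

theorem cus_exists_conj_cusp [Finite k] (p : ℕ) [Fact p.Prime] [CharP k p]
    (Γ : Subgroup (GL (Fin 2) k)) (hp : p ∣ Nat.card Γ) :
    ∃ (c : GL (Fin 2) k) (a : k), a ≠ 0 ∧ uMat a ∈ conjSub c Γ := by
  obtain ⟨g, hg⟩ := exists_prime_orderOf_dvd_card' p hp
  have hgp : (g : GL (Fin 2) k) ^ p = 1 := by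
    have := pow_orderOf_eq_one g
    rw [hg] at this
    have := congrArg (Subtype.val) this
    simpa using this
  have hg1 : (g : GL (Fin 2) k) ≠ 1 := by
    intro h
    have : g = 1 := Subtype.ext h
    rw [this, orderOf_one] at hg
    exact (Fact.out : p.Prime).one_lt.ne hg
  have hunip : IsUnip (g : GL (Fin 2) k) := (isUnip_iff_pow_eq_one p _).mpr hgp
  obtain ⟨x, hx⟩ := cus_exists_fixed_of_isUnip _ hunip
  obtain ⟨y, hxy⟩ : ∃ y : OnePoint k, x ≠ y := by
    by_cases h : x = ∞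
    · exact ⟨((0 : k) : OnePoint k), by rw [h]; exact OnePoint.infty_ne_coe 0⟩
    · exact ⟨∞, h⟩
  obtain ⟨c, hcx, -⟩ := exists_smul_eq_infty_zero x y hxy
  have hfix : (c * (g : GL (Fin 2) k) * c⁻¹) • (∞ : OnePoint k) = ∞ := by
    rw [mul_smul, mul_smul, ← hcx, inv_smul_smul, hx]
  obtain ⟨a, ha⟩ := eq_uMat_of_isUnip _ (isUnip_conj c _ hunip) hfix
  refine ⟨c, a, ?_, ?_⟩
  · rintro rfl
    rw [uMat_zero] at ha
    apply hg1
    have := congrArg (fun h => c⁻¹ * h * c) ha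
    simpa [mul_assoc] using this
  · rw [mem_conjSub, ← ha]
    have : c⁻¹ * (c * (g : GL (Fin 2) k) * c⁻¹) * c = g := by
      simp [mul_assoc]
    rw [this]
    exact g.2

end Dec

end Fermat.Agent.S56.GT
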