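/-
S56 / W5 / GT sub-leaf S-A (Sylow subgroups and cusps), part 3: decomposition of parabolic
elements and their fixed points (owner: helper23).  Uses the statements of `GT/Fixed.lean`.
-/
import Fermat.Agent.S56.TW.GT.CuspsPar

set_option autoImplicit false

namespace Fermat.Agent.S56.GT

open Matrix OnePoint

variable {k : Type} [Field k]

/-- The scalar matrix `λ`. -/
noncomputable def cusScal (l : kˣ) : GL (Fin 2) k := Matrix.GeneralLinearGroup.scalar (Fin 2) l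

theorem cus_coe_scal (l : kˣ) :
    (cusScal l : Matrix (Fin 2) (Fin 2) k) = !![(l : k), 0; 0, (l : k)] := by
  unfold cusScal
  rw [Matrix.GeneralLinearGroup.coe_scalar]
  ext i j
  fin_cases i <;> fin_cases j <;> simp

theorem cus_scal_mem_center (l : kˣ) : cusScal l ∈ Subgroup.center (GL (Fin 2) k) := by
  rw [Matrix.GeneralLinearGroup.center_eq_range_scalar]
  exact ⟨l, rfl⟩

theorem cus_scal_pow (l : kˣ) (n : ℕ) : cusScal l ^ n = cusScal (l ^ n) := by
  unfold cusScal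
  rw [map_pow]

theorem cus_scal_one : cusScal (1 : kˣ) = 1 := by
  unfold cusScal
  rw [map_one]

/-- The algebraic part of the decomposition of a parabolic element. -/
theorem cus_par_decomp_alg (h2 : (2 : k) ≠ 0) (g : GL (Fin 2) k) (hpar : g.IsParabolic) :
    ∃ (l : kˣ) (u : GL (Fin 2) k), IsUnip u ∧ u ≠ 1 ∧ g = cusScal l * u := by
  obtain ⟨hns, hdisc⟩ := hpar
  rw [Matrix.discr_fin_two] at hdisc
  have hdet0 : (g : Matrix (Fin 2) (Fin 2) k).det ≠ 0 := g.det_ne_zero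
  have h4 : (4 : k) ≠ 0 := by
    have : (4 : k) = 2 * 2 := by norm_num
    rw [this]
    exact mul_ne_zero h2 h2
  have htr0 : (g : Matrix (Fin 2) (Fin 2) k).trace ≠ 0 := by
    intro h
    rw [h] at hdisc
    have : 4 * (g : Matrix (Fin 2) (Fin 2) k).det = 0 := by linear_combination -hdisc
    rcases mul_eq_zero.mp this with h' | h'
    · exact h4 h'
    · exact hdet0 h'
  have hl0 : (g : Matrix (Fin 2) (Fin 2) k).trace / 2 ≠ 0 := div_ne_zero htr0 h2
  set l : kˣ := Units.mk0 _ hl0 with hl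
  have hlv : (l : k) = (g : Matrix (Fin 2) (Fin 2) k).trace / 2 := rfl
  have hcoe : (((cusScal l)⁻¹ * g : GL (Fin 2) k) : Matrix (Fin 2) (Fin 2) k) =
      (l : k)⁻¹ • (g : Matrix (Fin 2) (Fin 2) k) := by
    have : (cusScal l)⁻¹ = cusScal l⁻¹ := by
      unfold cusScal
      rw [map_inv]
    rw [this, Units.val_mul, cus_coe_scal, Units.val_inv_eq_inv_val]
    ext i j
    fin_cases i <;> fin_cases j <;> simp [Matrix.mul_apply, Fin.sum_univ_two]
  refine ⟨l, (cusScal l)⁻¹ * g, ⟨?_, ?_⟩, ?_, by rw [mul_inv_cancel_left]⟩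
  · rw [hcoe, Matrix.trace_smul, smul_eq_mul, hlv]
    field_simp
  · rw [hcoe, Matrix.det_smul, Fintype.card_fin, hlv]
    field_simp
    linear_combination -hdisc
  · intro h
    apply hns
    have hg : g = cusScal l := by
      have := congrArg (fun x => cusScal l * x) h
      simpa using this
    refine ⟨(l : k), ?_⟩
    rw [hg]
    unfold cusScal
    rw [Matrix.GeneralLinearGroup.coe_scalar]

variable [DecidableEq k]

theorem cus_par_decomp [Finite k] (p : ℕ) [Fact p.Prime] [CharP k p] (hp2 : p ≠ 2)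
    (Γ : Subgroup (GL (Fin 2) k)) (g : GL (Fin 2) k) (hg : g ∈ Γ) (hpar : g.IsParabolic) :
    ∃ z u : GL (Fin 2) k, z ∈ scal Γ ∧ u ∈ Γ ∧ IsUnip u ∧ u ≠ 1 ∧ g = z * u := by
  have h2 : (2 : k) ≠ 0 := by
    intro h
    have h' : ((2 : ℕ) : k) = 0 := by exact_mod_cast h
    have hd := (CharP.cast_eq_zero_iff k p 2).mp h'
    exact hp2 ((Nat.prime_dvd_prime_iff_eq Fact.out Nat.prime_two).mp hd)
  obtain ⟨l, u, hu, hu1, hgu⟩ := cus_par_decomp_alg h2 g hpar
  have hup : u ^ p = 1 := (isUnip_iff_pow_eq_one p u).mp hu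
  have hord : orderOf u = p := orderOf_eq_prime hup hu1
  -- the order of `kˣ` is prime to `p`
  have hcop : Nat.Coprime (Nat.card kˣ) p := by
    rw [Nat.coprime_comm, (Fact.out : p.Prime).coprime_iff_not_dvd, Nat.card_units]
    intro h
    have h2' : p ∣ Nat.card k := by
      have h := addOrderOf_dvd_natCard (1 : k)
      have e : addOrderOf (1 : k) = p := CharP.eq k (CharP.addOrderOf_one k) inferInstance
      rwa [e] at h
    have hpos : 0 < Nat.card k := Nat.card_pos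
    have : p ∣ Nat.card k - (Nat.card k - 1) := Nat.dvd_sub h2' h
    have h1 : Nat.card k - (Nat.card k - 1) = 1 := by omega
    rw [h1] at this
    exact (Fact.out : p.Prime).one_lt.ne' (Nat.dvd_one.mp this)
  obtain ⟨j, -, hj⟩ := Nat.exists_mul_mod_eq_one_of_coprime hcop (Fact.out : p.Prime).one_lt
  have hcomm : Commute (cusScal l) u :=
    (Subgroup.mem_center_iff.mp (cus_scal_mem_center l) u).symm
  have hgN : g ^ Nat.card kˣ = u ^ Nat.card kˣ := by
    rw [hgu, hcomm.mul_pow, cus_scal_pow, pow_card_eq_one', cus_scal_one, one_mul]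
  have huΓ : u ∈ Γ := by
    have h1 : (g ^ Nat.card kˣ) ^ j ∈ Γ := Γ.pow_mem (Γ.pow_mem hg _) _
    rw [hgN, ← pow_mul, ← pow_mod_orderOf, hord, hj, pow_one] at h1
    exact h1
  have hzΓ : cusScal l ∈ Γ := by
    have : cusScal l = g * u⁻¹ := by rw [hgu, mul_inv_cancel_right]
    rw [this]
    exact Γ.mul_mem hg (Γ.inv_mem huΓ)
  exact ⟨cusScal l, u, ⟨hzΓ, cus_scal_mem_center l⟩, huΓ, hu, hu1, hgu⟩

theorem cus_par_borel_mem [Finite k] (p : ℕ) [Fact p.Prime] [CharP k p] (hp2 : p ≠ 2)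
    (Γ : Subgroup (GL (Fin 2) k)) (g : GL (Fin 2) k) (hg : g ∈ Γ) (hpar : g.IsParabolic)
    (h : g • (∞ : OnePoint k) = ∞) : g ∈ scal Γ ⊔ unipSub Γ := by
  obtain ⟨z, u, hz, hu, hunip, -, rfl⟩ := cus_par_decomp p hp2 Γ g hg hpar
  apply Subgroup.mul_mem_sup hz
  rw [mul_smul] at h
  have hz' := smul_eq_self_of_mem_center z hz.2 (u • (∞ : OnePoint k))
  rw [hz'] at h
  obtain ⟨a, rfl⟩ := eq_uMat_of_isUnip u hunip h
  exact ⟨hu, a, rfl⟩

theorem cus_par_fixed_mem_cuspSet [Finite k] (p : ℕ) [Fact p.Prime] [CharP k p] (hp2 : p ≠ 2)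
    (Γ : Subgroup (GL (Fin 2) k)) (hcusp : ∃ a : k, a ≠ 0 ∧ uMat a ∈ Γ)
    (g : GL (Fin 2) k) (hg : g ∈ Γ) (hpar : g.IsParabolic) (x : OnePoint k) (hx : g • x = x) :
    x ∈ cuspSet Γ := by
  obtain ⟨z, u, hz, hu, hunip, hu1, rfl⟩ := cus_par_decomp p hp2 Γ g hg hpar
  rw [mul_smul, smul_eq_self_of_mem_center z hz.2] at hx
  have hup : u ^ p = 1 := (isUnip_iff_pow_eq_one p u).mp hunip
  -- the subgroup generated by `u` lies in a Sylow subgroup
  have hup' : (⟨u, hu⟩ : Γ) ^ p = 1 := Subtype.ext (by simpa using hup)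
  have hu1' : (⟨u, hu⟩ : Γ) ≠ 1 := fun h => hu1 (congrArg Subtype.val h)
  have hpg : IsPGroup p (Subgroup.zpowers (⟨u, hu⟩ : Γ)) := by
    apply IsPGroup.of_card (n := 1)
    rw [Nat.card_zpowers, pow_one]
    exact orderOf_eq_prime hup' hu1'
  obtain ⟨Q, hQ⟩ := hpg.exists_le_sylow
  obtain ⟨P, hP⟩ := cus_exists_sylow p Γ hcusp
  obtain ⟨γ, hγ⟩ := MulAction.exists_smul_eq Γ P Q
  have huQ : (⟨u, hu⟩ : Γ) ∈ (Q : Subgroup Γ) := hQ (Subgroup.mem_zpowers _)
  rw [← hγ, Sylow.coe_subgroup_smul, Subgroup.mem_pointwise_smul_iff_inv_smul_mem, MulAut.smul_def,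
    MulAut.conj_inv_apply, hP, Subgroup.mem_subgroupOf] at huQ
  obtain ⟨-, a, ha⟩ := huQ
  have ha' : (γ : GL (Fin 2) k)⁻¹ * u * (γ : GL (Fin 2) k) = uMat a := by
    simpa using ha
  have ha0 : a ≠ 0 := by
    rintro rfl
    rw [uMat_zero] at ha'
    apply hu1
    have := congrArg (fun h => (γ : GL (Fin 2) k) * h * (γ : GL (Fin 2) k)⁻¹) ha'
    simpa [mul_assoc] using this
  have hfix : uMat a • ((γ : GL (Fin 2) k)⁻¹ • x) = (γ : GL (Fin 2) k)⁻¹ • x := by
    rw [← ha', mul_smul, mul_smul, smul_inv_smul, hx]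
  have hinf := cus_fixed_uMat ha0 hfix
  refine ⟨γ, γ.2, ?_⟩
  rw [← hinf, smul_inv_smul]

end Fermat.Agent.S56.GT
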